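import Fermat.Agent.Lib.Cheb.Defs

/-!
# CHEB leaf IV1: abstract character bookkeeping (real parts only)
-/

set_option autoImplicit false

namespace Fermat.Agent.Lib.Cheb

open Filter Topology

/-- The number of characters killing `a` is `φ(m) / ord a`.  Proof:
`∑_{j < n} ∑_ψ ψ(a^j) = ∑_ψ ∑_{j<n} ψ(a)^j = n * #{ψ | ψ a = 1}` (geometric sum: `ψ(a)^n = 1`), and
`∑_ψ ψ(a^j) = φ(m) [a^j = 1]` (`DirichletCharacter.sum_characters_eq`). -/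
theorem card_filter_mul_orderOf {m : ℕ} [NeZero m] (a : (ZMod m)ˣ) :
    (Finset.univ.filter (fun ψ : DirichletCharacter ℂ m => ψ a = 1)).card * orderOf a =
      m.totient := by
  classical
  set n := orderOf a with hn
  have hnpos : 0 < n := orderOf_pos a
  have h1 : ∑ j ∈ Finset.range n, ∑ ψ : DirichletCharacter ℂ m,
      ψ ((a ^ j : (ZMod m)ˣ) : ZMod m) = (m.totient : ℂ) := by
    simp_rw [DirichletCharacter.sum_characters_eq]
    rw [Finset.sum_eq_single 0]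
    · simp
    · intro j hj hj0
      rw [if_neg]
      intro h
      have h' : a ^ j = 1 := Units.ext (by simpa using h)
      exact pow_ne_one_of_lt_orderOf hj0 (Finset.mem_range.1 hj) h'
    · intro h
      exact absurd (Finset.mem_range.2 hnpos) h
  have h2 : ∑ j ∈ Finset.range n, ∑ ψ : DirichletCharacter ℂ m,
      ψ ((a ^ j : (ZMod m)ˣ) : ZMod m) =
      ∑ ψ : DirichletCharacter ℂ m, if ψ a = 1 then (n : ℂ) else 0 := by
    rw [Finset.sum_comm]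
    refine Finset.sum_congr rfl fun ψ _ => ?_
    have h3 : ∀ j : ℕ, ψ ((a ^ j : (ZMod m)ˣ) : ZMod m) = (ψ a) ^ j := by
      intro j
      rw [Units.val_pow_eq_pow_val, map_pow]
    simp_rw [h3]
    split_ifs with h
    · simp [h]
    · rw [geom_sum_eq h, ← h3, hn, pow_orderOf_eq_one]
      simp
  rw [h1] at h2
  rw [← Finset.sum_filter, Finset.sum_const, nsmul_eq_mul] at h2
  exact_mod_cast h2.symm

theorem Abstract_summable_char {ι : Type*} {m : ℕ} [NeZero m] (c : ι → ZMod m) (w : ι → ℝ)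
    (hw0 : ∀ i, 0 ≤ w i) (hw : Summable w) (ψ : DirichletCharacter ℂ m) :
    Summable (fun i => ψ (c i) * (w i : ℂ)) := by
  refine Summable.of_norm_bounded hw (fun i => ?_)
  rw [norm_mul, Complex.norm_real, Real.norm_of_nonneg (hw0 i)]
  exact mul_le_of_le_one_left (hw0 i) (ψ.norm_le_one _)

theorem Abstract_orth {ι : Type*} {m : ℕ} [NeZero m] (c : ι → ZMod m) (w : ι → ℝ)
    (hw0 : ∀ i, 0 ≤ w i) (hw : Summable w) (b : (ZMod m)ˣ) :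
    ∑ ψ : DirichletCharacter ℂ m, ψ ((b⁻¹ : (ZMod m)ˣ) : ZMod m) * ∑' i, ψ (c i) * (w i : ℂ) =
      (m.totient : ℂ) * ((∑' i, if c i = (b : ZMod m) then w i else 0 : ℝ) : ℂ) := by
  simp_rw [← tsum_mul_left]
  rw [← Summable.tsum_finsetSum
    (fun ψ _ => (Abstract_summable_char c w hw0 hw ψ).mul_left _), Complex.ofReal_tsum,
    ← tsum_mul_left]
  refine tsum_congr fun i => ?_
  have h1 := DirichletCharacter.sum_char_inv_mul_char_eq ℂ b.isUnit (c i)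
  rw [ZMod.inv_coe_unit] at h1
  simp_rw [← mul_assoc]
  rw [← Finset.sum_mul, h1]
  by_cases h : (b : ZMod m) = c i
  · rw [if_pos h, if_pos h.symm]
  · rw [if_neg h, if_neg (fun h' => h h'.symm)]
    simp

theorem Abstract_char_inv {m : ℕ} [NeZero m] (ψ : DirichletCharacter ℂ m) (a : (ZMod m)ˣ) :
    ψ ((a⁻¹ : (ZMod m)ˣ) : ZMod m) = (starRingEnd ℂ) (ψ a) := by
  have h1 : ψ (a : ZMod m) * ψ ((a⁻¹ : (ZMod m)ˣ) : ZMod m) = 1 := by
    rw [← map_mul, Units.mul_inv, map_one]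
  have h2 : ‖ψ (a : ZMod m)‖ = 1 := ψ.unit_norm_eq_one a
  have h3 : ψ (a : ZMod m) * (starRingEnd ℂ) (ψ a) = 1 := by
    rw [Complex.mul_conj, Complex.normSq_eq_norm_sq, h2]
    simp
  have h0 : ψ (a : ZMod m) ≠ 0 := left_ne_zero_of_mul_eq_one h1
  exact mul_left_cancel₀ h0 (h1.trans h3.symm)

theorem Abstract_key {ι : Type*} {m : ℕ} [NeZero m] (c : ι → ZMod m) (w : ι → ℝ)
    (hw0 : ∀ i, 0 ≤ w i) (hw : Summable w) (T : Finset (DirichletCharacter ℂ m))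
    (hT : ∀ ψ ∈ T, ∀ i, ψ (c i) = 1) (a : (ZMod m)ˣ) (haT : ∀ ψ ∈ T, ψ a = 1) :
    (m.totient : ℝ) * ((∑' i, if c i = (a : ZMod m) then w i else 0) +
          ∑' i, if c i = ((a⁻¹ : (ZMod m)ˣ) : ZMod m) then w i else 0) =
      2 * T.card * ∑' i, w i +
        ∑ ψ ∈ Tᶜ, 2 * (ψ (a : ZMod m)).re * (∑' i, ψ (c i) * (w i : ℂ)).re := by
  classical
  have h1 := Abstract_orth c w hw0 hw a
  have h2 := Abstract_orth c w hw0 hw a⁻¹
  rw [inv_inv] at h2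
  have h3 : ((m.totient : ℝ) * ((∑' i, if c i = (a : ZMod m) then w i else 0) +
          ∑' i, if c i = ((a⁻¹ : (ZMod m)ˣ) : ZMod m) then w i else 0) : ℝ) =
      ∑ ψ : DirichletCharacter ℂ m,
        2 * (ψ (a : ZMod m)).re * (∑' i, ψ (c i) * (w i : ℂ)).re := by
    have h4 := congrArg Complex.re (congrArg₂ (· + ·) h1 h2)
    simp only [← Finset.sum_add_distrib, ← add_mul, ← mul_add] at h4
    rw [← Complex.ofReal_add, ← Complex.ofReal_natCast, ← Complex.ofReal_mul,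
      Complex.ofReal_re, Complex.re_sum] at h4
    rw [← h4]
    refine Finset.sum_congr rfl fun ψ _ => ?_
    rw [Abstract_char_inv, add_comm, Complex.add_conj, Complex.re_ofReal_mul]
  rw [h3, ← Finset.sum_add_sum_compl T]
  congr 1
  rw [Finset.sum_congr rfl (g := fun _ => 2 * ∑' i, w i), Finset.sum_const, nsmul_eq_mul]
  · ring
  · intro ψ hψ
    rw [haT ψ hψ]
    have h5 : (∑' i, ψ (c i) * (w i : ℂ)) = ((∑' i, w i : ℝ) : ℂ) := by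
      rw [Complex.ofReal_tsum]
      refine tsum_congr fun i => ?_
      rw [hT ψ hψ i, one_mul]
    rw [h5, Complex.ofReal_re, Complex.one_re, mul_one]

/-- **Abstract lemma.**  `ℓ_ψ(s) = ∑_i ψ(c_i) W_i(s)`, `D_b(s) = ∑_{c_i = b} W_i(s)`.
Orthogonality (`DirichletCharacter.sum_char_inv_mul_char_eq`): `∑_ψ ψ(b⁻¹) ℓ_ψ = φ(m) D_b`.
For `ψ ∈ T`, `ℓ_ψ = M := ∑ W`.  With `b = 1`: `φ(m) D_1 = |T| M + ∑_{ψ ∉ T} Re ℓ_ψ`, so by `ha`,
`hc1` the sum `∑_{ψ ∉ T} Re ℓ_ψ` is bounded; each term is bounded above (`hb`), hence also below.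
Finally `φ(m) (D_a + D_{a⁻¹}) = ∑_ψ 2 Re ψ(a) Re ℓ_ψ = 2 |T| M + O(1)`
(`ψ(a⁻¹) = conj ψ(a)`, the left side is real, `|Re ψ(a)| ≤ 1`). -/
theorem abstract_symm {ι : Type*} {m : ℕ} [NeZero m] (c : ι → ZMod m) (W : ℝ → ι → ℝ)
    (hW0 : ∀ s i, 0 ≤ W s i) (hWs : ∀ s, 1 < s → Summable (W s))
    (T : Finset (DirichletCharacter ℂ m)) (hT : ∀ ψ ∈ T, ∀ i, ψ (c i) = 1) (lamR : ℝ → ℝ)
    (ha : ∃ C : ℝ, ∀ᶠ s in 𝓝[>] (1 : ℝ), |∑' i, W s i - lamR s| ≤ C)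
    (hb : ∀ ψ : DirichletCharacter ℂ m, ψ ∉ T →
      ∃ C : ℝ, ∀ᶠ s in 𝓝[>] (1 : ℝ), (∑' i, ψ (c i) * (W s i : ℂ)).re ≤ C)
    (hc1 : ∃ C : ℝ, ∀ᶠ s in 𝓝[>] (1 : ℝ),
      |(m.totient : ℝ) * (∑' i, if c i = 1 then W s i else 0) - T.card * lamR s| ≤ C)
    (a : (ZMod m)ˣ) (haT : ∀ ψ ∈ T, ψ a = 1) :
    ∃ C : ℝ, ∀ᶠ s in 𝓝[>] (1 : ℝ),
      |(m.totient : ℝ) * ((∑' i, if c i = (a : ZMod m) then W s i else 0) +
          ∑' i, if c i = ((a⁻¹ : (ZMod m)ˣ) : ZMod m) then W s i else 0) -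
        2 * T.card * lamR s| ≤ C := by
  classical
  obtain ⟨C0, h0⟩ := ha
  obtain ⟨C1, h1⟩ := hc1
  have hb' : ∀ ψ : DirichletCharacter ℂ m, ∃ C : ℝ, ψ ∉ T →
      ∀ᶠ s in 𝓝[>] (1 : ℝ), (∑' i, ψ (c i) * (W s i : ℂ)).re ≤ C := by
    intro ψ
    by_cases hψ : ψ ∈ T
    · exact ⟨0, fun h => absurd hψ h⟩
    · obtain ⟨C, hC⟩ := hb ψ hψ
      exact ⟨C, fun _ => hC⟩
  choose Cψ hCψ using hb'
  have hball : ∀ᶠ s in 𝓝[>] (1 : ℝ), ∀ ψ : DirichletCharacter ℂ m, ψ ∉ T →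
      (∑' i, ψ (c i) * (W s i : ℂ)).re ≤ Cψ ψ := by
    rw [Filter.eventually_all]
    intro ψ
    by_cases hψ : ψ ∈ T
    · exact Filter.Eventually.of_forall fun s h => absurd hψ h
    · filter_upwards [hCψ ψ hψ] with s hs _ using hs
  refine ⟨2 * T.card * C0 + 2 * (2 * ∑ ψ ∈ Tᶜ, |Cψ ψ| + C1 + T.card * C0), ?_⟩
  filter_upwards [h0, h1, hball, self_mem_nhdsWithin] with s h0s h1s hbs hs
  have hs1 : 1 < s := hs
  have keya := Abstract_key c (W s) (hW0 s) (hWs s hs1) T hT a haT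
  have key1 := Abstract_key c (W s) (hW0 s) (hWs s hs1) T hT 1 (fun ψ _ => by simp)
  simp only [inv_one, Units.val_one, map_one, Complex.one_re, mul_one] at key1
  set x : DirichletCharacter ℂ m → ℝ := fun ψ => (∑' i, ψ (c i) * (W s i : ℂ)).re with hx
  set M : ℝ := ∑' i, W s i with hM
  set D1 : ℝ := ∑' i, if c i = 1 then W s i else 0 with hD1
  have key1' : (m.totient : ℝ) * D1 = T.card * M + ∑ ψ ∈ Tᶜ, x ψ := by
    have h2 : ∑ ψ ∈ Tᶜ, 2 * x ψ = 2 * ∑ ψ ∈ Tᶜ, x ψ := by rw [Finset.mul_sum]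
    have h3 : (m.totient : ℝ) * (D1 + D1) = 2 * T.card * M + ∑ ψ ∈ Tᶜ, 2 * x ψ := key1
    rw [h2] at h3
    linarith
  have hTc : (0 : ℝ) ≤ T.card := Nat.cast_nonneg _
  have hS : |∑ ψ ∈ Tᶜ, x ψ| ≤ C1 + T.card * C0 := by
    have h2 : ∑ ψ ∈ Tᶜ, x ψ = ((m.totient : ℝ) * D1 - T.card * lamR s) - T.card * (M - lamR s) := by
      rw [key1']
      ring
    rw [h2]
    refine (abs_sub _ _).trans ?_
    rw [abs_mul, abs_of_nonneg hTc]
    exact add_le_add h1s (mul_le_mul_of_nonneg_left h0s hTc)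
  have habs : ∑ ψ ∈ Tᶜ, |x ψ| ≤ 2 * ∑ ψ ∈ Tᶜ, |Cψ ψ| + C1 + T.card * C0 := by
    have h2 : ∀ ψ ∈ Tᶜ, |x ψ| ≤ 2 * |Cψ ψ| - x ψ := by
      intro ψ hψ
      have h3 : x ψ ≤ Cψ ψ := hbs ψ (Finset.mem_compl.1 hψ)
      have h4 := le_abs_self (Cψ ψ)
      have h5 := abs_nonneg (Cψ ψ)
      rcases abs_cases (x ψ) with ⟨h6, _⟩ | ⟨h6, _⟩ <;> rw [h6] <;> linarith
    have h3 := Finset.sum_le_sum h2
    rw [Finset.sum_sub_distrib, ← Finset.mul_sum] at h3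
    have h4 := neg_abs_le (∑ ψ ∈ Tᶜ, x ψ)
    linarith
  have hlast : |∑ ψ ∈ Tᶜ, 2 * (ψ (a : ZMod m)).re * x ψ| ≤ 2 * ∑ ψ ∈ Tᶜ, |x ψ| := by
    refine (Finset.abs_sum_le_sum_abs _ _).trans ?_
    rw [Finset.mul_sum]
    refine Finset.sum_le_sum fun ψ _ => ?_
    rw [abs_mul, abs_mul, abs_two]
    have h2 : |(ψ (a : ZMod m)).re| ≤ 1 :=
      (Complex.abs_re_le_norm _).trans (ψ.norm_le_one _)
    have h3 := abs_nonneg (x ψ)
    nlinarith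
  rw [keya]
  have h2 : 2 * (T.card : ℝ) * M + ∑ ψ ∈ Tᶜ, 2 * (ψ (a : ZMod m)).re * x ψ - 2 * T.card * lamR s =
      2 * T.card * (M - lamR s) + ∑ ψ ∈ Tᶜ, 2 * (ψ (a : ZMod m)).re * x ψ := by ring
  rw [h2]
  refine (abs_add_le _ _).trans ?_
  rw [abs_mul, abs_mul, abs_two, abs_of_nonneg hTc]
  have h3 : 2 * (T.card : ℝ) * |M - lamR s| ≤ 2 * T.card * C0 :=
    mul_le_mul_of_nonneg_left h0s (by positivity)
  linarith

end Fermat.Agent.Lib.Cheb
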