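import Fermat.Agent.Lib.Cheb.Main
import Fermat.Agent.S48.Contracts

/-!
# Adapter: `ChebSymmStatement` implies the contract `S48.StmtCheb`
-/

set_option autoImplicit false

namespace Fermat.Agent.Lib.Cheb

open Filter Topology

/-- A homomorphism from the absolute Galois group which factors through a finite level is
continuous for the discrete topology. -/
theorem continuous_of_factors {X : Type} [Group X] [TopologicalSpace X] [DiscreteTopology X]
    (φ : (AlgebraicClosure ℚ ≃ₐ[ℚ] AlgebraicClosure ℚ) →* X)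
    (h : GaloisFactorsThroughFiniteLevel φ) : Continuous φ := by
  obtain ⟨L, hL, hφ⟩ := h
  have hopen : IsOpen (L.fixingSubgroup : Set (AlgebraicClosure ℚ ≃ₐ[ℚ] AlgebraicClosure ℚ)) :=
    IntermediateField.fixingSubgroup_isOpen L
  refine continuous_of_continuousAt_one φ ?_
  rw [ContinuousAt, map_one]
  intro U hU
  have h1 : (1 : X) ∈ U := mem_of_mem_nhds hU
  rw [Filter.mem_map]
  refine Filter.mem_of_superset (hopen.mem_nhds (one_mem _)) ?_
  intro σ hσ
  have : φ σ = 1 := by
    apply hφ
    intro x hx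
    exact (IntermediateField.mem_fixingSubgroup_iff L σ).1 hσ x hx
  simpa [this] using h1

/-- The contract `CHEB` of the S48 blueprint. -/
theorem stmtCheb : Fermat.Agent.S48.StmtCheb := by
  intro X _ _ φ hsurj hfac C _hconj hinv T P hP δ hδ
  letI : TopologicalSpace X := ⊥
  haveI : DiscreteTopology X := ⟨rfl⟩
  have hcont : Continuous φ := continuous_of_factors φ hfac
  have hX : (0 : ℝ) < Nat.card X := by exact_mod_cast Nat.card_pos
  set ε : ℝ := (Nat.card C : ℝ) / Nat.card X - δ with hε
  have hεpos : 0 < ε := by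
    rw [hε, sub_pos, lt_div_iff₀ hX]
    exact hδ
  have key := chebSymm X φ hcont hsurj C hinv T ε hεpos
  rw [eventually_nhdsWithin_iff, Metric.eventually_nhds_iff] at key
  obtain ⟨r, hr, key⟩ := key
  refine ⟨1 + r, by linarith, fun s hs1 hs2 => ?_⟩
  have hd : dist s 1 < r := by
    rw [Real.dist_eq, abs_of_pos (by linarith)]
    linarith
  obtain ⟨S, hS, hle⟩ := key hd hs1
  refine ⟨S, fun p hp => ?_, ?_⟩
  · obtain ⟨hpp, hpT, A, σ, hA, hσ, hC⟩ := hS p hp
    exact ⟨hpp, hP p hpp hpT A hA σ hσ hC⟩
  · have : (Nat.card C : ℝ) / Nat.card X - ε = δ := by rw [hε]; ring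
    rw [this] at hle
    exact hle

end Fermat.Agent.Lib.Cheb
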