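import Fermat.Agent.Lib.Cheb.NormMod

/-!
# CHEB leaf II2: decomposition of `Lfun` along the ideal classes
-/

set_option autoImplicit false

namespace Fermat.Agent.Lib.Cheb

open NumberField
open scoped nonZeroDivisors

variable (K : Type*) [Field K] [NumberField K] {m : ℕ}

/-- an ideal coprime to `(m)` has norm prime to `m`. -/
theorem Classes_coprime_absNorm {J : Ideal (𝓞 K)} (hJ0 : J ≠ ⊥)
    (h : Ideal.span {(m : 𝓞 K)} ⊔ J = ⊤) : (Ideal.absNorm J).Coprime m := by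
  rw [Nat.coprime_iff_gcd_eq_one]
  by_contra hne
  obtain ⟨p, hp, hpd⟩ := Nat.exists_prime_and_dvd hne
  have hpn : p ∣ Ideal.absNorm J := hpd.trans (Nat.gcd_dvd_left _ _)
  have hpm : p ∣ m := hpd.trans (Nat.gcd_dvd_right _ _)
  have : Fact p.Prime := ⟨hp⟩
  have : Finite (𝓞 K ⧸ J) := Ideal.finiteQuotientOfFreeOfNeBot J hJ0
  rw [Ideal.absNorm_apply, Submodule.cardQuot_apply] at hpn
  obtain ⟨x, hx⟩ := exists_prime_addOrderOf_dvd_card' (G := 𝓞 K ⧸ J) p hpn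
  obtain ⟨y, rfl⟩ := Ideal.Quotient.mk_surjective x
  have hpy : (p : 𝓞 K) * y ∈ J := by
    have h1 := addOrderOf_nsmul_eq_zero (Ideal.Quotient.mk J y)
    rw [hx, ← map_nsmul, Ideal.Quotient.eq_zero_iff_mem, nsmul_eq_mul] at h1
    exact h1
  have h1 : (1 : 𝓞 K) ∈ Ideal.span {(m : 𝓞 K)} ⊔ J := by
    rw [h]
    exact Submodule.mem_top
  obtain ⟨a, ha, j, hj, haj⟩ := Submodule.mem_sup.mp h1
  obtain ⟨z, rfl⟩ := Ideal.mem_span_singleton'.mp ha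
  obtain ⟨m', rfl⟩ := hpm
  have hy : y ∈ J := by
    have h2 : y = z * (m' : 𝓞 K) * ((p : 𝓞 K) * y) + j * y := by
      have : y = (z * ((p * m' : ℕ) : 𝓞 K) + j) * y := by rw [haj, one_mul]
      conv_lhs => rw [this]
      push_cast
      ring
    rw [h2]
    exact J.add_mem (J.mul_mem_left _ hpy) (J.mul_mem_right _ hj)
  have h0 : Ideal.Quotient.mk J y = 0 := Ideal.Quotient.eq_zero_iff_mem.mpr hy
  rw [h0, addOrderOf_zero] at hx
  exact hp.one_lt.ne hx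

/-- Every ideal class contains an integral ideal prime to `m`.
Proof: let `J₀` be integral in the class `C⁻¹`.  By the Chinese remainder theorem / prime avoidance
there is `α ∈ J₀` with `α ∉ 𝔭 J₀` for all the (finitely many) primes `𝔭 ∣ m`
(e.g. `J₀ / (m) J₀` is a cyclic module: Mathlib `Ideal.exists_mul_add_mem_pow_succ`-style lemmas,
or `IsDedekindDomain.exists_sup_span_eq` : `J₀ = (m) J₀ ⊔ span {α}`).  Then `span {α} = J₀ * J`
with `J` prime to `m` and `[J] = C`.  `absNorm J` is prime to `m` because a prime `p ∣ absNorm J`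
lies in a prime factor of `J`. -/
theorem exists_rep_coprime (hm : m ≠ 0) (C : ClassGroup (𝓞 K)) :
    ∃ J : (Ideal (𝓞 K))⁰, ClassGroup.mk0 J = C ∧ (Ideal.absNorm (J : Ideal (𝓞 K))).Coprime m := by
  by_cases hm1 : m = 1
  · obtain ⟨J, hJ⟩ := ClassGroup.mk0_surjective C
    exact ⟨J, hJ, by rw [hm1]; exact Nat.coprime_one_right _⟩
  obtain ⟨J₀, hJ₀⟩ := ClassGroup.mk0_surjective C⁻¹
  have hJ₀0 : (J₀ : Ideal (𝓞 K)) ≠ 0 := nonZeroDivisors.coe_ne_zero J₀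
  have hm0 : Ideal.span {(m : 𝓞 K)} ≠ 0 := by
    rw [Ne, Ideal.zero_eq_bot, Ideal.span_singleton_eq_bot]
    exact_mod_cast hm
  have hmtop : Ideal.span {(m : 𝓞 K)} ≠ ⊤ := by
    intro htop
    have h1 := congrArg Ideal.absNorm htop
    rw [Ideal.absNorm_top, Ideal.absNorm_span_singleton] at h1
    have h2 : Algebra.norm ℤ (m : 𝓞 K) = (m : ℤ) ^ Module.finrank ℤ (𝓞 K) := by
      have := Algebra.norm_algebraMap_of_basis (RingOfIntegers.basis K) (m : ℤ)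
      rw [← Module.finrank_eq_card_basis (RingOfIntegers.basis K)] at this
      simpa using this
    rw [h2, Int.natAbs_pow, Int.natAbs_natCast] at h1
    have h3 : Module.finrank ℤ (𝓞 K) ≠ 0 := by
      rw [RingOfIntegers.rank]
      exact (Module.finrank_pos (R := ℚ) (M := K)).ne'
    exact hm1 ((pow_eq_one_iff.mp h1).resolve_right h3)
  obtain ⟨a, ha⟩ := IsDedekindDomain.exists_sup_span_eq
    (I := Ideal.span {(m : 𝓞 K)} * (J₀ : Ideal (𝓞 K))) (J := (J₀ : Ideal (𝓞 K)))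
    Ideal.mul_le_right (mul_ne_zero hm0 hJ₀0)
  have haJ : Ideal.span {a} ≤ (J₀ : Ideal (𝓞 K)) := by
    rw [← ha]
    exact le_sup_right
  obtain ⟨J, hJ⟩ := Ideal.dvd_iff_le.mpr haJ
  have hsup : Ideal.span {(m : 𝓞 K)} ⊔ J = ⊤ := by
    rw [hJ, mul_comm (Ideal.span {(m : 𝓞 K)}), ← Ideal.mul_sup] at ha
    have h1 : (J₀ : Ideal (𝓞 K)) * (Ideal.span {(m : 𝓞 K)} ⊔ J) = (J₀ : Ideal (𝓞 K)) * 1 := by
      rw [ha, mul_one]
    rw [← Ideal.one_eq_top]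
    exact mul_left_cancel₀ hJ₀0 h1
  have hJ0 : J ≠ ⊥ := by
    rintro rfl
    rw [sup_bot_eq] at hsup
    exact hmtop hsup
  have hJmem : J ∈ (Ideal (𝓞 K))⁰ := mem_nonZeroDivisors_of_ne_zero hJ0
  refine ⟨⟨J, hJmem⟩, ?_, Classes_coprime_absNorm K hJ0 hsup⟩
  have ha0 : Ideal.span {a} ∈ (Ideal (𝓞 K))⁰ := by
    rw [hJ]
    exact mul_mem J₀.2 hJmem
  have h1 : ClassGroup.mk0 (⟨Ideal.span {a}, ha0⟩ : (Ideal (𝓞 K))⁰) = 1 :=
    (ClassGroup.mk0_eq_one_iff ha0).mpr ⟨a, rfl⟩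
  have h2 : (⟨Ideal.span {a}, ha0⟩ : (Ideal (𝓞 K))⁰) = J₀ * ⟨J, hJmem⟩ := Subtype.ext hJ
  rw [h2, map_mul, hJ₀, inv_mul_eq_one] at h1
  exact h1.symm

/-- The part of `Lfun` in one class.  Proof: `I ↦ I * J` is a bijection from the nonzero ideals of
class `C` to the nonzero principal ideals divisible by `J` (as in Mathlib's
`NumberField.Ideal.tendsto_norm_le_and_mk_eq_div_atTop_aux₁`: `Equiv.dvd`,
`ClassGroup.mk0_eq_one_iff`); `term_mul`; `ψ (N J) ≠ 0`. -/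
theorem tsum_class_eq (ψ : DirichletCharacter ℂ m) (C : ClassGroup (𝓞 K)) (J : (Ideal (𝓞 K))⁰)
    (hJ : ClassGroup.mk0 J = C⁻¹) (hcop : (Ideal.absNorm (J : Ideal (𝓞 K))).Coprime m)
    {s : ℝ} (hs : 1 < s) :
    ∑' I : {I : (Ideal (𝓞 K))⁰ // ClassGroup.mk0 I = C}, term K ψ s (I.1 : Ideal (𝓞 K)) =
      (ψ ((Ideal.absNorm (J : Ideal (𝓞 K)) : ℕ) : ZMod m))⁻¹ *
        (((Ideal.absNorm (J : Ideal (𝓞 K)) : ℝ) ^ s : ℝ) : ℂ) * Pfun K ψ J s := by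
  classical
  have hJ0 : (J : Ideal (𝓞 K)) ≠ 0 := nonZeroDivisors.coe_ne_zero J
  have hNpos : (0 : ℝ) < (Ideal.absNorm (J : Ideal (𝓞 K)) : ℝ) :=
    Nat.cast_pos.mpr (Ideal.absNorm_pos_of_nonZeroDivisors J)
  have hψ : ψ ((Ideal.absNorm (J : Ideal (𝓞 K)) : ℕ) : ZMod m) ≠ 0 := by
    have hu : IsUnit ((Ideal.absNorm (J : Ideal (𝓞 K)) : ℕ) : ZMod m) :=
      (ZMod.isUnit_iff_coprime _ _).mpr hcop
    exact (hu.map ψ).ne_zero
  have hterm : ∀ I : Ideal (𝓞 K), term K ψ s I =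
      (ψ ((Ideal.absNorm (J : Ideal (𝓞 K)) : ℕ) : ZMod m))⁻¹ *
        (((Ideal.absNorm (J : Ideal (𝓞 K)) : ℝ) ^ s : ℝ) : ℂ) * term K ψ s (I * J) := by
    intro I
    rw [term_mul]
    have h1 : term K ψ s (J : Ideal (𝓞 K)) = ψ ((Ideal.absNorm (J : Ideal (𝓞 K)) : ℕ) : ZMod m) *
        (((Ideal.absNorm (J : Ideal (𝓞 K)) : ℝ) ^ (-s) : ℝ) : ℂ) := rfl
    rw [h1, Real.rpow_neg hNpos.le, Complex.ofReal_inv]
    have h2 : (((Ideal.absNorm (J : Ideal (𝓞 K)) : ℝ) ^ s : ℝ) : ℂ) ≠ 0 := by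
      exact_mod_cast (Real.rpow_pos_of_pos hNpos s).ne'
    field_simp
  rw [tsum_congr fun I : {I : (Ideal (𝓞 K))⁰ // ClassGroup.mk0 I = C} =>
    hterm (I.1 : Ideal (𝓞 K)), tsum_mul_left]
  congr 1
  unfold Pfun
  have hinj : Function.Injective
      (fun I : {I : (Ideal (𝓞 K))⁰ // ClassGroup.mk0 I = C} =>
        ((I.1 : Ideal (𝓞 K)) * (J : Ideal (𝓞 K)))) := by
    intro I I' h
    exact Subtype.ext (Subtype.ext (mul_right_cancel₀ hJ0 h))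
  rw [← hinj.tsum_eq]
  · refine tsum_congr fun I => ?_
    have hmem : (I.1 : Ideal (𝓞 K)) * (J : Ideal (𝓞 K)) ∈ (Ideal (𝓞 K))⁰ := mul_mem I.1.2 J.2
    have hprin : ((I.1 : Ideal (𝓞 K)) * (J : Ideal (𝓞 K))).IsPrincipal := by
      rw [← ClassGroup.mk0_eq_one_iff hmem]
      have : (⟨(I.1 : Ideal (𝓞 K)) * (J : Ideal (𝓞 K)), hmem⟩ : (Ideal (𝓞 K))⁰) = I.1 * J := rfl
      rw [this, map_mul, I.2, hJ, mul_inv_cancel]
    rw [if_pos ⟨hprin, Dvd.intro_left _ rfl⟩]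
  · intro I' hI'
    rw [Function.mem_support] at hI'
    by_cases hc : I'.IsPrincipal ∧ (J : Ideal (𝓞 K)) ∣ I'
    · rw [if_pos hc] at hI'
      have hI'0 : I' ≠ ⊥ := by
        rintro rfl
        exact hI' (term_bot K ψ (by linarith))
      obtain ⟨I, rfl⟩ := hc.2
      have hI0 : I ≠ 0 := right_ne_zero_of_mul hI'0
      have hImem : I ∈ (Ideal (𝓞 K))⁰ := mem_nonZeroDivisors_of_ne_zero hI0
      have hmem : (J : Ideal (𝓞 K)) * I ∈ (Ideal (𝓞 K))⁰ := mul_mem J.2 hImem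
      have h1 := (ClassGroup.mk0_eq_one_iff hmem).mpr hc.1
      have h2 : (⟨(J : Ideal (𝓞 K)) * I, hmem⟩ : (Ideal (𝓞 K))⁰) = J * ⟨I, hImem⟩ := rfl
      rw [h2, map_mul, hJ, inv_mul_eq_one] at h1
      exact ⟨⟨⟨I, hImem⟩, h1.symm⟩, mul_comm _ _⟩
    · rw [if_neg hc] at hI'
      exact absurd rfl hI'

/-- **Class decomposition**, for an arbitrary system of representatives prime to `m`. -/
theorem Lfun_eq_sum (ψ : DirichletCharacter ℂ m) (J : ClassGroup (𝓞 K) → (Ideal (𝓞 K))⁰)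
    (hJ : ∀ C, ClassGroup.mk0 (J C) = C⁻¹)
    (hcop : ∀ C, (Ideal.absNorm (J C : Ideal (𝓞 K))).Coprime m) {s : ℝ} (hs : 1 < s) :
    Lfun K ψ s = ∑ C : ClassGroup (𝓞 K),
      (ψ ((Ideal.absNorm (J C : Ideal (𝓞 K)) : ℕ) : ZMod m))⁻¹ *
        (((Ideal.absNorm (J C : Ideal (𝓞 K)) : ℝ) ^ s : ℝ) : ℂ) * Pfun K ψ (J C) s := by
  have hsum : Summable fun I : Ideal (𝓞 K) => term K ψ s I := (summable_term K ψ hs).of_norm
  have hsum0 : Summable fun I : (Ideal (𝓞 K))⁰ => term K ψ s (I : Ideal (𝓞 K)) :=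
    hsum.subtype _
  have h1 : Lfun K ψ s = ∑' I : (Ideal (𝓞 K))⁰, term K ψ s (I : Ideal (𝓞 K)) := by
    unfold Lfun
    rw [← (Subtype.val_injective (p := fun I => I ∈ (Ideal (𝓞 K))⁰)).tsum_eq]
    intro I hI
    rw [Function.mem_support] at hI
    have hI0 : I ≠ 0 := by
      rintro rfl
      exact hI (term_bot K ψ (by linarith))
    exact ⟨⟨I, mem_nonZeroDivisors_of_ne_zero hI0⟩, rfl⟩
  have hsumσ : Summable fun p : (Σ C : ClassGroup (𝓞 K),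
      {I : (Ideal (𝓞 K))⁰ // ClassGroup.mk0 I = C}) => term K ψ s (p.2.1 : Ideal (𝓞 K)) :=
    (Equiv.sigmaFiberEquiv (ClassGroup.mk0 (R := 𝓞 K))).summable_iff.mpr hsum0
  rw [h1, ← (Equiv.sigmaFiberEquiv (ClassGroup.mk0 (R := 𝓞 K))).tsum_eq]
  have h2 : ∑' p : (Σ C : ClassGroup (𝓞 K), {I : (Ideal (𝓞 K))⁰ // ClassGroup.mk0 I = C}),
      term K ψ s (p.2.1 : Ideal (𝓞 K)) = ∑' (C : ClassGroup (𝓞 K))
        (I : {I : (Ideal (𝓞 K))⁰ // ClassGroup.mk0 I = C}), term K ψ s (I.1 : Ideal (𝓞 K)) :=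
    hsumσ.tsum_sigma' fun C => hsum0.subtype _
  refine h2.trans ?_
  rw [tsum_fintype]
  exact Finset.sum_congr rfl fun C _ => tsum_class_eq K ψ C (J C) (hJ C) (hcop C) hs

end Fermat.Agent.Lib.Cheb
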