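import Mathlib

/-!
# CHEB leaf V4: counting the elements `(g, τ)` with `ord g ∣ ord τ` (pure finite group theory)
-/

set_option autoImplicit false

namespace Fermat.Agent.Lib.Cheb

/-- Cardinality of the preimage of a set under a surjective homomorphism. -/
theorem Count.card_preimage_eq {G X : Type*} [Group G] [Group X] (f : G →* X)
    (hf : Function.Surjective f) (C : Set X) :
    Nat.card (f ⁻¹' C) = Nat.card C * Nat.card f.ker := by
  classical
  choose s hs using hf
  rw [← Nat.card_prod]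
  refine Nat.card_congr ?_
  exact
    { toFun := fun g => (⟨f g.1, g.2⟩, ⟨(s (f g.1))⁻¹ * g.1, by simp [MonoidHom.mem_ker, hs]⟩)
      invFun := fun x => ⟨s x.1.1 * x.2.1, by
        have : f x.2.1 = 1 := x.2.2
        simp [Set.mem_preimage, hs, this]⟩
      left_inv := fun g => by simp
      right_inv := fun x => by
        have : f x.2.1 = 1 := x.2.2
        ext <;> simp [hs, this] }

theorem Count.card_eq {G X : Type*} [Group G] [Group X] (f : G →* X)
    (hf : Function.Surjective f) : Nat.card G = Nat.card X * Nat.card f.ker := by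
  have := Count.card_preimage_eq f hf Set.univ
  rwa [Set.preimage_univ, Nat.card_univ, Nat.card_univ] at this

/-- the arithmetic heart: `ord ∣ h`, `e ^ k ∣ h`, `v_r ord < v_r e` imply `ord * r ^ k ∣ h`. -/
theorem Count.mul_pow_dvd {o e h k r : ℕ} (hr : r.Prime) (hh : h ≠ 0) (ho : o ∣ h)
    (hk : e ^ k ∣ h) (hlt : o.factorization r < e.factorization r) : o * r ^ k ∣ h := by
  have ho0 : o ≠ 0 := fun h0 => hh (by simpa [h0] using ho)
  have he0 : e ≠ 0 := by
    rintro rfl
    simp at hlt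
  have hrk : r ^ k ≠ 0 := pow_ne_zero _ hr.ne_zero
  rw [← Nat.factorization_le_iff_dvd (mul_ne_zero ho0 hrk) hh]
  intro s
  rw [Nat.factorization_mul ho0 hrk, Nat.factorization_pow, hr.factorization]
  have h1 : o.factorization s ≤ h.factorization s :=
    (Nat.factorization_le_iff_dvd ho0 hh).2 ho s
  have h2 : (e ^ k).factorization s ≤ h.factorization s :=
    (Nat.factorization_le_iff_dvd (pow_ne_zero _ he0) hh).2 hk s
  rw [Nat.factorization_pow] at h2
  simp only [Finsupp.coe_add, Finsupp.coe_smul, Pi.add_apply, Pi.smul_apply, smul_eq_mul] at h2 ⊢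
  by_cases hs : s = r
  · subst hs
    simp only [Finsupp.single_eq_same, mul_one]
    rcases k with _ | k
    · simpa using h1
    · obtain ⟨b, hb⟩ : ∃ b, e.factorization s = o.factorization s + 1 + b :=
        ⟨e.factorization s - (o.factorization s + 1), by omega⟩
      rw [hb] at h2
      nlinarith
  · rw [Finsupp.single_eq_of_ne (by tauto)]
    simpa using h1

/-- In a cyclic group `H` of order `h` with `e ^ k ∣ h`, at most `e * h / 2 ^ k` elements have order
not divisible by `e`.  Proof: if `e ∤ ord τ` there is a prime `r ∣ e` with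
`v_r (ord τ) < v_r e`; then `τ ^ (h / r ^ k) = 1` (because `v_r h ≥ k v_r e ≥ v_r(ord τ) + k`...
precisely `ord τ ∣ h / r^((k-1) v_r(e) + 1) ∣ h / r^k`).  In a cyclic group the equation
`τ ^ d = 1`, `d ∣ h`, has exactly `d` solutions (`IsCyclic.card_pow_eq_one_le`), here
`d = h / r^k ≤ h / 2^k`; there are at most `e` primes `r ∣ e`. -/
theorem card_not_dvd_orderOf_le {H : Type*} [CommGroup H] [Finite H] [IsCyclic H] (e k : ℕ)
    (he : 0 < e) (hk : e ^ k ∣ Nat.card H) :
    (Nat.card {τ : H // ¬ e ∣ orderOf τ} : ℝ) ≤ e * Nat.card H / 2 ^ k := by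
  classical
  have : Fintype H := Fintype.ofFinite H
  set h := Nat.card H with hh
  have hpos : 0 < h := Nat.card_pos
  -- the bad set is covered
  have hcover : (Finset.univ.filter fun τ : H => ¬ e ∣ orderOf τ) ⊆
      e.primeFactors.biUnion fun r => Finset.univ.filter fun τ : H => τ ^ (h / r ^ k) = 1 := by
    intro τ hτ
    rw [Finset.mem_filter] at hτ
    have hτ2 := hτ.2
    have ho0 : orderOf τ ≠ 0 := (orderOf_pos τ).ne'
    rw [← Nat.factorization_prime_le_iff_dvd he.ne' ho0] at hτ2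
    push Not at hτ2
    obtain ⟨r, hr, hlt⟩ := hτ2
    have hre : r ∣ e := by
      by_contra hne
      rw [Nat.factorization_eq_zero_of_not_dvd hne] at hlt
      omega
    rw [Finset.mem_biUnion]
    refine ⟨r, Nat.mem_primeFactors.2 ⟨hr, hre, he.ne'⟩, ?_⟩
    rw [Finset.mem_filter]
    refine ⟨Finset.mem_univ _, ?_⟩
    have hd : orderOf τ * r ^ k ∣ h :=
      Count.mul_pow_dvd hr hpos.ne' (orderOf_dvd_natCard τ) hk hlt
    apply orderOf_dvd_iff_pow_eq_one.1
    exact Nat.dvd_div_of_mul_dvd (by rwa [mul_comm] at hd)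
  have hcard : Nat.card {τ : H // ¬ e ∣ orderOf τ} =
      (Finset.univ.filter fun τ : H => ¬ e ∣ orderOf τ).card := by
    rw [Nat.card_eq_fintype_card, Fintype.card_subtype]
  rw [hcard]
  have h1 : ((Finset.univ.filter fun τ : H => ¬ e ∣ orderOf τ).card : ℝ) ≤
      ∑ r ∈ e.primeFactors, ((Finset.univ.filter fun τ : H => τ ^ (h / r ^ k) = 1).card : ℝ) := by
    exact_mod_cast (Finset.card_le_card hcover).trans Finset.card_biUnion_le
  have h2 : ∀ r ∈ e.primeFactors,
      ((Finset.univ.filter fun τ : H => τ ^ (h / r ^ k) = 1).card : ℝ) ≤ h / 2 ^ k := by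
    intro r hr
    have hrp := (Nat.mem_primeFactors.1 hr).1
    have hre := (Nat.mem_primeFactors.1 hr).2.1
    have hrk : r ^ k ∣ h := (pow_dvd_pow_of_dvd hre k).trans hk
    have hdpos : 0 < h / r ^ k :=
      Nat.div_pos (Nat.le_of_dvd hpos hrk) (pow_pos hrp.pos _)
    have h3 := IsCyclic.card_pow_eq_one_le (α := H) hdpos
    have h4 : ((h / r ^ k : ℕ) : ℝ) = (h : ℝ) / (r : ℝ) ^ k := by
      rw [Nat.cast_div hrk (by exact_mod_cast (pow_pos hrp.pos _).ne')]
      push_cast
      rfl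
    calc ((Finset.univ.filter fun τ : H => τ ^ (h / r ^ k) = 1).card : ℝ)
        ≤ ((h / r ^ k : ℕ) : ℝ) := by exact_mod_cast h3
      _ = (h : ℝ) / (r : ℝ) ^ k := h4
      _ ≤ h / 2 ^ k := by
        apply div_le_div_of_nonneg_left (by positivity) (by positivity)
        exact pow_le_pow_left₀ (by norm_num) (by exact_mod_cast hrp.two_le) k
  have h5 : (e.primeFactors.card : ℝ) ≤ e := by
    have : e.primeFactors ⊆ Finset.Icc 1 e := by
      intro r hr
      have hrp := (Nat.mem_primeFactors.1 hr).1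
      have hre := (Nat.mem_primeFactors.1 hr).2.1
      exact Finset.mem_Icc.2 ⟨hrp.one_le, Nat.le_of_dvd he hre⟩
    have := Finset.card_le_card this
    rw [Nat.card_Icc] at this
    exact_mod_cast this
  calc ((Finset.univ.filter fun τ : H => ¬ e ∣ orderOf τ).card : ℝ)
      ≤ ∑ r ∈ e.primeFactors, ((Finset.univ.filter fun τ : H => τ ^ (h / r ^ k) = 1).card : ℝ) := h1
    _ ≤ ∑ _r ∈ e.primeFactors, (h : ℝ) / 2 ^ k := Finset.sum_le_sum h2
    _ = e.primeFactors.card * ((h : ℝ) / 2 ^ k) := by rw [Finset.sum_const, nsmul_eq_mul]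
    _ ≤ e * ((h : ℝ) / 2 ^ k) := by
        apply mul_le_mul_of_nonneg_right h5 (by positivity)
    _ = e * h / 2 ^ k := by ring

/-- **Counting lemma** (no linear disjointness needed).  `e = |G₁|`, `h = |H|`.  The fibre of `r`
over `g₁` is a coset of `ker r`, on which `χ` is injective (`hinj`); `|ker r| = |G'| / e ≥ h / e`
because `χ` is onto.  An element `γ` with `e ∣ ord (χ γ)` is good: `χ(γ^j) = 1 ⇒ e ∣ j ⇒
r(γ^j) = 1 ⇒ γ^j = 1`.  In each fibre at most `e h / 2^k ≤ e^2 |ker r| / 2^k` elements are bad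
(`χ` is injective on the fibre, `card_not_dvd_orderOf_le`). -/
theorem card_good_ge {G' G₁ H : Type*} [Group G'] [Finite G'] [Group G₁] [Finite G₁]
    [CommGroup H] [Finite H] [IsCyclic H] (r : G' →* G₁) (χ : G' →* H)
    (hr : Function.Surjective r) (hχ : Function.Surjective χ)
    (hinj : ∀ g : G', r g = 1 → χ g = 1 → g = 1) (k : ℕ)
    (hk : Nat.card G₁ ^ k ∣ Nat.card H) (S : Set G₁) :
    (Nat.card S : ℝ) / Nat.card G₁ * (1 - (Nat.card G₁ : ℝ) ^ 2 / 2 ^ k) * Nat.card G' ≤
      Nat.card {g : G' // r g ∈ S ∧ ∀ j : ℕ, χ (g ^ j) = 1 → g ^ j = 1} := by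
  classical
  have hepos : 0 < Nat.card G₁ := Nat.card_pos
  set e := Nat.card G₁ with he
  set h := Nat.card H with hh
  set n := Nat.card G' with hn
  let Bad : Set G' := {g | r g ∈ S ∧ ¬ e ∣ orderOf (χ g)}
  let Good : Set G' := {g | r g ∈ S ∧ ∀ j : ℕ, χ (g ^ j) = 1 → g ^ j = 1}
  have hsub : r ⁻¹' S ⊆ Good ∪ Bad := by
    intro g hg
    by_cases hd : e ∣ orderOf (χ g)
    · left
      refine ⟨hg, fun j hj => ?_⟩
      rw [map_pow] at hj
      have h1 : e ∣ j := hd.trans (orderOf_dvd_of_pow_eq_one hj)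
      apply hinj
      · obtain ⟨c, rfl⟩ := h1
        rw [map_pow, pow_mul, he, pow_card_eq_one', one_pow]
      · rw [map_pow, hj]
    · right
      exact ⟨hg, hd⟩
  have hP : Nat.card (r ⁻¹' S) = Nat.card S * Nat.card r.ker := Count.card_preimage_eq r hr S
  have hnk : n = e * Nat.card r.ker := Count.card_eq r hr
  have hBad : Nat.card Bad ≤ Nat.card S * Nat.card {τ : H // ¬ e ∣ orderOf τ} := by
    rw [← Nat.card_prod]
    refine Nat.card_le_card_of_injective
      (fun g : Bad => ((⟨r g.1, g.2.1⟩ : S), (⟨χ g.1, g.2.2⟩ : {τ : H // ¬ e ∣ orderOf τ}))) ?_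
    intro g g' hgg
    simp only [Prod.mk.injEq, Subtype.mk.injEq] at hgg
    apply Subtype.ext
    have : g.1⁻¹ * g'.1 = 1 := by
      apply hinj
      · rw [map_mul, map_inv, hgg.1, inv_mul_cancel]
      · rw [map_mul, map_inv, hgg.2, inv_mul_cancel]
    exact (inv_mul_eq_one.1 this)
  have hle : Nat.card (r ⁻¹' S) ≤ Nat.card Good + Nat.card Bad := by
    rw [Nat.card_coe_set_eq, Nat.card_coe_set_eq, Nat.card_coe_set_eq]
    exact (Set.ncard_le_ncard hsub (Set.toFinite _)).trans (Set.ncard_union_le _ _)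
  have hhn : h ≤ n := Nat.card_le_card_of_surjective χ hχ
  have hB := card_not_dvd_orderOf_le (H := H) e k hepos hk
  change _ ≤ ((Nat.card Good : ℕ) : ℝ)
  -- pass to the reals
  have hle' : (Nat.card S : ℝ) * Nat.card r.ker ≤ Nat.card Good + Nat.card Bad := by
    rw [hP] at hle
    exact_mod_cast hle
  have hBad' : (Nat.card Bad : ℝ) ≤ Nat.card S * Nat.card {τ : H // ¬ e ∣ orderOf τ} := by
    exact_mod_cast hBad
  have hhn' : (h : ℝ) ≤ n := by exact_mod_cast hhn
  have hnk' : (n : ℝ) = e * Nat.card r.ker := by exact_mod_cast hnk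
  have he' : (0 : ℝ) < e := by exact_mod_cast hepos
  have hs0 : (0 : ℝ) ≤ Nat.card S := by positivity
  have h2k : (0 : ℝ) < 2 ^ k := by positivity
  have hB2 : (Nat.card {τ : H // ¬ e ∣ orderOf τ} : ℝ) ≤ e * n / 2 ^ k := by
    refine hB.trans ?_
    apply div_le_div_of_nonneg_right _ h2k.le
    exact mul_le_mul_of_nonneg_left hhn' he'.le
  have hBad'' : (Nat.card Bad : ℝ) ≤ Nat.card S * (e * n / 2 ^ k) :=
    hBad'.trans (mul_le_mul_of_nonneg_left hB2 hs0)
  have hkey : (Nat.card S : ℝ) / e * (1 - (e : ℝ) ^ 2 / 2 ^ k) * n =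
      Nat.card S * Nat.card r.ker - Nat.card S * (e * n / 2 ^ k) := by
    rw [hnk']
    field_simp
  rw [hkey]
  linarith

/-- Preimages under a surjective homomorphism have the expected proportion. -/
theorem card_preimage_div {G₁ X : Type*} [Group G₁] [Finite G₁] [Group X] [Finite X]
    (f : G₁ →* X) (hf : Function.Surjective f) (C : Set X) :
    (Nat.card (f ⁻¹' C) : ℝ) / Nat.card G₁ = (Nat.card C : ℝ) / Nat.card X := by
  rw [Count.card_preimage_eq f hf C, Count.card_eq f hf]
  have h1 : (Nat.card f.ker : ℝ) ≠ 0 := by exact_mod_cast (Nat.card_pos (α := f.ker)).ne'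
  have h2 : (Nat.card X : ℝ) ≠ 0 := by exact_mod_cast (Nat.card_pos (α := X)).ne'
  push_cast
  field_simp

end Fermat.Agent.Lib.Cheb
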