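import Fermat.Agent.Lib.Cheb.Defs

/-!
# CHEB leaf V2: Frobenius acts on the `m`-th roots of unity by `ζ ↦ ζ ^ ℓ`
-/

set_option autoImplicit false

namespace Fermat.Agent.Lib.Cheb

open NumberField IsDedekindDomain Fermat.Agent.Lib.FrobDensity

variable (L : Type*) [Field L] [NumberField L] (G : Type*) [Group G] [Finite G]
  [MulSemiringAction G L] [IsGaloisGroup G ℚ L]

/-- Two `m`-th roots of unity which are congruent modulo a prime not dividing `m` are equal.
Proof: `η = x y^(m-1)` satisfies `η ≡ 1`; if `η ≠ 1` then `1 + η + ⋯ + η^(m-1) = 0`, and this sum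
is congruent to `m`. -/
theorem eq_of_sub_mem {m : ℕ} (w : HeightOneSpectrum (𝓞 L)) (hw : ¬ ell L w ∣ m) {x y : 𝓞 L}
    (hx : x ^ m = 1) (hy : y ^ m = 1) (h : x - y ∈ w.asIdeal) : x = y := by
  rcases Nat.eq_zero_or_pos m with rfl | hm
  · exact absurd (dvd_zero _) hw
  have hyy : y ^ (m - 1) * y = 1 := by
    rw [← pow_succ, Nat.sub_add_cancel hm, hy]
  set η : 𝓞 L := x * y ^ (m - 1) with hη
  have hηm : η ^ m = 1 := by
    rw [hη, mul_pow, hx, one_mul, ← pow_mul, mul_comm, pow_mul, hy, one_pow]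
  have hη1 : η - 1 ∈ w.asIdeal := by
    have : η - 1 = (x - y) * y ^ (m - 1) := by
      rw [sub_mul, mul_comm y, hyy]
    rw [this]
    exact Ideal.mul_mem_right _ _ h
  by_cases h1 : η = 1
  · calc x = x * (y ^ (m - 1) * y) := by rw [hyy, mul_one]
      _ = η * y := by rw [hη, mul_assoc]
      _ = y := by rw [h1, one_mul]
  · exfalso
    have hsum : ∑ i ∈ Finset.range m, η ^ i = 0 := by
      have := geom_sum_mul η m
      rw [hηm, sub_self] at this
      rcases mul_eq_zero.1 this with h2 | h2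
      · exact h2
      · exact absurd (sub_eq_zero.1 h2) h1
    apply hw
    rw [← natCast_mem_iff L w m, ← Ideal.Quotient.eq_zero_iff_mem]
    have hq : Ideal.Quotient.mk w.asIdeal η = 1 := by
      rw [← map_one (Ideal.Quotient.mk w.asIdeal), Ideal.Quotient.eq]
      exact hη1
    have := congrArg (Ideal.Quotient.mk w.asIdeal) hsum
    rw [map_sum, map_zero] at this
    simp only [map_pow, hq, one_pow, Finset.sum_const, Finset.card_range, nsmul_eq_mul,
      mul_one] at this
    rw [map_natCast]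
    exact this

/-- From `frob_spec` and `eq_of_sub_mem` (`ζ` is integral). -/
theorem frob_smul_zeta {m : ℕ} {ζ : L} (hζ : ζ ^ m = 1) (hm : m ≠ 0)
    (w : HeightOneSpectrum (𝓞 L)) (hw : ¬ ell L w ∣ m) : frob L G w • ζ = ζ ^ ell L w := by
  have hint : IsIntegral ℤ ζ := by
    refine ⟨Polynomial.X ^ m - 1, Polynomial.monic_X_pow_sub_C 1 hm, ?_⟩
    simp [hζ]
  let z : 𝓞 L := ⟨ζ, hint⟩
  have hz : z ^ m = 1 := by
    apply RingOfIntegers.ext
    exact hζ
  have h1 := frob_spec L G w z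
  have h2 : (frob L G w • z) ^ m = 1 := by
    rw [← smul_pow', hz, smul_one]
  have h3 : (z ^ ell L w) ^ m = 1 := by
    rw [← pow_mul, mul_comm, pow_mul, hz, one_pow]
  have h4 := eq_of_sub_mem L w hw h2 h3 h1
  have h5 : ((frob L G w • z : 𝓞 L) : L) = ((z ^ ell L w : 𝓞 L) : L) := congrArg _ h4
  exact h5

end Fermat.Agent.Lib.Cheb
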