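import Fermat.Agent.Lib.Cheb.Dirichlet
import Fermat.Agent.Lib.Cheb.CycFrob

/-!
# CHEB leaf V3: the cyclotomic case: `γ` such that `⟨γ⟩` acts faithfully on `μ_m`
-/

set_option autoImplicit false

namespace Fermat.Agent.Lib.Cheb

open NumberField IsDedekindDomain Filter Topology Fermat.Agent.Lib.FrobDensity
open scoped ENNReal NNReal

variable (L : Type*) [Field L] [NumberField L] (G : Type*) [Group G] [Finite G]
  [MulSemiringAction G L] [IsGaloisGroup G ℚ L]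

/-- The exponent by which `γ` acts on `ζ`.  (`γ • ζ` is again a primitive `m`-th root of unity:
`IsPrimitiveRoot.eq_pow_of_pow_eq_one`, the exponent is prime to `m`; `ZMod.unitOfCoprime`.) -/
theorem exists_unit_smul_eq {m : ℕ} [NeZero m] {ζ : L} (hζ : IsPrimitiveRoot ζ m) (γ : G) :
    ∃ a : (ZMod m)ˣ, ∀ j : ℕ, (γ ^ j) • ζ = ζ ^ ((a ^ j : (ZMod m)ˣ) : ZMod m).val := by
  let χ : G →* (ZMod m)ˣ :=
    (modularCyclotomicCharacter L hζ.card_rootsOfUnity).comp (MulSemiringAction.toRingEquiv G L)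
  refine ⟨χ γ, fun j => ?_⟩
  rw [← map_pow]
  have hζ0 : ζ ≠ 0 := hζ.ne_zero (NeZero.ne m)
  have hmem : Units.mk0 ζ hζ0 ∈ rootsOfUnity m L := by
    rw [mem_rootsOfUnity]
    ext
    simpa using hζ.pow_eq_one
  have := modularCyclotomicCharacter.spec L hζ.card_rootsOfUnity
    (MulSemiringAction.toRingEquiv G L (γ ^ j)) hmem
  exact this

/-- (aux) powers of `ζ` with exponents given by units. -/
theorem Cyc_pow_val_eq_iff {L : Type*} [Field L] {m : ℕ} [NeZero m] {ζ : L}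
    (hζ : IsPrimitiveRoot ζ m) (u u' : (ZMod m)ˣ) :
    ζ ^ (u : ZMod m).val = ζ ^ (u' : ZMod m).val ↔ u = u' := by
  constructor
  · intro h
    exact Units.ext (ZMod.val_injective m (hζ.pow_inj (ZMod.val_lt _) (ZMod.val_lt _) h))
  · rintro rfl
    rfl

/-- (aux) `ζ ^ n = ζ ^ val u ↔ n ≡ u`. -/
theorem Cyc_pow_eq_pow_val_iff {L : Type*} [Field L] {m : ℕ} [NeZero m] {ζ : L}
    (hζ : IsPrimitiveRoot ζ m) (n : ℕ) (u : ZMod m) :
    ζ ^ n = ζ ^ u.val ↔ (n : ZMod m) = u := by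
  have h1 : ζ ^ n = ζ ^ (n : ZMod m).val := by
    rw [ZMod.val_natCast]
    exact pow_eq_pow_mod n hζ.pow_eq_one
  rw [h1]
  constructor
  · intro h
    exact ZMod.val_injective m (hζ.pow_inj (ZMod.val_lt _) (ZMod.val_lt _) h)
  · rintro rfl
    rfl

omit [NumberField L] [Finite G] [IsGaloisGroup G ℚ L] in
theorem Cyc_pow_eq_one_iff {m : ℕ} [NeZero m] {ζ : L} (hζ : IsPrimitiveRoot ζ m) {γ : G}
    (hinj : ∀ k : ℕ, (γ ^ k) • ζ = ζ → γ ^ k = 1) {a : (ZMod m)ˣ}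
    (ha : ∀ j : ℕ, (γ ^ j) • ζ = ζ ^ ((a ^ j : (ZMod m)ˣ) : ZMod m).val) (k : ℕ) :
    a ^ k = 1 ↔ γ ^ k = 1 := by
  have h0 : ζ = ζ ^ ((a ^ 0 : (ZMod m)ˣ) : ZMod m).val := by
    have := ha 0
    rwa [pow_zero, one_smul] at this
  constructor
  · intro h
    apply hinj
    rw [ha k, h, ← pow_zero a]
    exact h0.symm
  · intro h
    have h1 := ha k
    rw [h, one_smul] at h1
    have h2 : ζ ^ ((a ^ 0 : (ZMod m)ˣ) : ZMod m).val = ζ ^ ((a ^ k : (ZMod m)ˣ) : ZMod m).val :=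
      h0.symm.trans h1
    rw [Cyc_pow_val_eq_iff hζ] at h2
    rw [← h2, pow_zero]

/-- If `⟨γ⟩` acts faithfully on `ζ` then `a` has the same order as `γ`, and `γ^i = γ^j ↔ a^i = a^j`. -/
theorem pow_eq_pow_iff_of_faithful {m : ℕ} [NeZero m] {ζ : L} (hζ : IsPrimitiveRoot ζ m) {γ : G}
    (hinj : ∀ k : ℕ, (γ ^ k) • ζ = ζ → γ ^ k = 1) {a : (ZMod m)ˣ}
    (ha : ∀ j : ℕ, (γ ^ j) • ζ = ζ ^ ((a ^ j : (ZMod m)ˣ) : ZMod m).val) :
    orderOf a = orderOf γ ∧ ∀ i j : ℕ, γ ^ i = γ ^ j ↔ a ^ i = a ^ j := by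
  have ho : orderOf a = orderOf γ :=
    orderOf_eq_orderOf_iff.2 (fun k => Cyc_pow_eq_one_iff L G hζ hinj ha k)
  refine ⟨ho, fun i j => ?_⟩
  rw [pow_eq_pow_iff_modEq, pow_eq_pow_iff_modEq, ho]

/-- For `w ∤ N` with `frob w ∈ ⟨γ⟩`: `frob w = γ^i ↔ ell w ≡ a^i mod m`
(`frob_smul_zeta`, `IsPrimitiveRoot.pow_inj` / `pow_eq_pow_iff_modEq`). -/
theorem frob_eq_pow_iff {m : ℕ} [NeZero m] {ζ : L} (hζ : IsPrimitiveRoot ζ m) {γ : G}
    (hinj : ∀ k : ℕ, (γ ^ k) • ζ = ζ → γ ^ k = 1) {a : (ZMod m)ˣ}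
    (ha : ∀ j : ℕ, (γ ^ j) • ζ = ζ ^ ((a ^ j : (ZMod m)ˣ) : ZMod m).val)
    (w : HeightOneSpectrum (𝓞 L)) (hw : ¬ ell L w ∣ m) (hU : frob L G w ∈ Subgroup.zpowers γ)
    (i : ℕ) :
    frob L G w = γ ^ i ↔ ((ell L w : ℕ) : ZMod m) = ((a ^ i : (ZMod m)ˣ) : ZMod m) := by
  rw [← mem_powers_iff_mem_zpowers] at hU
  obtain ⟨j, hj⟩ := hU
  have h1 := frob_smul_zeta L G hζ.pow_eq_one (NeZero.ne m) w hw
  rw [← hj, ha j, eq_comm, Cyc_pow_eq_pow_val_iff hζ] at h1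
  rw [← hj, h1, (pow_eq_pow_iff_of_faithful L G hζ hinj ha).2 j i, Units.ext_iff]

/-- `massS {γ^i} = n * massb F (class a^i)` with `F` the fixed field of `⟨γ⟩`
(`card_mul_massb` with `b = bcl (a^i) s`, `frob_eq_pow_iff`, `Nat.card_zpowers`). -/
theorem massS_pow_eq {m : ℕ} [NeZero m] {ζ : L} (hζ : IsPrimitiveRoot ζ m) {γ : G}
    (hinj : ∀ k : ℕ, (γ ^ k) • ζ = ζ → γ ^ k = 1) {a : (ZMod m)ˣ}
    (ha : ∀ j : ℕ, (γ ^ j) • ζ = ζ ^ ((a ^ j : (ZMod m)ˣ) : ZMod m).val)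
    (N : ℕ) (hmN : m ∣ N)
    (hN : ∀ w : HeightOneSpectrum (𝓞 L), ¬ ell L w ∣ N → w.asIdeal.inertia G = ⊥) (i : ℕ) (s : ℝ) :
    massS L G N {γ ^ i} s = (orderOf γ : ℝ≥0∞) *
      massb (FixedPoints.intermediateField (Subgroup.zpowers γ) : IntermediateField ℚ L) N
        (bcl (((a ^ i : (ZMod m)ˣ) : ZMod m)) s) := by
  classical
  have h1 := card_mul_massb L G (Subgroup.zpowers γ)
    (FixedPoints.intermediateField (Subgroup.zpowers γ) : IntermediateField ℚ L) N hN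
    (bcl (((a ^ i : (ZMod m)ˣ) : ZMod m)) s)
  rw [Nat.card_zpowers] at h1
  rw [h1, massS]
  refine tsum_congr fun w => ?_
  by_cases hw : ¬ ell L w ∣ N ∧ frob L G w ∈ Subgroup.zpowers γ
  · rw [Set.indicator_of_mem
      (show w ∈ {w | ¬ ell L w ∣ N ∧ frob L G w ∈ Subgroup.zpowers γ} from hw)]
    have hwm : ¬ ell L w ∣ m := fun h => hw.1 (h.trans hmN)
    have hiff := frob_eq_pow_iff L G hζ hinj ha w hwm hw.2 i
    by_cases hf : frob L G w = γ ^ i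
    · rw [Set.indicator_of_mem
        (show w ∈ {w | ¬ ell L w ∣ N ∧ frob L G w ∈ ({γ ^ i} : Set G)} from ⟨hw.1, hf⟩),
        bcl, if_pos (hiff.1 hf)]
    · rw [Set.indicator_of_notMem
        (show w ∉ {w | ¬ ell L w ∣ N ∧ frob L G w ∈ ({γ ^ i} : Set G)} from fun h => hf h.2),
        bcl, if_neg (fun h => hf (hiff.2 h)), mul_zero]
  · rw [Set.indicator_of_notMem
      (show w ∉ {w | ¬ ell L w ∣ N ∧ frob L G w ∈ Subgroup.zpowers γ} from hw),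
      Set.indicator_of_notMem]
    rintro ⟨h2, h3⟩
    apply hw
    refine ⟨h2, ?_⟩
    rw [Set.mem_singleton_iff.1 h3]
    exact Subgroup.pow_mem _ (Subgroup.mem_zpowers γ) i

/-- **The cyclotomic case.**  `F` = fixed field of `U = ⟨γ⟩`, `n = orderOf γ = orderOf a`.  Apply
`dirichlet_symm F N a`:
`h1`: a degree one prime `v ∤ N` of `F`, `w` above `v` (exists): `frob w ∈ U`
(`Fiber.frob_mem_of_nrm_eq`, `ell_under`), `frob w = γ^j`, so `nrm v = ell w ≡ a^j`;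
`h2`: `exists_zpowers_frob_eq` gives `w ∤ N` with `⟨frob w⟩ = U`, so `frob w = γ^j` with `j` prime to
`n`; `v = under w` has `nrm v = ell w` (`Fiber.nrm_eq_of_frob_mem`);
`h3`: `massS_pow_eq` with `i = 0` and `close_massS_one`.
Conclusion via `massS_pow_eq` with `i = 1` and `i = n - 1` (`γ⁻¹ = γ^(n-1)`, `a⁻¹ = a^(n-1)`). -/
theorem close_massS_symm {m : ℕ} [NeZero m] {ζ : L} (hζ : IsPrimitiveRoot ζ m) (γ : G)
    (hinj : ∀ k : ℕ, (γ ^ k) • ζ = ζ → γ ^ k = 1) (N : ℕ) (hN0 : N ≠ 0) (hmN : m ∣ N)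
    (hN : ∀ w : HeightOneSpectrum (𝓞 L), ¬ ell L w ∣ N → w.asIdeal.inertia G = ⊥) :
    Close (fun s => massS L G N {γ} s + massS L G N {γ⁻¹} s) (fun s => 2 * lam s) := by
  obtain ⟨a, ha⟩ := exists_unit_smul_eq L G hζ γ
  obtain ⟨ho, hpow⟩ := pow_eq_pow_iff_of_faithful L G hζ hinj ha
  let U : Subgroup G := Subgroup.zpowers γ
  let F : IntermediateField ℚ L := FixedPoints.intermediateField U
  have hn : 0 < orderOf γ := orderOf_pos γ
  have hmass := massS_pow_eq L G hζ hinj ha N hmN hN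
  -- h1
  have h1 : ∀ v : HeightOneSpectrum (𝓞 F), (nrm F v).Prime → ¬ nrm F v ∣ N →
      ∃ j : ℕ, ((nrm F v : ℕ) : ZMod m) = ((a ^ j : (ZMod m)ˣ) : ZMod m) := by
    intro v hv1 hv2
    obtain ⟨Q⟩ := Ideal.nonempty_primesOver (S := 𝓞 L) v.asIdeal
    obtain ⟨w, hw⟩ := (Fiber.fiberEquiv L F v).symm Q
    have hv3 : nrm F v = ell L w := by
      rw [(nrm_prime_iff F v).1 hv1, ← hw, ell_under]
    have hwN : ¬ ell L w ∣ N := by rwa [← hv3]
    have hfr : frob L G w ∈ U := by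
      apply Fiber.frob_mem_of_nrm_eq L G U F w (hN w hwN)
      rw [hw, hv3]
    have hfr' := hfr
    rw [← mem_powers_iff_mem_zpowers] at hfr'
    obtain ⟨j, hj⟩ := hfr'
    refine ⟨j, ?_⟩
    rw [hv3]
    exact (frob_eq_pow_iff L G hζ hinj ha w (fun h => hwN (h.trans hmN)) hfr j).1 hj.symm
  -- h2
  have h2 : ∃ v : HeightOneSpectrum (𝓞 F), (nrm F v).Prime ∧ ¬ nrm F v ∣ N ∧
      ∃ j : ℕ, j.Coprime (orderOf a) ∧
        ((nrm F v : ℕ) : ZMod m) = ((a ^ j : (ZMod m)ˣ) : ZMod m) := by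
    obtain ⟨w, hwN, -, hz⟩ := exists_zpowers_frob_eq L G γ N hN0
    have hfr : frob L G w ∈ U := by
      change frob L G w ∈ Subgroup.zpowers γ
      rw [← hz]
      exact Subgroup.mem_zpowers _
    have hv3 := Fiber.nrm_eq_of_frob_mem L G U F w hfr
    have hfr' := hfr
    rw [← mem_powers_iff_mem_zpowers] at hfr'
    obtain ⟨j, hj⟩ := hfr'
    have hj : γ ^ j = frob L G w := hj
    refine ⟨HeightOneSpectrum.under (𝓞 F) w, ?_, ?_, j, ?_, ?_⟩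
    · rw [hv3]; exact ell_prime L w
    · rw [hv3]; exact hwN
    · have h3 : orderOf (γ ^ j) = orderOf γ := by
        rw [← Nat.card_zpowers, ← Nat.card_zpowers, hj, hz]
      rw [orderOf_pow, Nat.div_eq_self] at h3
      rcases h3 with h3 | h3
      · omega
      · rw [ho]
        exact (Nat.coprime_comm.1 h3)
    · rw [hv3]
      exact (frob_eq_pow_iff L G hζ hinj ha w (fun h => hwN (h.trans hmN)) hfr j).1 hj.symm
  -- h3
  have h3 : Close (fun s => (orderOf a : ℝ≥0∞) * massb F N (bcl (1 : ZMod m) s)) lam := by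
    have h4 := close_massS_one L G N hN0 hN
    refine h4.congr_left fun s => ?_
    have h5 := hmass 0 s
    rw [pow_zero, pow_zero, Units.val_one] at h5
    rw [h5, ho]
  have key := dirichlet_symm F N hN0 hmN a h1 h2 h3
  refine key.congr_left fun s => ?_
  have e1 := hmass 1 s
  have e2 := hmass (orderOf γ - 1) s
  have hγ : γ ^ (orderOf γ - 1) = γ⁻¹ := by
    apply eq_inv_of_mul_eq_one_left
    rw [← pow_succ, Nat.sub_add_cancel hn, pow_orderOf_eq_one]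
  have hainv : a ^ (orderOf γ - 1) = a⁻¹ := by
    apply eq_inv_of_mul_eq_one_left
    rw [← pow_succ, Nat.sub_add_cancel hn, ← ho, pow_orderOf_eq_one]
  rw [pow_one, pow_one] at e1
  rw [hγ, hainv] at e2
  rw [e1, e2, ho, mul_add]

end Fermat.Agent.Lib.Cheb
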