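import Mathlib
import Fermat.Agent.Lib.FrobDensity.Main

/-!
# Symmetric Chebotarev density theorem: common definitions (block CHEB of S48)

Blueprint: report of helper58 (stmt `S48`, kind `plan`, title CHEB).

* `tent`, `coords`, `wt` : the "tent" partition of unity for the action of the units of a number
  field `K` on its mixed space: `∑_{u ∈ 𝓞ˣ} wt (u • x) = |μ_K|`.
* `Phi κ s x = (sign twist) * |N x| ^ (-s) * wt x` for `x : 𝓞 K`.
* `Lfun ψ s = ∑_𝔞 ψ(N𝔞) N𝔞^{-s}`, `Pfun ψ J s` the same sum over the principal ideals divisible by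
  `J`, `Sfun ψ J s` the corresponding sum over the lattice points `x ∈ J`.
* `massS` : the mass of the primes `w` of a Galois number field whose Frobenius lies in a set.
-/

set_option autoImplicit false

namespace Fermat.Agent.Lib.Cheb

open NumberField NumberField.mixedEmbedding NumberField.Units NumberField.InfinitePlace
  IsDedekindDomain Filter Topology Fermat.Agent.Lib.FrobDensity
open scoped ENNReal NNReal nonZeroDivisors

noncomputable section

/-- The tent function `max 0 (1 - |t|)`; its integer translates form a partition of unity. -/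
def tent (t : ℝ) : ℝ := max 0 (1 - |t|)

variable (K : Type*) [Field K] [NumberField K]

open scoped Classical in
/-- The coordinates of `logMap x` in the basis of the unit lattice given by the fundamental system
of units. -/
def coords (x : mixedSpace K) (i : Fin (rank K)) : ℝ :=
  ((basisUnitLattice K).ofZLatticeBasis ℝ (unitLattice K)).repr (logMap x) i

/-- The weight: product of tents of the coordinates. -/
def wt (x : mixedSpace K) : ℝ := ∏ i, tent (coords K x i)

/-- The weight of an algebraic integer. -/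
def wtO (x : 𝓞 K) : ℝ := wt K (mixedEmbedding K (x : K))

/-- `Phi κ s x = κ^{[N x < 0]} |N x|^{-s} wt x`. -/
def Phi (κ : ℂ) (s : ℝ) (x : 𝓞 K) : ℂ :=
  (if Algebra.norm ℤ x < 0 then κ else 1) *
    ((((Algebra.norm ℤ x).natAbs : ℝ) ^ (-s) * wtO K x : ℝ) : ℂ)

variable {m : ℕ}

/-- The term `ψ(N𝔞) N𝔞^{-s}`. -/
def term (ψ : DirichletCharacter ℂ m) (s : ℝ) (I : Ideal (𝓞 K)) : ℂ :=
  ψ ((Ideal.absNorm I : ℕ) : ZMod m) * (((Ideal.absNorm I : ℝ) ^ (-s) : ℝ) : ℂ)

/-- `L_K(s, ψ ∘ N) = ∑_𝔞 ψ(N𝔞) N𝔞^{-s}`. -/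
def Lfun (ψ : DirichletCharacter ℂ m) (s : ℝ) : ℂ := ∑' I : Ideal (𝓞 K), term K ψ s I

open scoped Classical in
/-- The same sum restricted to the principal ideals divisible by `J`. -/
def Pfun (ψ : DirichletCharacter ℂ m) (J : Ideal (𝓞 K)) (s : ℝ) : ℂ :=
  ∑' I : Ideal (𝓞 K), if I.IsPrincipal ∧ J ∣ I then term K ψ s I else 0

open scoped Classical in
/-- The lattice sum `∑_{x ∈ J} ψ(N x) Phi (ψ (-1)) s x`. -/
def Sfun (ψ : DirichletCharacter ℂ m) (J : Ideal (𝓞 K)) (s : ℝ) : ℂ :=
  ∑' x : 𝓞 K, if x ∈ J then ψ ((Algebra.norm ℤ x : ℤ) : ZMod m) * Phi K (ψ (-1)) s x else 0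

/-- The prime sum `∑_v ψ(N v) N v^{-s}` over the primes of absolute degree one not dividing `N`. -/
def primeSum (ψ : DirichletCharacter ℂ m) (N : ℕ) (s : ℝ) : ℂ :=
  ∑' v : HeightOneSpectrum (𝓞 K), Set.indicator {v | (nrm K v).Prime ∧ ¬ nrm K v ∣ N}
    (fun v => ψ ((nrm K v : ℕ) : ZMod m) * (((nrm K v : ℝ) ^ (-s) : ℝ) : ℂ)) v

/-- The mass of the primes of absolute degree one not dividing `N`, with a general weight `b`. -/
def massb (N : ℕ) (b : ℕ → ℝ≥0∞) : ℝ≥0∞ :=
  ∑' v : HeightOneSpectrum (𝓞 K),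
    Set.indicator {v | (nrm K v).Prime ∧ ¬ nrm K v ∣ N} (fun v => b (nrm K v)) v

end

noncomputable section

variable (L : Type*) [Field L] [NumberField L] (G : Type*) [Group G] [Finite G]
  [MulSemiringAction G L] [IsGaloisGroup G ℚ L]

/-- The mass of the primes `w` of `L` (not dividing `N`) with Frobenius in `S`; the weight of `w` is
`f(w/ℚ) ℓ(w)^{-s}`, so that the primes above an unramified `p` have total mass `|G| p^{-s}`. -/
def massS (N : ℕ) (S : Set G) (s : ℝ) : ℝ≥0∞ :=
  ∑' w : HeightOneSpectrum (𝓞 L), Set.indicator {w | ¬ ell L w ∣ N ∧ frob L G w ∈ S}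
    (fun w => (w.asIdeal.inertiaDeg ℤ : ℝ≥0∞) * nw s (ell L w)) w

end

end Fermat.Agent.Lib.Cheb
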