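import Fermat.Agent.Lib.Cheb.EulerProd

/-!
# CHEB leaf IIIb: Euler product inequality: a bound for `L` bounds the real part of the prime sum
-/

set_option autoImplicit false

namespace Fermat.Agent.Lib.Cheb

open NumberField IsDedekindDomain Filter Topology Fermat.Agent.Lib.FrobDensity

variable (K : Type*) [Field K] [NumberField K] {m : ℕ}

theorem eulerChi_norm_one_sub_le_exp (z : ℂ) :
    ‖1 - z‖ ≤ Real.exp (- z.re + ‖z‖ ^ 2) := by
  rw [← pow_le_pow_iff_left₀ (norm_nonneg _) (Real.exp_pos _).le two_ne_zero]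
  have h1 : ‖1 - z‖ ^ 2 = (-2 * z.re + ‖z‖ ^ 2) + 1 := by
    rw [Complex.sq_norm, Complex.sq_norm, Complex.normSq_apply, Complex.normSq_apply]
    simp only [Complex.sub_re, Complex.one_re, Complex.sub_im, Complex.one_im]
    ring
  have h2 : Real.exp (- z.re + ‖z‖ ^ 2) ^ 2 = Real.exp (-2 * z.re + ‖z‖ ^ 2 + ‖z‖ ^ 2) := by
    rw [sq, ← Real.exp_add]
    congr 1
    ring
  rw [h1, h2]
  refine le_trans (Real.add_one_le_exp _) (Real.exp_le_exp.2 ?_)
  have := sq_nonneg ‖z‖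
  linarith

/-- `- log |1 - z| ≥ Re z - |z|^2` for `|z| ≤ 1/2`, i.e. `|1 - z| ≤ exp (- Re z + |z|^2)`. -/
theorem norm_one_sub_le_exp {z : ℂ} (hz : ‖z‖ ≤ 1 / 2) :
    ‖1 - z‖ ≤ Real.exp (- z.re + ‖z‖ ^ 2) :=
  eulerChi_norm_one_sub_le_exp z

omit [NumberField K] in
theorem eulerChi_asIdeal_injective :
    Function.Injective (fun v : HeightOneSpectrum (𝓞 K) => v.asIdeal) :=
  fun _ _ h => HeightOneSpectrum.ext h

theorem eulerChi_summable_nrm {s : ℝ} (hs : 1 < s) :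
    Summable fun v : HeightOneSpectrum (𝓞 K) => (nrm K v : ℝ) ^ (-s) :=
  (summable_absNorm_rpow K hs).comp_injective (eulerChi_asIdeal_injective K)

theorem eulerChi_summable_norm_term (ψ : DirichletCharacter ℂ m) {s : ℝ} (hs : 1 < s) :
    Summable fun v : HeightOneSpectrum (𝓞 K) => ‖term K ψ s v.asIdeal‖ :=
  (summable_term K ψ hs).comp_injective (eulerChi_asIdeal_injective K)

theorem eulerChi_norm_term_le (ψ : DirichletCharacter ℂ m) (s : ℝ)
    (v : HeightOneSpectrum (𝓞 K)) : ‖term K ψ s v.asIdeal‖ ≤ (nrm K v : ℝ) ^ (-s) :=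
  norm_term_le K ψ s v.asIdeal

theorem eulerChi_norm_term_sq_le (ψ : DirichletCharacter ℂ m) (s : ℝ)
    (v : HeightOneSpectrum (𝓞 K)) : ‖term K ψ s v.asIdeal‖ ^ 2 ≤ (nrm K v : ℝ) ^ (-(2 * s)) := by
  have h1 := pow_le_pow_left₀ (norm_nonneg _) (eulerChi_norm_term_le K ψ s v) 2
  refine le_trans h1 (le_of_eq ?_)
  rw [← Real.rpow_natCast, ← Real.rpow_mul (Nat.cast_nonneg _)]
  congr 1
  push_cast
  ring

/-- Consequence: for all finite `B₀`:
`∑_{v ∈ B} Re (term v) ≤ log (2 ‖L‖) + ∑_{v ∈ B} ‖term v‖^2` for some `B ⊇ B₀`; pass to the limit. -/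
theorem re_tsum_term_le (ψ : DirichletCharacter ℂ m) {s : ℝ} (hs : 1 < s) :
    (∑' v : HeightOneSpectrum (𝓞 K), term K ψ s v.asIdeal).re ≤
      Real.log (2 * ‖Lfun K ψ s‖) + ∑' v : HeightOneSpectrum (𝓞 K), (nrm K v : ℝ) ^ (-(2 * s)) := by
  have hsum : Summable fun v : HeightOneSpectrum (𝓞 K) => term K ψ s v.asIdeal :=
    (eulerChi_summable_norm_term K ψ hs).of_norm
  have hlim := Complex.hasSum_re hsum.hasSum
  have hsq : Summable fun v : HeightOneSpectrum (𝓞 K) => (nrm K v : ℝ) ^ (-(2 * s)) :=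
    eulerChi_summable_nrm K (by linarith)
  refine le_of_tendsto_of_frequently hlim ?_
  rw [SummationFilter.unconditional_filter, Filter.frequently_atTop]
  intro B₀
  obtain ⟨B, hB₀, hB⟩ := exists_finset_half_le K ψ hs B₀
  refine ⟨B, hB₀, ?_⟩
  rw [norm_mul, norm_prod] at hB
  have h1 : ∏ v ∈ B, ‖1 - term K ψ s v.asIdeal‖
      ≤ Real.exp (∑ v ∈ B, (-(term K ψ s v.asIdeal).re + ‖term K ψ s v.asIdeal‖ ^ 2)) := by
    rw [Real.exp_sum]
    exact Finset.prod_le_prod (fun v _ => norm_nonneg _)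
      (fun v _ => eulerChi_norm_one_sub_le_exp _)
  have hL0 : 0 < ‖Lfun K ψ s‖ := by
    rcases (norm_nonneg (Lfun K ψ s)).eq_or_lt with h | h
    · rw [← h, mul_zero] at hB
      norm_num at hB
    · exact h
  have h2 : (1 / 2 : ℝ) ≤ Real.exp (∑ v ∈ B, (-(term K ψ s v.asIdeal).re
      + ‖term K ψ s v.asIdeal‖ ^ 2)) * ‖Lfun K ψ s‖ :=
    le_trans hB (mul_le_mul_of_nonneg_right h1 hL0.le)
  have h3 : Real.exp (-(∑ v ∈ B, (-(term K ψ s v.asIdeal).re
      + ‖term K ψ s v.asIdeal‖ ^ 2))) ≤ 2 * ‖Lfun K ψ s‖ := by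
    rw [Real.exp_neg, inv_le_iff_one_le_mul₀ (Real.exp_pos _)]
    linarith
  have h4 := (Real.le_log_iff_exp_le (by positivity)).2 h3
  rw [Finset.sum_add_distrib, Finset.sum_neg_distrib] at h4
  have h5 : ∑ v ∈ B, ‖term K ψ s v.asIdeal‖ ^ 2
      ≤ ∑' v : HeightOneSpectrum (𝓞 K), (nrm K v : ℝ) ^ (-(2 * s)) :=
    le_trans (Finset.sum_le_sum fun v _ => eulerChi_norm_term_sq_le K ψ s v)
      (hsq.sum_le_tsum B fun v _ => Real.rpow_nonneg (Nat.cast_nonneg _) _)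
  linarith

open scoped ENNReal NNReal in
theorem eulerChi_ofReal_rpow (s : ℝ) (n : ℕ) : ENNReal.ofReal ((n : ℝ) ^ (-s)) = nw s n := by
  unfold nw
  rw [← ENNReal.ofReal_coe_nnreal]
  push_cast
  rfl

open scoped ENNReal NNReal in
/-- The primes of degree `≥ 2` or dividing `N` contribute a bounded amount: there are at most
`[K : ℚ]` primes above each rational prime (`fibre_ell_finite_card_le`, `tsum_comp_ell_le` in
`Lib/FrobDensity/DegOne.lean`), see the proof of `close_mass1_total` there. -/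
theorem exists_bad_le (N : ℕ) (hN : N ≠ 0) : ∃ C : ℝ, ∀ s : ℝ, 1 < s →
    Summable (fun v : HeightOneSpectrum (𝓞 K) =>
      Set.indicator {v | ¬ ((nrm K v).Prime ∧ ¬ nrm K v ∣ N)} (fun v => (nrm K v : ℝ) ^ (-s)) v) ∧
    ∑' v : HeightOneSpectrum (𝓞 K),
      Set.indicator {v | ¬ ((nrm K v).Prime ∧ ¬ nrm K v ∣ N)} (fun v => (nrm K v : ℝ) ^ (-s)) v
        ≤ C := by
  set b : ℕ → ℝ≥0∞ := fun n => nw 2 n + (if n ∣ N then (1 : ℝ≥0∞) else 0) with hb
  have hbfin : (Module.finrank ℚ K : ℝ≥0∞) * ∑' n, b n ≠ ∞ := by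
    refine ENNReal.mul_ne_top (ENNReal.natCast_ne_top _) ?_
    rw [hb, ENNReal.tsum_add]
    exact ENNReal.add_ne_top.mpr ⟨tsum_nw_two_ne_top, tsum_dvd_ne_top hN⟩
  refine ⟨((Module.finrank ℚ K : ℝ≥0∞) * ∑' n, b n).toReal, fun s hs => ?_⟩
  have hsum : Summable (fun v : HeightOneSpectrum (𝓞 K) =>
      Set.indicator {v | ¬ ((nrm K v).Prime ∧ ¬ nrm K v ∣ N)}
        (fun v => (nrm K v : ℝ) ^ (-s)) v) :=
    (eulerChi_summable_nrm K hs).indicator _
  refine ⟨hsum, ?_⟩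
  have hnn : ∀ v : HeightOneSpectrum (𝓞 K), 0 ≤ Set.indicator
      {v | ¬ ((nrm K v).Prime ∧ ¬ nrm K v ∣ N)} (fun v => (nrm K v : ℝ) ^ (-s)) v :=
    fun v => Set.indicator_nonneg (fun v _ => Real.rpow_nonneg (Nat.cast_nonneg _) _) v
  rw [← ENNReal.ofReal_le_iff_le_toReal hbfin, ENNReal.ofReal_tsum_of_nonneg hnn hsum]
  refine le_trans (ENNReal.tsum_le_tsum fun v => ?_) (tsum_comp_ell_le K b)
  by_cases hv : (nrm K v).Prime ∧ ¬ nrm K v ∣ N
  · rw [Set.indicator_of_notMem (by simpa using hv)]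
    simp
  · rw [Set.indicator_of_mem (by simpa using hv), eulerChi_ofReal_rpow]
    exact nw_nrm_le_of_bad K hs.le v hv

theorem eulerChi_one_le_nrm (v : HeightOneSpectrum (𝓞 K)) : (1 : ℝ) ≤ (nrm K v : ℝ) := by
  have h1 : nrm K v ≠ 0 := by
    unfold nrm
    rw [Ne, Ideal.absNorm_eq_zero_iff]
    exact v.ne_bot
  exact_mod_cast Nat.one_le_iff_ne_zero.2 h1

theorem exists_sq_le : ∃ C : ℝ, ∀ s : ℝ, 1 < s →
    ∑' v : HeightOneSpectrum (𝓞 K), (nrm K v : ℝ) ^ (-(2 * s)) ≤ C := by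
  refine ⟨∑' v : HeightOneSpectrum (𝓞 K), (nrm K v : ℝ) ^ (-(2 : ℝ)), fun s hs => ?_⟩
  refine Summable.tsum_le_tsum (fun v => ?_) (eulerChi_summable_nrm K (by linarith))
    (eulerChi_summable_nrm K (by norm_num))
  exact Real.rpow_le_rpow_of_exponent_le (eulerChi_one_le_nrm K v) (by linarith)

/-- **Main statement of the leaf.** -/
theorem re_primeSum_le (ψ : DirichletCharacter ℂ m) (N : ℕ) (hN : N ≠ 0) {B : ℝ}
    (hB : ∀ᶠ s in 𝓝[>] (1 : ℝ), ‖Lfun K ψ s‖ ≤ B) :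
    ∃ C : ℝ, ∀ᶠ s in 𝓝[>] (1 : ℝ), (primeSum K ψ N s).re ≤ C := by
  obtain ⟨C1, hC1⟩ := exists_bad_le K N hN
  obtain ⟨C2, hC2⟩ := exists_sq_le K
  refine ⟨max (Real.log (2 * B)) 0 + C2 + C1, ?_⟩
  filter_upwards [hB, self_mem_nhdsWithin] with s hBs hs
  have hs1 : 1 < s := hs
  obtain ⟨hbadsum, hbad⟩ := hC1 s hs1
  set G : Set (HeightOneSpectrum (𝓞 K)) := {v | (nrm K v).Prime ∧ ¬ nrm K v ∣ N} with hG
  set f : HeightOneSpectrum (𝓞 K) → ℂ := fun v => term K ψ s v.asIdeal with hf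
  have hfn : Summable fun v => ‖f v‖ := eulerChi_summable_norm_term K ψ hs1
  have hfs : Summable f := hfn.of_norm
  have hprime : primeSum K ψ N s = ∑' v, G.indicator f v := rfl
  have hsplit : ∑' v, f v = ∑' v, G.indicator f v + ∑' v, Gᶜ.indicator f v := by
    rw [← (hfs.indicator G).tsum_add (hfs.indicator Gᶜ)]
    refine tsum_congr fun v => ?_
    rw [← Pi.add_apply, Set.indicator_self_add_compl]
  have hle : ∀ v, ‖Gᶜ.indicator f v‖
      ≤ Set.indicator {v | ¬ ((nrm K v).Prime ∧ ¬ nrm K v ∣ N)}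
        (fun v => (nrm K v : ℝ) ^ (-s)) v := by
    intro v
    by_cases hv : v ∈ G
    · rw [Set.indicator_of_notMem (by simpa using hv), norm_zero]
      exact Set.indicator_nonneg (fun v _ => Real.rpow_nonneg (Nat.cast_nonneg _) _) v
    · rw [Set.indicator_of_mem (show v ∈ Gᶜ from hv),
        Set.indicator_of_mem (show v ∈ {v | ¬ ((nrm K v).Prime ∧ ¬ nrm K v ∣ N)} from hv)]
      exact eulerChi_norm_term_le K ψ s v
  have hbn : Summable fun v => ‖Gᶜ.indicator f v‖ :=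
    Summable.of_nonneg_of_le (fun v => norm_nonneg _) hle hbadsum
  have h1 : ‖∑' v, Gᶜ.indicator f v‖ ≤ C1 :=
    le_trans (norm_tsum_le_tsum_norm hbn) (le_trans (hbn.tsum_le_tsum hle hbadsum) hbad)
  have h2 : -(∑' v, Gᶜ.indicator f v).re ≤ C1 :=
    le_trans (neg_le_abs _) (le_trans (Complex.abs_re_le_norm _) h1)
  have h3 := re_tsum_term_le K ψ hs1
  have h4 : Real.log (2 * ‖Lfun K ψ s‖) ≤ max (Real.log (2 * B)) 0 := by
    rcases (norm_nonneg (Lfun K ψ s)).eq_or_lt with h | h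
    · rw [← h, mul_zero, Real.log_zero]
      exact le_max_right _ _
    · exact le_trans (Real.log_le_log (by positivity) (by linarith)) (le_max_left _ _)
  have h5 := hC2 s hs1
  have h6 : (∑' v, f v).re = (primeSum K ψ N s).re + (∑' v, Gᶜ.indicator f v).re := by
    rw [hsplit, Complex.add_re, hprime]
  have h3' : (∑' v, f v).re ≤ Real.log (2 * ‖Lfun K ψ s‖)
      + ∑' v : HeightOneSpectrum (𝓞 K), (nrm K v : ℝ) ^ (-(2 * s)) := h3
  linarith

end Fermat.Agent.Lib.Cheb
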