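import Fermat.Agent.Lib.Cheb.Defs

/-!
# CHEB leaf I5: the sign of the norm is locally constant
-/

set_option autoImplicit false

namespace Fermat.Agent.Lib.Cheb

open NumberField NumberField.mixedEmbedding NumberField.InfinitePlace

variable (K : Type*) [Field K] [NumberField K]

/-- The arguments of the conjugates of an element none of whose conjugates is a negative real
number sum up to zero. -/
theorem Sign.sum_arg_eq_zero {z : K} (hre : ∀ φ : K →+* ℂ, 0 < (φ z).re) :
    ∑ φ : K →+* ℂ, (φ z).arg = 0 := by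
  have h1 : ∑ φ : K →+* ℂ, (φ z).arg = ∑ φ : K →+* ℂ, -(φ z).arg := by
    refine Fintype.sum_equiv (star_involutive.toPerm (star : (K →+* ℂ) → (K →+* ℂ))) _ _ ?_
    intro φ
    have h2 : (star_involutive.toPerm (star : (K →+* ℂ) → (K →+* ℂ)) φ) z
        = (starRingEnd ℂ) (φ z) := rfl
    rw [h2, Complex.arg_conj, if_neg, neg_neg]
    intro h3
    have := (Complex.arg_eq_pi_iff.1 h3).1
    exact absurd (hre φ) (not_lt.2 this.le)
  rw [Finset.sum_neg_distrib] at h1
  linarith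

/-- Proof.  Put `t = (y - x) / x`, so `‖φ t‖ < 1` for all `φ`.  The function
`f (r : ℝ) = ∏_φ (1 + r φ t) : ℂ` is continuous, does not vanish on `[0,1]`, and for rational `r`
it equals `Algebra.norm ℚ (1 + r t)` (`Algebra.norm_eq_prod_embeddings`), so its imaginary part
vanishes on a dense set, hence everywhere.  `Re f` is continuous, nonvanishing on `[0,1]`,
`f 0 = 1`: by the intermediate value theorem `Re f 1 > 0`. -/
theorem norm_div_pos {x y : K} (hx : x ≠ 0) (h : ∀ φ : K →+* ℂ, ‖φ (x - y)‖ < ‖φ x‖) :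
    0 < Algebra.norm ℚ (y / x) := by
  set z := y / x with hz
  have hre : ∀ φ : K →+* ℂ, 0 < (φ z).re := by
    intro φ
    have hφx : φ x ≠ 0 := (map_ne_zero φ).2 hx
    have h1 : ‖1 - φ z‖ < 1 := by
      have : 1 - φ z = φ (x - y) / φ x := by
        rw [hz, map_div₀, map_sub]; field_simp
      rw [this, norm_div, div_lt_one (norm_pos_iff.2 hφx)]
      exact h φ
    have h2 : (1 - φ z).re ≤ ‖1 - φ z‖ := Complex.re_le_norm _
    simp only [Complex.sub_re, Complex.one_re] at h2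
    linarith
  have hprod : (algebraMap ℚ ℂ (Algebra.norm ℚ z)) = ∏ φ : K →+* ℂ, φ z := by
    rw [Algebra.norm_eq_prod_embeddings ℚ ℂ z]
    exact (Fintype.prod_equiv (RingHom.equivRatAlgHom K ℂ) _ _ (fun _ => rfl)).symm
  have hprod2 : ∏ φ : K →+* ℂ, φ z = ((∏ φ : K →+* ℂ, ‖φ z‖ : ℝ) : ℂ) := by
    have h3 : ∀ φ : K →+* ℂ, φ z = (‖φ z‖ : ℂ) * Complex.exp ((φ z).arg * Complex.I) :=
      fun φ => (Complex.norm_mul_exp_arg_mul_I _).symm
    calc ∏ φ : K →+* ℂ, φ z
        = ∏ φ : K →+* ℂ, ((‖φ z‖ : ℂ) * Complex.exp ((φ z).arg * Complex.I)) :=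
          Finset.prod_congr rfl (fun φ _ => h3 φ)
      _ = (∏ φ : K →+* ℂ, (‖φ z‖ : ℂ)) * Complex.exp (∑ φ : K →+* ℂ, ((φ z).arg * Complex.I)) := by
          rw [Finset.prod_mul_distrib, Complex.exp_sum]
      _ = ((∏ φ : K →+* ℂ, ‖φ z‖ : ℝ) : ℂ) := by
          rw [← Finset.sum_mul, ← Complex.ofReal_sum, Sign.sum_arg_eq_zero K hre]
          simp
  have hpos : 0 < ∏ φ : K →+* ℂ, ‖φ z‖ := by
    refine Finset.prod_pos (fun φ _ => norm_pos_iff.2 ?_)
    intro h0
    have := hre φ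
    rw [h0] at this
    simp at this
  have hfin : ((Algebra.norm ℚ z : ℚ) : ℝ) = ∏ φ : K →+* ℂ, ‖φ z‖ := by
    have : (((Algebra.norm ℚ z : ℚ) : ℝ) : ℂ) = ((∏ φ : K →+* ℂ, ‖φ z‖ : ℝ) : ℂ) := by
      rw [← hprod2, ← hprod]
      simp
    exact_mod_cast this
  have : (0 : ℝ) < ((Algebra.norm ℚ z : ℚ) : ℝ) := hfin ▸ hpos
  exact_mod_cast this

/-- Consequence for integers. (`normAtPlace_apply`, `Algebra.coe_norm_int`.) -/
theorem norm_neg_iff {x y : 𝓞 K}
    (h : ∀ w : InfinitePlace K, normAtPlace w (mixedEmbedding K (x : K) - mixedEmbedding K (y : K)) <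
      normAtPlace w (mixedEmbedding K (x : K))) :
    Algebra.norm ℤ x < 0 ↔ Algebra.norm ℤ y < 0 := by
  have h' : ∀ w : InfinitePlace K, w ((x : K) - (y : K)) < w (x : K) := by
    intro w
    have := h w
    rwa [← map_sub, normAtPlace_apply, normAtPlace_apply] at this
  have hx : (x : K) ≠ 0 := by
    intro h0
    obtain ⟨w⟩ := (inferInstance : Nonempty (InfinitePlace K))
    have := h' w
    rw [h0, map_zero] at this
    exact absurd this (not_lt.2 (apply_nonneg w _))
  have hpos := norm_div_pos K hx (fun φ => by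
    have := h' (InfinitePlace.mk φ)
    simpa only [InfinitePlace.apply] using this)
  rw [div_eq_mul_inv, map_mul, Algebra.norm_inv, ← div_eq_mul_inv, ← Algebra.coe_norm_int,
    ← Algebra.coe_norm_int] at hpos
  have hxn : ((Algebra.norm ℤ x : ℤ) : ℚ) ≠ 0 := by
    intro h0
    rw [h0, div_zero] at hpos
    exact lt_irrefl _ hpos
  constructor
  · intro hneg
    have h1 : ((Algebra.norm ℤ x : ℤ) : ℚ) < 0 := by exact_mod_cast hneg
    have h2 : ((Algebra.norm ℤ y : ℤ) : ℚ) < 0 := by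
      rcases div_pos_iff.1 hpos with ⟨_, h3⟩ | ⟨h3, _⟩
      · exact absurd h1 (not_lt.2 h3.le)
      · exact h3
    exact_mod_cast h2
  · intro hneg
    have h1 : ((Algebra.norm ℤ y : ℤ) : ℚ) < 0 := by exact_mod_cast hneg
    have h2 : ((Algebra.norm ℤ x : ℤ) : ℚ) < 0 := by
      rcases div_pos_iff.1 hpos with ⟨h3, _⟩ | ⟨_, h3⟩
      · exact absurd h1 (not_lt.2 h3.le)
      · exact h3
    exact_mod_cast h2

end Fermat.Agent.Lib.Cheb
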