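import Fermat.Agent.Lib.Cheb.Est
import Fermat.Agent.Lib.Cheb.Sign

/-!
# CHEB leaf I6: shifted lattice sums of `Phi` differ by a bounded amount
-/

set_option autoImplicit false

namespace Fermat.Agent.Lib.Cheb

open NumberField NumberField.mixedEmbedding NumberField.Units NumberField.InfinitePlace Module

open scoped Classical

variable (K : Type*) [Field K] [NumberField K]

/-- the map `𝓞 K → integerLattice K`. -/
noncomputable def Pairing_toLattice (x : 𝓞 K) : mixedEmbedding.integerLattice K :=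
  ⟨mixedEmbedding K (x : K), ⟨x, rfl⟩⟩

theorem Pairing_toLattice_injective : Function.Injective (Pairing_toLattice K) := by
  intro x y h
  have h1 : mixedEmbedding K (x : K) = mixedEmbedding K (y : K) := congrArg Subtype.val h
  exact RingOfIntegers.ext ((mixedEmbedding K).injective h1)

theorem Pairing_finrank : finrank ℤ (mixedEmbedding.integerLattice K) = finrank ℚ K := by
  rw [ZLattice.rank ℝ, mixedEmbedding.finrank]

/-- From `ZLattice.summable_norm_rpow` for `mixedEmbedding.integerLattice K` (rank `d`) and the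
bijection `𝓞 K ≃ integerLattice K`. -/
theorem summable_norm_rpow_int {r : ℝ} (hr : r < -(finrank ℚ K : ℝ)) :
    Summable fun x : 𝓞 K => ‖mixedEmbedding K (x : K)‖ ^ r := by
  have h2 : Summable fun z : mixedEmbedding.integerLattice K => ‖z‖ ^ r :=
    ZLattice.summable_norm_rpow (mixedEmbedding.integerLattice K) r
      (by rw [Pairing_finrank]; exact hr)
  have h3 := h2.comp_injective (Pairing_toLattice_injective K)
  refine h3.congr fun x => ?_
  rfl

theorem finite_norm_le (R : ℝ) : {x : 𝓞 K | ‖mixedEmbedding K (x : K)‖ ≤ R}.Finite := by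
  have H : IsClosed (X := mixedSpace K) (mixedEmbedding.integerLattice K) :=
    @AddSubgroup.isClosed_of_discrete _ _ _ _ _
      (mixedEmbedding.integerLattice K).toAddSubgroup
      (inferInstanceAs (DiscreteTopology (mixedEmbedding.integerLattice K)))
  have h1 := Metric.finite_isBounded_inter_isClosed
    (s := (mixedEmbedding.integerLattice K : Set (mixedSpace K)))
    ⟨inferInstanceAs (DiscreteTopology (mixedEmbedding.integerLattice K))⟩
    (Metric.isBounded_closedBall (x := (0 : mixedSpace K)) (r := R)) H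
  refine (h1.preimage (f := fun x : 𝓞 K => mixedEmbedding K (x : K)) ?_).subset ?_
  · intro x _ y _ h
    exact RingOfIntegers.ext ((mixedEmbedding K).injective h)
  · intro x hx
    refine ⟨?_, ⟨x, rfl⟩⟩
    simpa using hx

/-- `(Algebra.norm ℤ x).natAbs = mixedEmbedding.norm (x)` (`mixedEmbedding.norm_eq_norm`). -/
theorem natAbs_norm_eq (x : 𝓞 K) :
    ((Algebra.norm ℤ x).natAbs : ℝ) = mixedEmbedding.norm (mixedEmbedding K (x : K)) := by
  rw [mixedEmbedding.norm_eq_norm, ← Algebra.coe_norm_int, Nat.cast_natAbs]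
  push_cast
  rfl

theorem Phi_zero (κ : ℂ) {s : ℝ} (hs : s ≠ 0) : Phi K κ s 0 = 0 := by
  unfold Phi
  rw [Algebra.norm_zero, Int.natAbs_zero, Nat.cast_zero, Real.zero_rpow (neg_ne_zero.2 hs)]
  simp

omit [NumberField K] in
theorem Pairing_norm_sign_le {κ : ℂ} (hκ : ‖κ‖ ≤ 1) (x : 𝓞 K) :
    ‖(if Algebra.norm ℤ x < 0 then κ else 1 : ℂ)‖ ≤ 1 := by
  split_ifs
  · exact hκ
  · simp

theorem Pairing_real_nonneg (s : ℝ) (x : 𝓞 K) :
    0 ≤ ((Algebra.norm ℤ x).natAbs : ℝ) ^ (-s) * wtO K x :=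
  mul_nonneg (Real.rpow_nonneg (Nat.cast_nonneg _) _) (wt_nonneg K _)

theorem Pairing_norm_Phi_le {κ : ℂ} (hκ : ‖κ‖ ≤ 1) (s : ℝ) (x : 𝓞 K) :
    ‖Phi K κ s x‖ ≤ ((Algebra.norm ℤ x).natAbs : ℝ) ^ (-s) * wtO K x := by
  unfold Phi
  rw [norm_mul, Complex.norm_real, Real.norm_of_nonneg (Pairing_real_nonneg K s x)]
  exact mul_le_of_le_one_left (Pairing_real_nonneg K s x) (Pairing_norm_sign_le K hκ x)

/-- `|N x| ≥ 1` for `x ≠ 0`. -/
theorem norm_Phi_le_one {κ : ℂ} (hκ : ‖κ‖ ≤ 1) {s : ℝ} (hs : 0 < s) (x : 𝓞 K) :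
    ‖Phi K κ s x‖ ≤ 1 := by
  rcases eq_or_ne x 0 with rfl | hx
  · rw [Phi_zero K κ hs.ne', norm_zero]
    exact zero_le_one
  refine (Pairing_norm_Phi_le K hκ s x).trans ?_
  have h1 : (1 : ℝ) ≤ ((Algebra.norm ℤ x).natAbs : ℝ) := by
    have : Algebra.norm ℤ x ≠ 0 := by rwa [Ne, Algebra.norm_eq_zero_iff]
    exact_mod_cast Nat.one_le_iff_ne_zero.2 (Int.natAbs_ne_zero.2 this)
  have h2 : ((Algebra.norm ℤ x).natAbs : ℝ) ^ (-s) ≤ 1 :=
    Real.rpow_le_one_of_one_le_of_nonpos h1 (by linarith)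
  calc ((Algebra.norm ℤ x).natAbs : ℝ) ^ (-s) * wtO K x ≤ 1 * 1 :=
        mul_le_mul h2 (wt_le_one K _) (wt_nonneg K _) zero_le_one
    _ = 1 := one_mul 1

theorem Pairing_norm_ne_zero {x : 𝓞 K} (hx : x ≠ 0) :
    mixedEmbedding.norm (mixedEmbedding K (x : K)) ≠ 0 := by
  rw [Ne, mixedEmbedding.norm_eq_zero_iff' ⟨_, rfl⟩, map_eq_zero]
  exact fun h => hx (RingOfIntegers.ext h)

/-- From `exists_bound` and `summable_norm_rpow_int` with `r = - d s`. -/
theorem summable_Phi {κ : ℂ} (hκ : ‖κ‖ ≤ 1) {s : ℝ} (hs : 1 < s) :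
    Summable fun x : 𝓞 K => ‖Phi K κ s x‖ := by
  obtain ⟨C, hC, hb⟩ := exists_bound K s (by linarith)
  have hd : (0 : ℝ) < finrank ℚ K := by exact_mod_cast finrank_pos
  have hr : -(finrank ℚ K * s) < -(finrank ℚ K : ℝ) := by nlinarith
  refine Summable.of_nonneg_of_le (fun _ => norm_nonneg _) (fun x => ?_)
    ((summable_norm_rpow_int K hr).mul_left C)
  rcases eq_or_ne x 0 with rfl | hx
  · rw [Phi_zero K κ (by linarith), norm_zero]
    exact mul_nonneg hC (Real.rpow_nonneg (norm_nonneg _) _)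
  · refine (Pairing_norm_Phi_le K hκ s x).trans ?_
    rw [natAbs_norm_eq]
    exact hb _ (Pairing_norm_ne_zero K hx)

/-- the real part of `Phi`. -/
theorem Pairing_Phi_eq (κ : ℂ) (s : ℝ) (x : 𝓞 K) :
    Phi K κ s x = (if Algebra.norm ℤ x < 0 then κ else 1) *
      ((mixedEmbedding.norm (mixedEmbedding K (x : K)) ^ (-s) * wt K (mixedEmbedding K (x : K)) : ℝ)
        : ℂ) := by
  unfold Phi wtO
  rw [natAbs_norm_eq]

/-- the termwise estimate outside the bad set. -/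
theorem Pairing_term_le {κ : ℂ} (hκ : ‖κ‖ ≤ 1) (δ : 𝓞 K) {C₀ R₁ : ℝ}
    (hest : ∀ s ∈ Set.Icc (1 : ℝ) 2, ∀ x y : mixedSpace K,
      mixedEmbedding.norm x ≠ 0 → mixedEmbedding.norm y ≠ 0 →
      ‖x - y‖ ≤ ‖mixedEmbedding K (δ : K)‖ → R₁ ≤ ‖x‖ →
      |mixedEmbedding.norm x ^ (-s) * wt K x - mixedEmbedding.norm y ^ (-s) * wt K y| ≤
          C₀ * ‖x‖ ^ (-(finrank ℚ K + 1 : ℝ)) ∧
      ((wt K x ≠ 0 ∨ wt K y ≠ 0) → ∀ w : InfinitePlace K,
        normAtPlace w (x - y) < normAtPlace w x))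
    {s : ℝ} (hs : s ∈ Set.Icc (1 : ℝ) 2) {x : 𝓞 K} (hx : x ≠ 0) (hxδ : x + δ ≠ 0)
    (hR : R₁ ≤ ‖mixedEmbedding K (x : K)‖) :
    ‖Phi K κ s (x + δ) - Phi K κ s x‖ ≤
      C₀ * ‖mixedEmbedding K (x : K)‖ ^ (-(finrank ℚ K + 1 : ℝ)) := by
  have hsub : mixedEmbedding K (x : K) - mixedEmbedding K ((x + δ : 𝓞 K) : K)
      = - mixedEmbedding K (δ : K) := by
    rw [← map_sub]
    rw [← map_neg]
    congr 1
    push_cast
    ring
  obtain ⟨h1, h2⟩ := hest s hs (mixedEmbedding K (x : K)) (mixedEmbedding K ((x + δ : 𝓞 K) : K))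
    (Pairing_norm_ne_zero K hx) (Pairing_norm_ne_zero K hxδ) (by rw [hsub, norm_neg]) hR
  by_cases hw : wt K (mixedEmbedding K (x : K)) ≠ 0 ∨ wt K (mixedEmbedding K ((x + δ : 𝓞 K) : K)) ≠ 0
  · have hsign := norm_neg_iff K (x := x) (y := x + δ) (h2 hw)
    rw [Pairing_Phi_eq, Pairing_Phi_eq]
    have e : (if Algebra.norm ℤ (x + δ) < 0 then κ else (1 : ℂ))
        = if Algebra.norm ℤ x < 0 then κ else 1 := by
      simp only [hsign]
    rw [e, ← mul_sub, ← Complex.ofReal_sub, norm_mul, Complex.norm_real, Real.norm_eq_abs,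
      abs_sub_comm]
    exact (mul_le_of_le_one_left (abs_nonneg _) (Pairing_norm_sign_le K hκ x)).trans h1
  · push Not at hw
    rw [Pairing_Phi_eq, Pairing_Phi_eq, hw.1, hw.2]
    rw [hw.1, hw.2] at h1
    simpa using h1

/-- **Pairing lemma.**  Let `R = ‖δ‖` and `C₀, R₁` as in `exists_est`.  For `x` outside the finite
set `{‖x‖ < R₁} ∪ {0, -δ}` we have `‖Phi (x + δ) - Phi x‖ ≤ C₀ ‖x‖^(-d-1)`: if both weights vanish
this is trivial, otherwise the sign factors agree by `norm_neg_iff`.  On the finite set use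
`norm_Phi_le_one`.  So the sum is `≤ 2 * card + C₀ * ∑' ‖x‖^(-d-1)`, independent of `s`. -/
theorem pairing {κ : ℂ} (hκ : ‖κ‖ ≤ 1) (δ : 𝓞 K) : ∃ C : ℝ, ∀ s ∈ Set.Icc (1 : ℝ) 2,
    Summable (fun x : 𝓞 K => ‖Phi K κ s (x + δ) - Phi K κ s x‖) ∧
      ∑' x : 𝓞 K, ‖Phi K κ s (x + δ) - Phi K κ s x‖ ≤ C := by
  obtain ⟨C₀, R₁, hC₀, hR₁, hest⟩ := exists_est K ‖mixedEmbedding K (δ : K)‖ (norm_nonneg _)
  let B : Set (𝓞 K) := {x | ‖mixedEmbedding K (x : K)‖ ≤ R₁} ∪ {0, -δ}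
  have hB : B.Finite := (finite_norm_le K R₁).union (by simp)
  let G : 𝓞 K → ℝ := fun x =>
    B.indicator (fun _ => (2 : ℝ)) x + C₀ * ‖mixedEmbedding K (x : K)‖ ^ (-(finrank ℚ K + 1 : ℝ))
  have hG : Summable G := by
    refine Summable.add ?_ ((summable_norm_rpow_int K (by linarith)).mul_left C₀)
    exact summable_of_hasFiniteSupport (hB.subset (by
      intro x hx
      by_contra hxB
      exact hx (Set.indicator_of_notMem hxB _)))
  have hle : ∀ s ∈ Set.Icc (1 : ℝ) 2, ∀ x : 𝓞 K, ‖Phi K κ s (x + δ) - Phi K κ s x‖ ≤ G x := by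
    intro s hs x
    have hpos : 0 ≤ C₀ * ‖mixedEmbedding K (x : K)‖ ^ (-(finrank ℚ K + 1 : ℝ)) :=
      mul_nonneg hC₀ (Real.rpow_nonneg (norm_nonneg _) _)
    have hs0 : 0 < s := by linarith [hs.1]
    by_cases hxB : x ∈ B
    · have h1 : ‖Phi K κ s (x + δ) - Phi K κ s x‖ ≤ 2 := by
        refine (norm_sub_le _ _).trans ?_
        linarith [norm_Phi_le_one K hκ hs0 (x + δ), norm_Phi_le_one K hκ hs0 x]
      show _ ≤ B.indicator (fun _ => (2 : ℝ)) x + _
      rw [Set.indicator_of_mem hxB]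
      linarith
    · show _ ≤ B.indicator (fun _ => (2 : ℝ)) x + _
      rw [Set.indicator_of_notMem hxB, zero_add]
      have h1 : ¬ ‖mixedEmbedding K (x : K)‖ ≤ R₁ := fun h => hxB (Or.inl h)
      have h2 : x ≠ 0 := fun h => hxB (Or.inr (Or.inl h))
      have h3 : x + δ ≠ 0 := fun h => hxB (Or.inr (Or.inr (eq_neg_of_add_eq_zero_left h)))
      exact Pairing_term_le K hκ δ hest hs h2 h3 (not_le.1 h1).le
  refine ⟨∑' x, G x, fun s hs => ?_⟩
  have hsum : Summable (fun x : 𝓞 K => ‖Phi K κ s (x + δ) - Phi K κ s x‖) :=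
    Summable.of_nonneg_of_le (fun _ => norm_nonneg _) (hle s hs) hG
  exact ⟨hsum, hsum.tsum_le_tsum (hle s hs) hG⟩

end Fermat.Agent.Lib.Cheb
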