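import Fermat.Agent.Lib.Cheb.NormMod
import Fermat.Agent.Lib.Cheb.Pairing

/-!
# CHEB leaf II4: the lattice sum over a sublattice of index prime to `m`
-/

set_option autoImplicit false

namespace Fermat.Agent.Lib.Cheb

open NumberField

variable (K : Type*) [Field K] [NumberField K] {m : ℕ}

/-- the relative index of `𝔞 J` in `J`. -/
theorem Sublattice_relIndex (J 𝔞 : Ideal (𝓞 K)) (hJ : J ≠ ⊥) :
    (Submodule.toAddSubgroup (𝔞 * J)).relIndex (Submodule.toAddSubgroup J) =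
      Ideal.absNorm 𝔞 := by
  have hBA : Submodule.toAddSubgroup (𝔞 * J) ≤ Submodule.toAddSubgroup J :=
    (Submodule.toAddSubgroup_le _ _).mpr (Ideal.mul_le_right (I := 𝔞) (J := J))
  have h1 := AddSubgroup.relIndex_mul_index hBA
  have h2 : (Submodule.toAddSubgroup J).index = Ideal.absNorm J := by
    rw [Ideal.absNorm_apply, Submodule.cardQuot_apply]
    rfl
  have h3 : (Submodule.toAddSubgroup (𝔞 * J)).index = Ideal.absNorm 𝔞 * Ideal.absNorm J := by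
    rw [← map_mul, Ideal.absNorm_apply, Submodule.cardQuot_apply]
    rfl
  have h4 : Ideal.absNorm J ≠ 0 := by rwa [Ne, Ideal.absNorm_eq_zero_iff]
  rw [h2, h3] at h1
  exact Nat.eq_of_mul_eq_mul_right (Nat.pos_of_ne_zero h4) h1

/-- Representatives of `J / 𝔞 J` inside `m J`.  Proof: `𝔞 ⊔ span {m} = ⊤` (because
`absNorm 𝔞 ∈ 𝔞`), so `J = 𝔞 J ⊔ m J`; `J / 𝔞 J` has `absNorm 𝔞` elements
(`Ideal.absNorm` is multiplicative; `Submodule.cardQuot`, or `Ideal.card_quot_mul...`). -/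
theorem exists_reps (J 𝔞 : Ideal (𝓞 K)) (hJ : J ≠ ⊥) (h𝔞 : 𝔞 ≠ ⊥)
    (hcop : (Ideal.absNorm 𝔞).Coprime m) :
    ∃ δ : Fin (Ideal.absNorm 𝔞) → 𝓞 K, (∀ j, ∃ y ∈ J, δ j = (m : 𝓞 K) * y) ∧
      ∀ x ∈ J, ∃! j, x - δ j ∈ 𝔞 * J := by
  classical
  set A : AddSubgroup (𝓞 K) := Submodule.toAddSubgroup J with hA
  set B : AddSubgroup (𝓞 K) := Submodule.toAddSubgroup (𝔞 * J) with hB
  have hcard : Nat.card (A ⧸ B.addSubgroupOf A) = Ideal.absNorm 𝔞 :=
    Sublattice_relIndex K J 𝔞 hJ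
  have hN0 : Ideal.absNorm 𝔞 ≠ 0 := by rwa [Ne, Ideal.absNorm_eq_zero_iff]
  haveI : Finite (A ⧸ B.addSubgroupOf A) := Nat.finite_of_card_ne_zero (by rw [hcard]; exact hN0)
  let eqv : (A ⧸ B.addSubgroupOf A) ≃ Fin (Ideal.absNorm 𝔞) := Finite.equivFinOfCardEq hcard
  obtain ⟨u, v, huv⟩ := Nat.isCoprime_iff_coprime.mpr hcop
  -- key congruence
  have key : ∀ x ∈ J, x - (m : 𝓞 K) * ((v : 𝓞 K) * x) ∈ 𝔞 * J := by
    intro x hx
    have h1 : ((u * (Ideal.absNorm 𝔞 : ℤ) + v * (m : ℤ) : ℤ) : 𝓞 K) = 1 := by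
      rw [huv, Int.cast_one]
    push_cast at h1
    have h2 : x - (m : 𝓞 K) * ((v : 𝓞 K) * x) = (u : 𝓞 K) * ((Ideal.absNorm 𝔞 : 𝓞 K) * x) := by
      linear_combination (-x) * h1
    rw [h2]
    exact Ideal.mul_mem_left _ _ (Ideal.mul_mem_mul (Ideal.absNorm_mem 𝔞) hx)
  let r : Fin (Ideal.absNorm 𝔞) → A := fun j => Quotient.out (eqv.symm j)
  have hr : ∀ j, (QuotientAddGroup.mk (r j) : A ⧸ B.addSubgroupOf A) = eqv.symm j :=
    fun j => Quotient.out_eq _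
  have hiff : ∀ (x : 𝓞 K) (hx : x ∈ J) (j : Fin (Ideal.absNorm 𝔞)),
      x - (m : 𝓞 K) * ((v : 𝓞 K) * (r j : 𝓞 K)) ∈ 𝔞 * J ↔
        eqv (QuotientAddGroup.mk (⟨x, hx⟩ : A)) = j := by
    intro x hx j
    have h1 : x - (m : 𝓞 K) * ((v : 𝓞 K) * (r j : 𝓞 K)) ∈ 𝔞 * J ↔ -(r j : 𝓞 K) + x ∈ 𝔞 * J := by
      have h2 := key (r j : 𝓞 K) (r j).2
      constructor
      · intro h
        have := (𝔞 * J).sub_mem h h2
        convert this using 1
        ring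
      · intro h
        have := (𝔞 * J).add_mem h h2
        convert this using 1
        ring
    rw [h1, Equiv.apply_eq_iff_eq_symm_apply, ← hr j, eq_comm, QuotientAddGroup.eq]
    rfl
  refine ⟨fun j => (m : 𝓞 K) * ((v : 𝓞 K) * (r j : 𝓞 K)), fun j =>
    ⟨(v : 𝓞 K) * (r j : 𝓞 K), Ideal.mul_mem_left _ _ (r j).2, rfl⟩, fun x hx => ?_⟩
  refine ⟨eqv (QuotientAddGroup.mk (⟨x, hx⟩ : A)), (hiff x hx _).mpr rfl, fun j hj => ?_⟩
  exact ((hiff x hx j).mp hj).symm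

theorem Sublattice_summable_ite {f : 𝓞 K → ℂ} (hf : Summable f) (p : 𝓞 K → Prop)
    [DecidablePred p] : Summable fun x => if p x then f x else 0 := by
  refine (hf.indicator {x | p x}).congr fun x => ?_
  by_cases h : p x <;> simp [Set.indicator, h]

/-- **Sublattice lemma.**  With `δ` as above and `c x = ψ (N x)` (periodic modulo `m`,
`norm_add_mul_cast`):
`∑_{x ∈ J} c x Φ x = ∑_j ∑_{x ∈ 𝔞J} c (x + δ j) Φ (x + δ j) = ∑_j ∑_{x ∈ 𝔞J} c x Φ (x + δ j)`, and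
`‖∑_{x ∈ 𝔞J} c x (Φ (x + δ j) - Φ x)‖ ≤ C_j` by `pairing` (`‖c x‖ ≤ 1`).
All sums converge absolutely for `s > 1` (`summable_Phi`). -/
theorem Sfun_sub_le (ψ : DirichletCharacter ℂ m) (J 𝔞 : Ideal (𝓞 K)) (hJ : J ≠ ⊥) (h𝔞 : 𝔞 ≠ ⊥)
    (hcop : (Ideal.absNorm 𝔞).Coprime m) :
    ∃ C : ℝ, ∀ s ∈ Set.Ioc (1 : ℝ) 2,
      ‖Sfun K ψ J s - (Ideal.absNorm 𝔞 : ℂ) * Sfun K ψ (𝔞 * J) s‖ ≤ C := by
  classical
  obtain ⟨δ, hδ, huniq⟩ := exists_reps K J 𝔞 hJ h𝔞 hcop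
  have hκ : ‖ψ (-1)‖ ≤ 1 := norm_psi_le_one ψ _
  choose C hC using fun j => pairing K hκ (δ j)
  refine ⟨∑ j, C j, fun s hs => ?_⟩
  have hs' : s ∈ Set.Icc (1 : ℝ) 2 := ⟨hs.1.le, hs.2⟩
  set Φ : 𝓞 K → ℂ := Phi K (ψ (-1)) s with hΦ
  set c : 𝓞 K → ℂ := fun x => ψ ((Algebra.norm ℤ x : ℤ) : ZMod m) with hc
  have hc1 : ∀ x, ‖c x‖ ≤ 1 := fun x => norm_psi_le_one ψ _
  have hsumΦ : Summable fun x => ‖Φ x‖ := summable_Phi K hκ hs.1
  have hF : Summable fun x => c x * Φ x :=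
    Summable.of_norm_bounded hsumΦ (fun x => by
      rw [norm_mul]; exact mul_le_of_le_one_left (norm_nonneg _) (hc1 x))
  have hδJ : ∀ j, δ j ∈ J := by
    intro j
    obtain ⟨y, hy, h⟩ := hδ j
    rw [h]
    exact Ideal.mul_mem_left _ _ hy
  have hcδ : ∀ j x, c (x + δ j) = c x := by
    intro j x
    obtain ⟨y, hy, h⟩ := hδ j
    show ψ _ = ψ _
    rw [h, norm_add_mul_cast]
  -- pointwise decomposition
  have hpt : ∀ x, (if x ∈ J then c x * Φ x else 0) =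
      ∑ j, (if x - δ j ∈ 𝔞 * J then c x * Φ x else 0) := by
    intro x
    by_cases hx : x ∈ J
    · obtain ⟨j0, hj0, huj⟩ := huniq x hx
      rw [if_pos hx, Finset.sum_eq_single j0, if_pos hj0]
      · intro j _ hj
        rw [if_neg]
        exact fun h => hj (huj j h)
      · intro h
        exact absurd (Finset.mem_univ _) h
    · rw [if_neg hx]
      symm
      refine Finset.sum_eq_zero fun j _ => ?_
      rw [if_neg]
      intro h
      apply hx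
      have h' : x - δ j ∈ J := (Ideal.mul_le_right (I := 𝔞) (J := J)) h
      have := J.add_mem h' (hδJ j)
      rwa [sub_add_cancel] at this
  have hshift : ∀ j, ∑' x, (if x - δ j ∈ 𝔞 * J then c x * Φ x else 0) =
      ∑' x, (if x ∈ 𝔞 * J then c x * Φ (x + δ j) else 0) := by
    intro j
    rw [← (Equiv.addRight (δ j)).tsum_eq]
    refine tsum_congr fun x => ?_
    simp only [Equiv.coe_addRight, add_sub_cancel_right, hcδ]
  have hS1 : Sfun K ψ J s = ∑ j, ∑' x, (if x ∈ 𝔞 * J then c x * Φ (x + δ j) else 0) := by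
    unfold Sfun
    rw [tsum_congr hpt, Summable.tsum_finsetSum]
    · exact Finset.sum_congr rfl fun j _ => hshift j
    · intro j _
      exact Sublattice_summable_ite K hF _
  have hS2 : (Ideal.absNorm 𝔞 : ℂ) * Sfun K ψ (𝔞 * J) s =
      ∑ _j : Fin (Ideal.absNorm 𝔞), ∑' x, (if x ∈ 𝔞 * J then c x * Φ x else 0) := by
    rw [Finset.sum_const, Finset.card_univ, Fintype.card_fin, nsmul_eq_mul]
    rfl
  have hFδ : ∀ j, Summable fun x => c x * Φ (x + δ j) := by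
    intro j
    have h1 := (Equiv.addRight (δ j)).summable_iff.mpr hF
    refine h1.congr fun x => ?_
    simp only [Function.comp, Equiv.coe_addRight, hcδ]
  rw [hS1, hS2, ← Finset.sum_sub_distrib]
  refine (norm_sum_le _ _).trans (Finset.sum_le_sum fun j _ => ?_)
  rw [← Summable.tsum_sub (Sublattice_summable_ite K (hFδ j) _) (Sublattice_summable_ite K hF _)]
  refine (tsum_of_norm_bounded (hC j s hs').1.hasSum fun x => ?_).trans (hC j s hs').2
  by_cases hx : x ∈ 𝔞 * J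
  · rw [if_pos hx, if_pos hx, ← mul_sub, norm_mul]
    exact mul_le_of_le_one_left (norm_nonneg _) (hc1 x)
  · rw [if_neg hx, if_neg hx, sub_zero, norm_zero]
    exact norm_nonneg _

end Fermat.Agent.Lib.Cheb
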