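import Fermat.Agent.Lib.Cheb.Orbit
import Fermat.Agent.Lib.Cheb.Classes
import Fermat.Agent.Lib.Cheb.Sublattice

/-!
# CHEB leaf II5: `L_K(s, ψ ∘ N)` is bounded as `s → 1⁺` when `ψ ∘ N` is not trivial
-/

set_option autoImplicit false

namespace Fermat.Agent.Lib.Cheb

open NumberField Filter Topology
open scoped nonZeroDivisors

variable (K : Type*) [Field K] [NumberField K] {m : ℕ}

/-- `Pfun (𝔞 J) = Pfun J / N𝔞 + O(1)` (from `Sfun_eq`, `Sfun_sub_le`; `torsionOrder K ≠ 0`). -/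
theorem Pfun_sub_le (ψ : DirichletCharacter ℂ m) (J 𝔞 : Ideal (𝓞 K)) (hJ : J ≠ ⊥) (h𝔞 : 𝔞 ≠ ⊥)
    (hcop : (Ideal.absNorm 𝔞).Coprime m) :
    ∃ C : ℝ, ∀ s ∈ Set.Ioc (1 : ℝ) 2,
      ‖Pfun K ψ J s - (Ideal.absNorm 𝔞 : ℂ) * Pfun K ψ (𝔞 * J) s‖ ≤ C := by
  obtain ⟨C, hC⟩ := Sfun_sub_le K ψ J 𝔞 hJ h𝔞 hcop
  have hw : (0 : ℝ) < (Units.torsionOrder K : ℝ) := by exact_mod_cast Units.torsionOrder_pos K
  refine ⟨C / (Units.torsionOrder K : ℝ), fun s hs => ?_⟩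
  have h1 := hC s hs
  rw [Sfun_eq K ψ J hs.1, Sfun_eq K ψ (𝔞 * J) hs.1] at h1
  have h2 : (Units.torsionOrder K : ℂ) * Pfun K ψ J s
      - (Ideal.absNorm 𝔞 : ℂ) * ((Units.torsionOrder K : ℂ) * Pfun K ψ (𝔞 * J) s)
      = (Units.torsionOrder K : ℂ) *
        (Pfun K ψ J s - (Ideal.absNorm 𝔞 : ℂ) * Pfun K ψ (𝔞 * J) s) := by ring
  rw [h2, norm_mul, Complex.norm_natCast] at h1
  rw [le_div_iff₀ hw, mul_comm]
  exact h1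

omit [NumberField K] in
theorem LBound_norm_psi (ψ : DirichletCharacter ℂ m) {n : ℕ} (h : n.Coprime m) :
    ‖ψ ((n : ℕ) : ZMod m)‖ = 1 := by
  have := DirichletCharacter.unit_norm_eq_one ψ (ZMod.unitOfCoprime n h)
  rwa [ZMod.coe_unitOfCoprime] at this

/-- the algebraic heart: `(1 - ψ(a)⁻¹ a^(s-1)) L = - ψ(a)⁻¹ a^(s-1) R`. -/
theorem LBound_algebra {ι : Type*} (t : Finset ι) (L pa A As As1 : ℂ) (v P P' : ι → ℂ)
    (hAs : As = A * As1) (e1 : L = ∑ C ∈ t, v C * P C)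
    (e2 : L = ∑ C ∈ t, pa * As * (v C * P' C)) :
    (1 - pa * As1) * L = -(pa * As1 * ∑ C ∈ t, v C * (P C - A * P' C)) := by
  have h1 : ∑ C ∈ t, v C * (P C - A * P' C) = L - A * ∑ C ∈ t, v C * P' C := by
    rw [e1, Finset.mul_sum, ← Finset.sum_sub_distrib]
    exact Finset.sum_congr rfl fun C _ => by ring
  have h2 : L = pa * As * ∑ C ∈ t, v C * P' C := by
    rw [e2, Finset.mul_sum]
  rw [h1]
  have h3 : pa * As1 * (A * ∑ C ∈ t, v C * P' C) = L := by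
    conv_rhs => rw [h2, hAs]
    ring
  linear_combination -h3

/-- **Boundedness of `L`.**  Choose representatives `J C` of the classes `C⁻¹` prime to `m`
(`exists_rep_coprime`).  Apply `Lfun_eq_sum` to `J` and to `J' C := 𝔞 * J (C * [𝔞])` (its class is
`[𝔞] (C [𝔞])⁻¹ = C⁻¹`); reindex by `C ↦ C * [𝔞]`:
`L = ψ(N𝔞)⁻¹ N𝔞^s ∑_C ψ(N J_C)⁻¹ (N J_C)^s Pfun (𝔞 J_C)
   = ψ(N𝔞)⁻¹ N𝔞^(s-1) (L + O(1))` by `Pfun_sub_le` (`(N J_C)^s ≤ (N J_C)^2`).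
Hence `(1 - ψ(N𝔞)⁻¹ N𝔞^(s-1)) L = O(1)` and the factor tends to `1 - ψ(N𝔞)⁻¹ ≠ 0`. -/
theorem Lfun_bounded [NeZero m] (ψ : DirichletCharacter ℂ m) (𝔞 : Ideal (𝓞 K)) (h𝔞 : 𝔞 ≠ ⊥)
    (hcop : (Ideal.absNorm 𝔞).Coprime m) (h1 : ψ ((Ideal.absNorm 𝔞 : ℕ) : ZMod m) ≠ 1) :
    ∃ C : ℝ, ∀ᶠ s in 𝓝[>] (1 : ℝ), ‖Lfun K ψ s‖ ≤ C := by
  classical
  have hm : m ≠ 0 := NeZero.ne m
  choose J hJ hJcop using fun C : ClassGroup (𝓞 K) => exists_rep_coprime K hm C⁻¹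
  let 𝔞₀ : (Ideal (𝓞 K))⁰ := ⟨𝔞, mem_nonZeroDivisors_of_ne_zero h𝔞⟩
  let c : ClassGroup (𝓞 K) := ClassGroup.mk0 𝔞₀
  let J' : ClassGroup (𝓞 K) → (Ideal (𝓞 K))⁰ := fun C => 𝔞₀ * J (C * c)
  have hJ' : ∀ C, ClassGroup.mk0 (J' C) = C⁻¹ := by
    intro C
    show ClassGroup.mk0 (𝔞₀ * J (C * c)) = C⁻¹
    rw [map_mul, hJ, mul_inv, mul_comm C⁻¹, mul_inv_cancel_left]
  have hJ'coe : ∀ C, ((J' C : (Ideal (𝓞 K))⁰) : Ideal (𝓞 K)) = 𝔞 * (J (C * c) : Ideal (𝓞 K)) :=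
    fun C => rfl
  have hJ'cop : ∀ C, (Ideal.absNorm (J' C : Ideal (𝓞 K))).Coprime m := by
    intro C
    rw [hJ'coe, map_mul]
    exact Nat.Coprime.mul_left hcop (hJcop _)
  choose B hB using fun C : ClassGroup (𝓞 K) =>
    Pfun_sub_le K ψ (J C : Ideal (𝓞 K)) 𝔞 (nonZeroDivisors.coe_ne_zero _) h𝔞 hcop
  -- notation
  set a : ℕ := Ideal.absNorm 𝔞 with ha
  have ha1 : 1 ≤ a := Nat.one_le_iff_ne_zero.2 (by
    rw [ha, Ne, Ideal.absNorm_eq_zero_iff]; exact h𝔞)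
  have ha1' : (1 : ℝ) ≤ (a : ℝ) := by exact_mod_cast ha1
  have ha0 : (0 : ℝ) < (a : ℝ) := by linarith
  let n : ClassGroup (𝓞 K) → ℕ := fun C => Ideal.absNorm (J C : Ideal (𝓞 K))
  have hn1 : ∀ C, (1 : ℝ) ≤ (n C : ℝ) := by
    intro C
    have : n C ≠ 0 := by
      show Ideal.absNorm (J C : Ideal (𝓞 K)) ≠ 0
      rw [Ne, Ideal.absNorm_eq_zero_iff]
      exact nonZeroDivisors.coe_ne_zero _
    exact_mod_cast Nat.one_le_iff_ne_zero.2 this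
  set pa : ℂ := (ψ ((a : ℕ) : ZMod m))⁻¹ with hpa
  have hpan : ‖pa‖ = 1 := by rw [hpa, norm_inv, LBound_norm_psi ψ hcop, inv_one]
  have hpa1 : pa ≠ 1 := by
    rw [hpa, Ne, inv_eq_one]
    exact h1
  let Btot : ℝ := ∑ C, (n C : ℝ) ^ (2 : ℝ) * B C
  set η : ℝ := ‖1 - pa‖ with hη
  have hηpos : 0 < η := norm_pos_iff.2 (sub_ne_zero.2 (Ne.symm hpa1))
  -- the factor
  have hg : Tendsto (fun s : ℝ => ‖1 - pa * (((a : ℝ) ^ (s - 1) : ℝ) : ℂ)‖) (𝓝[>] (1 : ℝ)) (𝓝 η) := by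
    have hc : Continuous fun s : ℝ => ‖1 - pa * (((a : ℝ) ^ (s - 1) : ℝ) : ℂ)‖ := by
      have h0 : Continuous fun s : ℝ => (a : ℝ) ^ (s - 1) :=
        (Real.continuous_const_rpow ha0.ne').comp (continuous_id.sub continuous_const)
      exact (continuous_const.sub (continuous_const.mul (Complex.continuous_ofReal.comp h0))).norm
    have h2 := (hc.tendsto 1).mono_left (nhdsWithin_le_nhds (s := Set.Ioi (1 : ℝ)))
    simpa [hη] using h2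
  have hev1 : ∀ᶠ s in 𝓝[>] (1 : ℝ), η / 2 < ‖1 - pa * (((a : ℝ) ^ (s - 1) : ℝ) : ℂ)‖ :=
    hg.eventually (lt_mem_nhds (half_lt_self hηpos))
  have hev2 : ∀ᶠ s in 𝓝[>] (1 : ℝ), s ∈ Set.Ioc (1 : ℝ) 2 :=
    Ioc_mem_nhdsGT (by norm_num)
  refine ⟨(a : ℝ) * Btot / (η / 2), ?_⟩
  filter_upwards [hev1, hev2] with s hs1 hs
  -- the two decompositions
  have e1 := Lfun_eq_sum K ψ J hJ hJcop hs.1
  have e2 := Lfun_eq_sum K ψ J' hJ' hJ'cop hs.1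
  let v : ClassGroup (𝓞 K) → ℂ := fun C =>
    (ψ ((n C : ℕ) : ZMod m))⁻¹ * (((n C : ℝ) ^ s : ℝ) : ℂ)
  have e2' : Lfun K ψ s = ∑ C : ClassGroup (𝓞 K),
      pa * (((a : ℝ) ^ s : ℝ) : ℂ) * (v C * Pfun K ψ (𝔞 * (J C : Ideal (𝓞 K))) s) := by
    rw [e2, ← Equiv.sum_comp (Equiv.mulRight c) (fun C : ClassGroup (𝓞 K) =>
      pa * (((a : ℝ) ^ s : ℝ) : ℂ) * (v C * Pfun K ψ (𝔞 * (J C : Ideal (𝓞 K))) s))]
    refine Finset.sum_congr rfl fun C _ => ?_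
    rw [hJ'coe, map_mul, Equiv.coe_mulRight]
    show (ψ ((a * n (C * c) : ℕ) : ZMod m))⁻¹ * ((((a * n (C * c) : ℕ) : ℝ) ^ s : ℝ) : ℂ) * _ =
      pa * (((a : ℝ) ^ s : ℝ) : ℂ) * (v (C * c) * _)
    rw [Nat.cast_mul, map_mul, mul_inv, Nat.cast_mul,
      Real.mul_rpow (Nat.cast_nonneg _) (Nat.cast_nonneg _), Complex.ofReal_mul]
    simp only [v, hpa]
    ring
  have hAs : (((a : ℝ) ^ s : ℝ) : ℂ) = (a : ℂ) * (((a : ℝ) ^ (s - 1) : ℝ) : ℂ) := by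
    rw [Real.rpow_sub_one ha0.ne', ← Complex.ofReal_natCast, ← Complex.ofReal_mul]
    congr 1
    field_simp
  have halg := LBound_algebra Finset.univ (Lfun K ψ s) pa (a : ℂ) _ _ v
    (fun C => Pfun K ψ (J C : Ideal (𝓞 K)) s)
    (fun C => Pfun K ψ (𝔞 * (J C : Ideal (𝓞 K))) s) hAs e1 e2'
  -- bound of the remainder
  have hR : ‖∑ C : ClassGroup (𝓞 K), v C * (Pfun K ψ (J C : Ideal (𝓞 K)) s
      - (a : ℂ) * Pfun K ψ (𝔞 * (J C : Ideal (𝓞 K))) s)‖ ≤ Btot := by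
    refine (norm_sum_le _ _).trans (Finset.sum_le_sum fun C _ => ?_)
    have hb := hB C s hs
    have hB0 : 0 ≤ B C := (norm_nonneg _).trans hb
    have hv : ‖v C‖ ≤ (n C : ℝ) ^ (2 : ℝ) := by
      simp only [v]
      rw [norm_mul, norm_inv, LBound_norm_psi ψ (hJcop C), inv_one, one_mul, Complex.norm_real,
        Real.norm_of_nonneg (Real.rpow_nonneg (Nat.cast_nonneg _) _)]
      exact Real.rpow_le_rpow_of_exponent_le (hn1 C) hs.2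
    rw [norm_mul]
    exact mul_le_mul hv hb (norm_nonneg _) (Real.rpow_nonneg (Nat.cast_nonneg _) _)
  have hBtot0 : 0 ≤ Btot := (norm_nonneg _).trans hR
  have hAs1 : ‖(((a : ℝ) ^ (s - 1) : ℝ) : ℂ)‖ ≤ (a : ℝ) := by
    rw [Complex.norm_real, Real.norm_of_nonneg (Real.rpow_nonneg ha0.le _)]
    calc (a : ℝ) ^ (s - 1) ≤ (a : ℝ) ^ (1 : ℝ) :=
          Real.rpow_le_rpow_of_exponent_le ha1' (by linarith [hs.2])
      _ = a := Real.rpow_one _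
  have hnorm := congrArg norm halg
  rw [norm_mul, norm_neg, norm_mul, norm_mul, hpan, one_mul] at hnorm
  have hle : ‖1 - pa * (((a : ℝ) ^ (s - 1) : ℝ) : ℂ)‖ * ‖Lfun K ψ s‖ ≤ (a : ℝ) * Btot := by
    rw [hnorm]
    exact mul_le_mul hAs1 hR (norm_nonneg _) ha0.le
  rw [le_div_iff₀ (half_pos hηpos), mul_comm]
  exact (mul_le_mul_of_nonneg_right hs1.le (norm_nonneg _)).trans hle

end Fermat.Agent.Lib.Cheb
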