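import Fermat.Agent.Lib.Cheb.Defs

/-!
# CHEB leaf V1: the fibre formula of `Lib/FrobDensity/Fiber.lean` with a general weight
-/

set_option autoImplicit false

namespace Fermat.Agent.Lib.Cheb

open NumberField IsDedekindDomain Fermat.Agent.Lib.FrobDensity
open scoped ENNReal NNReal

variable (L : Type*) [Field L] [NumberField L] (G : Type*) [Group G] [Finite G]
  [MulSemiringAction G L] [IsGaloisGroup G ℚ L]

/-- Copy of the proof of `Fermat.Agent.Lib.FrobDensity.card_mul_mass1` with `nw s` replaced by an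
arbitrary `b : ℕ → ℝ≥0∞`. -/
theorem card_mul_massb (U : Subgroup G) (M : Type*) [Field M] [NumberField M] [Algebra M L]
    [IsGaloisGroup U M L] (N : ℕ)
    (hN : ∀ w : HeightOneSpectrum (𝓞 L), ¬ ell L w ∣ N → w.asIdeal.inertia G = ⊥)
    (b : ℕ → ℝ≥0∞) :
    (Nat.card U : ℝ≥0∞) * massb M N b =
      ∑' w : HeightOneSpectrum (𝓞 L), Set.indicator {w | ¬ ell L w ∣ N ∧ frob L G w ∈ U}
        (fun w => (w.asIdeal.inertiaDeg ℤ : ℝ≥0∞) * b (ell L w)) w := by
  classical
  rw [massb, ← ENNReal.tsum_mul_left,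
    ← (Equiv.sigmaFiberEquiv (HeightOneSpectrum.under (𝓞 M) (B := 𝓞 L))).tsum_eq,
    ENNReal.tsum_sigma']
  refine tsum_congr fun v => ?_
  by_cases hv : (nrm M v).Prime ∧ ¬ nrm M v ∣ N
  · have hv1 : nrm M v = ell M v := (nrm_prime_iff M v).1 hv.1
    have hell : ∀ w : HeightOneSpectrum (𝓞 L), HeightOneSpectrum.under (𝓞 M) w = v →
        ell L w = nrm M v := by
      intro w hw
      rw [hv1, ← hw, ell_under]
    have hin : ∀ w : HeightOneSpectrum (𝓞 L), HeightOneSpectrum.under (𝓞 M) w = v →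
        w.asIdeal.inertia G = ⊥ := by
      intro w hw
      apply hN
      rw [hell w hw]
      exact hv.2
    rw [Set.indicator_of_mem (show v ∈ {v | (nrm M v).Prime ∧ ¬ nrm M v ∣ N} from hv),
      ← Fiber.tsum_inertiaDeg L G U M v hv1 hin, ← ENNReal.tsum_mul_right]
    refine tsum_congr fun w => ?_
    have hmem : w.1 ∈ {w : HeightOneSpectrum (𝓞 L) | ¬ ell L w ∣ N ∧ frob L G w ∈ U} := by
      refine ⟨?_, ?_⟩
      · rw [hell w.1 w.2]; exact hv.2
      · apply Fiber.frob_mem_of_nrm_eq L G U M w.1 (hin w.1 w.2)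
        rw [w.2, hell w.1 w.2]
    show _ = Set.indicator _ _ w.1
    rw [Set.indicator_of_mem hmem, hell w.1 w.2]
  · rw [Set.indicator_of_notMem (show v ∉ {v | (nrm M v).Prime ∧ ¬ nrm M v ∣ N} from hv), mul_zero]
    symm
    rw [ENNReal.tsum_eq_zero]
    intro w
    show Set.indicator _ _ w.1 = 0
    apply Set.indicator_of_notMem
    rintro ⟨h1, h2⟩
    apply hv
    have h3 := Fiber.nrm_eq_of_frob_mem L G U M w.1 h2
    rw [w.2] at h3
    rw [h3]
    exact ⟨ell_prime L w.1, h1⟩

theorem massb_nw (M : Type*) [Field M] [NumberField M] (N : ℕ) (s : ℝ) :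
    massb M N (nw s) = mass1 M N s := rfl

/-- `massS` is additive on finite sets. -/
theorem massS_eq_sum (N : ℕ) (S : Finset G) (s : ℝ) :
    massS L G N (S : Set G) s = ∑ g ∈ S, massS L G N {g} s := by
  classical
  unfold massS
  rw [← Summable.tsum_finsetSum (fun _ _ => ENNReal.summable)]
  refine tsum_congr fun w => ?_
  by_cases hw : ¬ ell L w ∣ N ∧ frob L G w ∈ (S : Set G)
  · rw [Set.indicator_of_mem (show w ∈ {w | ¬ ell L w ∣ N ∧ frob L G w ∈ (S : Set G)} from hw)]
    rw [Finset.sum_eq_single (frob L G w)]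
    · rw [Set.indicator_of_mem]
      exact ⟨hw.1, rfl⟩
    · intro g _ hg
      apply Set.indicator_of_notMem
      rintro ⟨_, h2⟩
      exact hg (Set.mem_singleton_iff.1 h2).symm
    · intro h
      exact absurd (Finset.mem_coe.1 hw.2) h
  · rw [Set.indicator_of_notMem (show w ∉ {w | ¬ ell L w ∣ N ∧ frob L G w ∈ (S : Set G)} from hw)]
    symm
    refine Finset.sum_eq_zero fun g hg => ?_
    apply Set.indicator_of_notMem
    rintro ⟨h1, h2⟩
    apply hw
    refine ⟨h1, ?_⟩
    rw [Set.mem_singleton_iff.1 h2]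
    exact Finset.mem_coe.2 hg

theorem massS_mono (N : ℕ) {S S' : Set G} (h : S ⊆ S') (s : ℝ) :
    massS L G N S s ≤ massS L G N S' s := by
  unfold massS
  refine ENNReal.tsum_le_tsum fun w => ?_
  apply Set.indicator_le_indicator_of_subset
  · rintro w ⟨h1, h2⟩
    exact ⟨h1, h h2⟩
  · intro w
    exact zero_le

/-- The primes with trivial Frobenius: `massS {1} = mass1 (top field) ~ lam`.  Apply
`card_mul_mass1` with `U = ⊥`, `M = FixedPoints.intermediateField (⊥ : Subgroup G)` as in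
`Lib/FrobDensity/Finite.lean`, and `close_mass1`. -/
theorem close_massS_one (N : ℕ) (hN0 : N ≠ 0)
    (hN : ∀ w : HeightOneSpectrum (𝓞 L), ¬ ell L w ∣ N → w.asIdeal.inertia G = ⊥) :
    Close (massS L G N {1}) lam := by
  let U : Subgroup G := ⊥
  let M : IntermediateField ℚ L := FixedPoints.intermediateField U
  have h1 := close_mass1 M N hN0
  refine h1.congr_left fun s => ?_
  have h2 := card_mul_mass1 L G U M N hN s
  have hU : Nat.card U = 1 := Subgroup.card_bot
  rw [hU, Nat.cast_one, one_mul] at h2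
  rw [h2]
  rfl

end Fermat.Agent.Lib.Cheb
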