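import Fermat.Agent.Lib.Cheb.Abstract
import Fermat.Agent.Lib.Cheb.LBound
import Fermat.Agent.Lib.Cheb.EulerChi
import Fermat.Agent.Lib.Cheb.MassB

/-!
# CHEB leaf IV2: symmetric Dirichlet theorem for the norms of the degree one primes of a number field
-/

set_option autoImplicit false

namespace Fermat.Agent.Lib.Cheb

open NumberField IsDedekindDomain Filter Topology Fermat.Agent.Lib.FrobDensity
open scoped ENNReal NNReal

variable (F : Type*) [Field F] [NumberField F] {m : ℕ}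

/-- The weight `k ↦ k^{-s}` restricted to the class `a` modulo `m`. -/
noncomputable def bcl (a : ZMod m) (s : ℝ) (k : ℕ) : ℝ≥0∞ := if (k : ZMod m) = a then nw s k else 0

/-- The real weights used in `abstract_symm`. -/
noncomputable def Wre (N : ℕ) (s : ℝ) (v : HeightOneSpectrum (𝓞 F)) : ℝ :=
  Set.indicator {v | (nrm F v).Prime ∧ ¬ nrm F v ∣ N} (fun v => (nrm F v : ℝ) ^ (-s)) v

theorem Wre_nonneg (N : ℕ) (s : ℝ) (v : HeightOneSpectrum (𝓞 F)) : 0 ≤ Wre F N s v :=
  Set.indicator_nonneg (fun _ _ => Real.rpow_nonneg (Nat.cast_nonneg _) _) v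

/-- From `summable_absNorm_rpow` (injectivity of `v ↦ v.asIdeal`). -/
theorem summable_Wre (N : ℕ) {s : ℝ} (hs : 1 < s) : Summable (Wre F N s) :=
  (eulerChi_summable_nrm F hs).indicator _

theorem Dirichlet.ite_nonneg (N : ℕ) (s : ℝ) (p : HeightOneSpectrum (𝓞 F) → Prop)
    [DecidablePred p] (v : HeightOneSpectrum (𝓞 F)) : 0 ≤ if p v then Wre F N s v else 0 := by
  split_ifs
  · exact Wre_nonneg F N s v
  · exact le_rfl

theorem Dirichlet.summable_ite (N : ℕ) {s : ℝ} (hs : 1 < s) (p : HeightOneSpectrum (𝓞 F) → Prop)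
    [DecidablePred p] : Summable fun v => if p v then Wre F N s v else 0 := by
  refine Summable.of_nonneg_of_le (Dirichlet.ite_nonneg F N s p) (fun v => ?_) (summable_Wre F N hs)
  split_ifs
  · exact le_rfl
  · exact Wre_nonneg F N s v

/-- Dictionary `ℝ≥0∞`-sums / real sums (`ENNReal.ofReal_tsum_of_nonneg`). -/
theorem massb_bcl_eq (N : ℕ) (a : ZMod m) {s : ℝ} (hs : 1 < s) :
    massb F N (bcl a s) = ENNReal.ofReal
      (∑' v : HeightOneSpectrum (𝓞 F), if ((nrm F v : ℕ) : ZMod m) = a then Wre F N s v else 0) := by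
  rw [ENNReal.ofReal_tsum_of_nonneg (Dirichlet.ite_nonneg F N s _) (Dirichlet.summable_ite F N hs _)]
  unfold massb
  refine tsum_congr fun v => ?_
  by_cases hv : (nrm F v).Prime ∧ ¬ nrm F v ∣ N
  · rw [Set.indicator_of_mem (by simpa using hv)]
    unfold bcl Wre
    rw [Set.indicator_of_mem (by simpa using hv)]
    split_ifs
    · exact (eulerChi_ofReal_rpow s _).symm
    · simp
  · rw [Set.indicator_of_notMem (by simpa using hv)]
    unfold Wre
    rw [Set.indicator_of_notMem (by simpa using hv)]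
    simp

theorem mass1_eq (N : ℕ) {s : ℝ} (hs : 1 < s) :
    mass1 F N s = ENNReal.ofReal (∑' v : HeightOneSpectrum (𝓞 F), Wre F N s v) := by
  rw [ENNReal.ofReal_tsum_of_nonneg (Wre_nonneg F N s) (summable_Wre F N hs)]
  unfold mass1
  refine tsum_congr fun v => ?_
  unfold Wre
  by_cases hv : (nrm F v).Prime ∧ ¬ nrm F v ∣ N
  · rw [Set.indicator_of_mem (by simpa using hv), Set.indicator_of_mem (by simpa using hv)]
    exact (eulerChi_ofReal_rpow s _).symm
  · rw [Set.indicator_of_notMem (by simpa using hv), Set.indicator_of_notMem (by simpa using hv)]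
    simp

theorem primeSum_eq (ψ : DirichletCharacter ℂ m) (N : ℕ) (s : ℝ) :
    primeSum F ψ N s =
      ∑' v : HeightOneSpectrum (𝓞 F), ψ ((nrm F v : ℕ) : ZMod m) * (Wre F N s v : ℂ) := by
  unfold primeSum
  refine tsum_congr fun v => ?_
  unfold Wre
  by_cases hv : (nrm F v).Prime ∧ ¬ nrm F v ∣ N
  · rw [Set.indicator_of_mem (by simpa using hv), Set.indicator_of_mem (by simpa using hv)]
  · rw [Set.indicator_of_notMem (by simpa using hv), Set.indicator_of_notMem (by simpa using hv)]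
    simp

theorem Dirichlet.ofReal_close_iff {f g : ℝ} (hf : 0 ≤ f) (hg : 0 ≤ g) (C : ℝ≥0) :
    (ENNReal.ofReal f ≤ ENNReal.ofReal g + C ∧ ENNReal.ofReal g ≤ ENNReal.ofReal f + C) ↔
      |f - g| ≤ C := by
  have h1 : ∀ {f g : ℝ}, 0 ≤ g → (ENNReal.ofReal f ≤ ENNReal.ofReal g + C ↔ f ≤ g + C) := by
    intro f g hg
    rw [← ENNReal.ofReal_coe_nnreal, ← ENNReal.ofReal_add hg C.coe_nonneg,
      ENNReal.ofReal_le_ofReal_iff (add_nonneg hg C.coe_nonneg)]
  rw [h1 hg, h1 hf, abs_le]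
  constructor
  · rintro ⟨h1, h2⟩
    constructor <;> linarith
  · rintro ⟨h1, h2⟩
    constructor <;> linarith

/-- `Close` for `ofReal`s versus a bounded difference of real functions
(`lam s = ofReal (log (1/(s-1)))`, which is `≥ 0` for `s` close to `1`). -/
theorem close_ofReal_iff (f : ℝ → ℝ) (hf : ∀ s, 0 ≤ f s) (k : ℕ) :
    Close (fun s => ENNReal.ofReal (f s)) (fun s => (k : ℝ≥0∞) * lam s) ↔
      ∃ C : ℝ, ∀ᶠ s in 𝓝[>] (1 : ℝ), |f s - k * Real.log (1 / (s - 1))| ≤ C := by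
  have hev : ∀ᶠ s in 𝓝[>] (1 : ℝ), 0 ≤ Real.log (1 / (s - 1)) := by
    filter_upwards [Ioc_mem_nhdsGT (show (1 : ℝ) < 2 by norm_num)] with s hs
    apply Real.log_nonneg
    rw [le_div_iff₀ (by linarith [hs.1])]
    linarith [hs.2]
  have hk : ∀ s, (k : ℝ≥0∞) * lam s = ENNReal.ofReal (k * Real.log (1 / (s - 1))) := by
    intro s
    rw [lam, ENNReal.ofReal_mul (Nat.cast_nonneg k), ENNReal.ofReal_natCast]
  constructor
  · rintro ⟨C, hC⟩
    refine ⟨C, ?_⟩
    filter_upwards [hC, hev] with s h1 h2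
    rw [hk s] at h1
    exact (Dirichlet.ofReal_close_iff (hf s) (by positivity) C).1 h1
  · rintro ⟨C, hC⟩
    refine ⟨C.toNNReal, ?_⟩
    filter_upwards [hC, hev] with s h1 h2
    rw [hk s]
    exact (Dirichlet.ofReal_close_iff (hf s) (by positivity) _).2
      (h1.trans (Real.le_coe_toNNReal C))

/-- **Symmetric Dirichlet theorem for `F`.**  `a` of order `n` in `(ℤ/m)ˣ`; all norms of degree one
primes lie in `⟨a⟩` (`h1`), one of them generates `⟨a⟩` (`h2`), the primes of norm `≡ 1` have mass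
`lam / n` (`h3`).  Then the primes of norm `≡ a` or `≡ a⁻¹` have mass `2 lam / n`.
Proof: `abstract_symm` with `ι` = primes of `F`, but restricted to the good primes: take
`c v = nrm v` if `v` is good (prime norm not dividing `N`) and `c v = 1` otherwise (the weight of a
bad prime is `0`), `W = Wre`, `T = {ψ | ψ a = 1}`, `|T| n = φ(m)` (`card_filter_mul_orderOf`),
`lamR s = log (1/(s-1))`.  `ha` : `close_mass1`.  `hb` : if `ψ a ≠ 1` then `ψ (nrm v₀) = ψ(a)^j ≠ 1`
for the prime `v₀` of `h2` (`j` prime to `n`, `ψ(a)^n = 1`); `Lfun_bounded` with `𝔞 = v₀`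
(`nrm v₀` is a prime not dividing `N`, hence prime to `m ∣ N`), then `re_primeSum_le`.
`hc1` : `h3` multiplied by `|T|`. -/
theorem dirichlet_symm [NeZero m] (N : ℕ) (hN : N ≠ 0) (hmN : m ∣ N) (a : (ZMod m)ˣ)
    (h1 : ∀ v : HeightOneSpectrum (𝓞 F), (nrm F v).Prime → ¬ nrm F v ∣ N →
      ∃ j : ℕ, ((nrm F v : ℕ) : ZMod m) = ((a ^ j : (ZMod m)ˣ) : ZMod m))
    (h2 : ∃ v : HeightOneSpectrum (𝓞 F), (nrm F v).Prime ∧ ¬ nrm F v ∣ N ∧
      ∃ j : ℕ, j.Coprime (orderOf a) ∧ ((nrm F v : ℕ) : ZMod m) = ((a ^ j : (ZMod m)ˣ) : ZMod m))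
    (h3 : Close (fun s => (orderOf a : ℝ≥0∞) * massb F N (bcl (1 : ZMod m) s)) lam) :
    Close (fun s => (orderOf a : ℝ≥0∞) *
        (massb F N (bcl (a : ZMod m) s) + massb F N (bcl ((a⁻¹ : (ZMod m)ˣ) : ZMod m) s)))
      (fun s => 2 * lam s) := by
  classical
  set n := orderOf a with hn
  set T : Finset (DirichletCharacter ℂ m) := Finset.univ.filter (fun ψ => ψ a = 1) with hT
  have hTn : T.card * n = m.totient := card_filter_mul_orderOf a
  have hmtot : 0 < m.totient := Nat.totient_pos.2 (NeZero.pos m)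
  have hTpos : 0 < T.card := Nat.pos_of_ne_zero (by
    intro h
    rw [h, zero_mul] at hTn
    omega)
  let good : HeightOneSpectrum (𝓞 F) → Prop := fun v => (nrm F v).Prime ∧ ¬ nrm F v ∣ N
  let c : HeightOneSpectrum (𝓞 F) → ZMod m :=
    fun v => if good v then ((nrm F v : ℕ) : ZMod m) else 1
  have hWbad : ∀ s v, ¬ good v → Wre F N s v = 0 := fun s v hv =>
    Set.indicator_of_notMem (s := {v | (nrm F v).Prime ∧ ¬ nrm F v ∣ N}) hv _
  have hcite : ∀ (b : ZMod m) s v, (if c v = b then Wre F N s v else 0) =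
      if ((nrm F v : ℕ) : ZMod m) = b then Wre F N s v else 0 := by
    intro b s v
    by_cases hv : good v
    · simp only [c, if_pos hv]
    · rw [hWbad s v hv]
      simp
  let D : ZMod m → ℝ → ℝ :=
    fun b s => ∑' v, if ((nrm F v : ℕ) : ZMod m) = b then Wre F N s v else 0
  have hD0 : ∀ b s, 0 ≤ D b s := fun b s => tsum_nonneg (Dirichlet.ite_nonneg F N s _)
  have hgt : ∀ᶠ s in 𝓝[>] (1 : ℝ), 1 < s := self_mem_nhdsWithin
  have hT' : ∀ ψ ∈ T, ∀ v, ψ (c v) = 1 := by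
    intro ψ hψ v
    have hψa : ψ a = 1 := (Finset.mem_filter.1 hψ).2
    by_cases hv : good v
    · obtain ⟨j, hj⟩ := h1 v hv.1 hv.2
      simp only [c, if_pos hv]
      rw [hj, Units.val_pow_eq_pow_val, map_pow, hψa, one_pow]
    · simp only [c, if_neg hv, map_one]
  have ha : ∃ C : ℝ, ∀ᶠ s in 𝓝[>] (1 : ℝ),
      |∑' v, Wre F N s v - Real.log (1 / (s - 1))| ≤ C := by
    have h := close_mass1 F N hN
    have h' : Close (fun s => ENNReal.ofReal (∑' v, Wre F N s v))
        (fun s => ((1 : ℕ) : ℝ≥0∞) * lam s) := by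
      refine (Close.of_eventuallyEq ?_).trans (h.trans (Close.of_eventuallyEq ?_))
      · filter_upwards [hgt] with s hs
        exact (mass1_eq F N hs).symm
      · exact Eventually.of_forall fun s => by simp
    obtain ⟨C, hC⟩ := (close_ofReal_iff _ (fun s => tsum_nonneg (Wre_nonneg F N s)) 1).1 h'
    exact ⟨C, hC.mono fun s hs => by simpa using hs⟩
  have hb : ∀ ψ : DirichletCharacter ℂ m, ψ ∉ T →
      ∃ C : ℝ, ∀ᶠ s in 𝓝[>] (1 : ℝ), (∑' v, ψ (c v) * (Wre F N s v : ℂ)).re ≤ C := by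
    intro ψ hψ
    have hψa : ψ a ≠ 1 := fun h => hψ (Finset.mem_filter.2 ⟨Finset.mem_univ _, h⟩)
    obtain ⟨v₀, hp, hnd, j, hj, hv₀⟩ := h2
    have hne : ψ ((Ideal.absNorm v₀.asIdeal : ℕ) : ZMod m) ≠ 1 := by
      show ψ ((nrm F v₀ : ℕ) : ZMod m) ≠ 1
      rw [hv₀, Units.val_pow_eq_pow_val, map_pow]
      intro h
      have hn1 : ψ a ^ n = 1 := by
        rw [← map_pow, ← Units.val_pow_eq_pow_val, hn, pow_orderOf_eq_one, Units.val_one, map_one]
      have h4 := pow_gcd_eq_one.2 ⟨h, hn1⟩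
      rw [Nat.Coprime.gcd_eq_one hj, pow_one] at h4
      exact hψa h4
    have hcop : (Ideal.absNorm v₀.asIdeal).Coprime m :=
      (Nat.Prime.coprime_iff_not_dvd hp).2 fun h => hnd (h.trans hmN)
    obtain ⟨B, hB⟩ := Lfun_bounded F ψ v₀.asIdeal v₀.ne_bot hcop hne
    obtain ⟨C, hC⟩ := re_primeSum_le F ψ N hN hB
    refine ⟨C, hC.mono fun s hs => ?_⟩
    rw [primeSum_eq] at hs
    have heq : (∑' v, ψ (c v) * (Wre F N s v : ℂ)) =
        ∑' v, ψ ((nrm F v : ℕ) : ZMod m) * (Wre F N s v : ℂ) := by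
      refine tsum_congr fun v => ?_
      by_cases hv : good v
      · simp only [c, if_pos hv]
      · rw [hWbad s v hv]
        simp
    rw [heq]
    exact hs
  have hc1 : ∃ C : ℝ, ∀ᶠ s in 𝓝[>] (1 : ℝ),
      |(m.totient : ℝ) * (∑' v, if c v = 1 then Wre F N s v else 0) -
        T.card * Real.log (1 / (s - 1))| ≤ C := by
    have h' : Close (fun s => ENNReal.ofReal (n * D 1 s)) (fun s => ((1 : ℕ) : ℝ≥0∞) * lam s) := by
      refine (Close.of_eventuallyEq ?_).trans (h3.trans (Close.of_eventuallyEq ?_))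
      · filter_upwards [hgt] with s hs
        rw [massb_bcl_eq F N 1 hs, ENNReal.ofReal_mul (Nat.cast_nonneg _), ENNReal.ofReal_natCast]
      · exact Eventually.of_forall fun s => by simp
    obtain ⟨C, hC⟩ :=
      (close_ofReal_iff _ (fun s => mul_nonneg (Nat.cast_nonneg _) (hD0 1 s)) 1).1 h'
    refine ⟨T.card * C, hC.mono fun s hs => ?_⟩
    have e1 : (∑' v, if c v = 1 then Wre F N s v else 0) = D 1 s := tsum_congr (hcite 1 s)
    rw [e1, ← hTn]
    have e2 : ((T.card * n : ℕ) : ℝ) * D 1 s - T.card * Real.log (1 / (s - 1)) =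
        T.card * (n * D 1 s - (1 : ℕ) * Real.log (1 / (s - 1))) := by
      push_cast
      ring
    rw [e2, abs_mul, Nat.abs_cast]
    gcongr
  obtain ⟨C, hC⟩ := abstract_symm c (fun s => Wre F N s) (fun s v => Wre_nonneg F N s v)
    (fun s hs => summable_Wre F N hs) T hT' (fun s => Real.log (1 / (s - 1))) ha hb hc1 a
    (fun ψ hψ => (Finset.mem_filter.1 hψ).2)
  have hfin : Close (fun s => ENNReal.ofReal
      (n * (D (a : ZMod m) s + D ((a⁻¹ : (ZMod m)ˣ) : ZMod m) s)))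
      (fun s => ((2 : ℕ) : ℝ≥0∞) * lam s) := by
    rw [close_ofReal_iff _
      (fun s => mul_nonneg (Nat.cast_nonneg _) (add_nonneg (hD0 _ s) (hD0 _ s))) 2]
    refine ⟨C / T.card, hC.mono fun s hs => ?_⟩
    have hTpos' : (0 : ℝ) < T.card := by exact_mod_cast hTpos
    rw [tsum_congr (hcite _ s), tsum_congr (hcite _ s), ← hTn] at hs
    rw [le_div_iff₀ hTpos']
    have e2 : ((T.card * n : ℕ) : ℝ) * (D (a : ZMod m) s + D ((a⁻¹ : (ZMod m)ˣ) : ZMod m) s) -
        2 * T.card * Real.log (1 / (s - 1)) =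
        (n * (D (a : ZMod m) s + D ((a⁻¹ : (ZMod m)ˣ) : ZMod m) s) -
          (2 : ℕ) * Real.log (1 / (s - 1))) * T.card := by
      push_cast
      ring
    have hs' : |((T.card * n : ℕ) : ℝ) * (D (a : ZMod m) s + D ((a⁻¹ : (ZMod m)ˣ) : ZMod m) s) -
        2 * T.card * Real.log (1 / (s - 1))| ≤ C := hs
    rw [e2, abs_mul, Nat.abs_cast] at hs'
    exact hs'
  refine (Close.of_eventuallyEq ?_).trans (hfin.trans (Close.of_eventuallyEq ?_))
  · filter_upwards [hgt] with s hs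
    rw [massb_bcl_eq F N _ hs, massb_bcl_eq F N _ hs, ← ENNReal.ofReal_add (hD0 _ s) (hD0 _ s),
      ENNReal.ofReal_mul (Nat.cast_nonneg _), ENNReal.ofReal_natCast]
  · exact Eventually.of_forall fun s => by simp

end Fermat.Agent.Lib.Cheb
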