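import Fermat.Agent.Lib.Cheb.Weight

/-!
# CHEB leaf I4a: Lipschitz estimates for `log |x|_w`, `coords`, `wt` and `(N x)^(-s)`
-/

set_option autoImplicit false

namespace Fermat.Agent.Lib.Cheb

open NumberField NumberField.mixedEmbedding NumberField.Units NumberField.InfinitePlace Module

open scoped Classical

variable (K : Type*) [Field K] [NumberField K]

theorem normAtPlace_le_norm (w : InfinitePlace K) (x : mixedSpace K) : normAtPlace w x ≤ ‖x‖ := by
  rw [norm_eq_sup'_normAtPlace]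
  exact Finset.le_sup' (fun w => normAtPlace w x) (Finset.mem_univ w)

theorem abs_normAtPlace_sub_le (w : InfinitePlace K) (x y : mixedSpace K) :
    |normAtPlace w x - normAtPlace w y| ≤ ‖x - y‖ := by
  have h1 : normAtPlace w x ≤ normAtPlace w (x - y) + normAtPlace w y := by
    have := normAtPlace_add_le w (x - y) y
    rwa [sub_add_cancel] at this
  have h2 : normAtPlace w y ≤ normAtPlace w (x - y) + normAtPlace w x := by
    have := normAtPlace_add_le w (-(x - y)) x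
    rwa [normAtPlace_neg, neg_sub, sub_add_cancel] at this
  have h3 := normAtPlace_le_norm K w (x - y)
  rw [abs_le]
  constructor <;> linarith

/-- `|log a - log b| ≤ |a - b| / ρ` for `a, b ≥ ρ > 0`. -/
theorem Lip.abs_log_sub_le {a b ρ : ℝ} (hρ : 0 < ρ) (ha : ρ ≤ a) (hb : ρ ≤ b) :
    |Real.log a - Real.log b| ≤ |a - b| / ρ := by
  have key : ∀ {a b : ℝ}, ρ ≤ a → ρ ≤ b → Real.log a - Real.log b ≤ |a - b| / ρ := by
    intro a b ha hb
    have ha0 : 0 < a := lt_of_lt_of_le hρ ha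
    have hb0 : 0 < b := lt_of_lt_of_le hρ hb
    rw [← Real.log_div ha0.ne' hb0.ne']
    have h1 : Real.log (a / b) ≤ a / b - 1 := Real.log_le_sub_one_of_pos (div_pos ha0 hb0)
    have h2 : a / b - 1 = (a - b) / b := by field_simp
    have h3 : (a - b) / b ≤ |a - b| / b := by gcongr; exact le_abs_self _
    have h4 : |a - b| / b ≤ |a - b| / ρ := by gcongr
    linarith
  rw [abs_le]
  constructor
  · have := key hb ha
    rw [abs_sub_comm] at this
    linarith
  · exact key ha hb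

/-- `|log a - log b| ≤ |a - b| / ρ` for `a, b ≥ ρ > 0`. -/
theorem abs_log_normAtPlace_sub_le {x y : mixedSpace K} {ρ : ℝ} (hρ : 0 < ρ)
    (w : InfinitePlace K) (hx : ρ ≤ normAtPlace w x) (hy : ρ ≤ normAtPlace w y) :
    |Real.log (normAtPlace w x) - Real.log (normAtPlace w y)| ≤ ‖x - y‖ / ρ := by
  refine (Lip.abs_log_sub_le hρ hx hy).trans ?_
  gcongr
  exact abs_normAtPlace_sub_le K w x y

theorem Lip.log_norm_eq {x : mixedSpace K} (hx : ∀ w, 0 < normAtPlace w x) :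
    Real.log (mixedEmbedding.norm x) = ∑ w, (mult w : ℝ) * Real.log (normAtPlace w x) := by
  rw [mixedEmbedding.norm_apply, Real.log_prod (fun w _ => pow_ne_zero _ (hx w).ne')]
  exact Finset.sum_congr rfl (fun w _ => Real.log_pow _ _)

/-- `log (N x) = ∑ mult w * log |x|_w`, so it is Lipschitz with constant `d / ρ`. -/
theorem abs_log_norm_sub_le {x y : mixedSpace K} {ρ : ℝ} (hρ : 0 < ρ)
    (hx : ∀ w, ρ ≤ normAtPlace w x) (hy : ∀ w, ρ ≤ normAtPlace w y) :
    |Real.log (mixedEmbedding.norm x) - Real.log (mixedEmbedding.norm y)| ≤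
      finrank ℚ K * (‖x - y‖ / ρ) := by
  rw [Lip.log_norm_eq K (fun w => lt_of_lt_of_le hρ (hx w)),
    Lip.log_norm_eq K (fun w => lt_of_lt_of_le hρ (hy w)), ← Finset.sum_sub_distrib]
  refine (Finset.abs_sum_le_sum_abs _ _).trans ?_
  have h1 : (finrank ℚ K : ℝ) * (‖x - y‖ / ρ) = ∑ w : InfinitePlace K, (mult w : ℝ) * (‖x - y‖ / ρ) := by
    rw [← Finset.sum_mul, ← Nat.cast_sum, sum_mult_eq]
  rw [h1]
  refine Finset.sum_le_sum (fun w _ => ?_)
  rw [← mul_sub, abs_mul, Nat.abs_cast]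
  gcongr
  exact abs_log_normAtPlace_sub_le K hρ w (hx w) (hy w)

theorem Lip.norm_logMap_sub_le {x y : mixedSpace K} {ρ : ℝ} (hρ : 0 < ρ)
    (hx : ∀ w, ρ ≤ normAtPlace w x) (hy : ∀ w, ρ ≤ normAtPlace w y) :
    ‖logMap x - logMap y‖ ≤ 4 * (‖x - y‖ / ρ) := by
  have hnn : 0 ≤ ‖x - y‖ / ρ := div_nonneg (norm_nonneg _) hρ.le
  rw [pi_norm_le_iff_of_nonneg (by positivity)]
  intro w
  rw [Pi.sub_apply, logMap_apply, logMap_apply, ← mul_sub, norm_mul, Real.norm_eq_abs,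
    Real.norm_eq_abs, Nat.abs_cast]
  have hd : (0 : ℝ) < finrank ℚ K := by exact_mod_cast finrank_pos
  have h1 := abs_log_normAtPlace_sub_le K hρ w.val (hx _) (hy _)
  have h2 := abs_log_norm_sub_le K hρ hx hy
  have h3 : |(Real.log (mixedEmbedding.norm x) - Real.log (mixedEmbedding.norm y)) *
      (finrank ℚ K : ℝ)⁻¹| ≤ ‖x - y‖ / ρ := by
    rw [abs_mul, abs_inv, abs_of_pos hd, ← div_eq_mul_inv, div_le_iff₀ hd]
    linarith
  have h4 : |Real.log (normAtPlace w.val x) - Real.log (mixedEmbedding.norm x) * (finrank ℚ K : ℝ)⁻¹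
      - (Real.log (normAtPlace w.val y) - Real.log (mixedEmbedding.norm y) * (finrank ℚ K : ℝ)⁻¹)|
      ≤ 2 * (‖x - y‖ / ρ) := by
    have : Real.log (normAtPlace w.val x) - Real.log (mixedEmbedding.norm x) * (finrank ℚ K : ℝ)⁻¹
      - (Real.log (normAtPlace w.val y) - Real.log (mixedEmbedding.norm y) * (finrank ℚ K : ℝ)⁻¹)
      = (Real.log (normAtPlace w.val x) - Real.log (normAtPlace w.val y)) -
        (Real.log (mixedEmbedding.norm x) - Real.log (mixedEmbedding.norm y)) *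
      (finrank ℚ K : ℝ)⁻¹ := by ring
    rw [this]
    refine (abs_sub _ _).trans ?_
    linarith
  have h5 : ((mult w.val : ℕ) : ℝ) ≤ 2 := by
    have : mult w.val ≤ 2 := by
      unfold mult
      split_ifs <;> norm_num
    exact_mod_cast this
  calc ((mult w.val : ℕ) : ℝ) * _ ≤ 2 * (2 * (‖x - y‖ / ρ)) := by gcongr
    _ = 4 * (‖x - y‖ / ρ) := by ring

/-- `coords` is a fixed linear function of the `log |x|_w`.  Proof: `coords x i = ℓ_i (logMap x)`
with `ℓ_i` a linear form on the finite dimensional space `logSpace K`, hence bounded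
(`LinearMap.toContinuousLinearMap`, `ContinuousLinearMap.le_opNorm`); each coordinate of
`logMap x - logMap y` is bounded by `2 * (1 + 1) * ‖x - y‖ / ρ` by the two previous lemmas
(`mult w ≤ 2`). -/
theorem exists_coords_lipschitz : ∃ A : ℝ, 0 ≤ A ∧ ∀ (x y : mixedSpace K) (ρ : ℝ), 0 < ρ →
    (∀ w, ρ ≤ normAtPlace w x) → (∀ w, ρ ≤ normAtPlace w y) →
    ∀ i, |coords K x i - coords K y i| ≤ A * (‖x - y‖ / ρ) := by
  set B := (basisUnitLattice K).ofZLatticeBasis ℝ (unitLattice K) with hB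
  let ℓ : Fin (rank K) → (dirichletUnitTheorem.logSpace K →L[ℝ] ℝ) := fun i => LinearMap.toContinuousLinearMap (B.coord i)
  refine ⟨(∑ i, ‖ℓ i‖) * 4, by positivity, ?_⟩
  intro x y ρ hρ hx hy i
  have hnn : 0 ≤ ‖x - y‖ / ρ := div_nonneg (norm_nonneg _) hρ.le
  have h1 : coords K x i - coords K y i = ℓ i (logMap x - logMap y) := by
    simp only [coords, ℓ, LinearMap.coe_toContinuousLinearMap', Basis.coord_apply, map_sub, hB]
  rw [h1, ← Real.norm_eq_abs]
  have h2 : ‖ℓ i‖ ≤ ∑ i, ‖ℓ i‖ :=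
    Finset.single_le_sum (f := fun i => ‖ℓ i‖) (fun _ _ => norm_nonneg _) (Finset.mem_univ i)
  calc ‖ℓ i (logMap x - logMap y)‖ ≤ ‖ℓ i‖ * ‖logMap x - logMap y‖ := (ℓ i).le_opNorm _
    _ ≤ (∑ i, ‖ℓ i‖) * (4 * (‖x - y‖ / ρ)) := by
        gcongr
        exact Lip.norm_logMap_sub_le K hρ hx hy
    _ = (∑ i, ‖ℓ i‖) * 4 * (‖x - y‖ / ρ) := by ring

theorem exists_wt_lipschitz : ∃ A : ℝ, 0 ≤ A ∧ ∀ (x y : mixedSpace K) (ρ : ℝ), 0 < ρ →
    (∀ w, ρ ≤ normAtPlace w x) → (∀ w, ρ ≤ normAtPlace w y) →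
    |wt K x - wt K y| ≤ A * (‖x - y‖ / ρ) := by
  obtain ⟨A, hA, h⟩ := exists_coords_lipschitz K
  refine ⟨rank K * A, by positivity, ?_⟩
  intro x y ρ hρ hx hy
  refine (abs_prod_tent_sub_le (coords K x) (coords K y)).trans ?_
  calc ∑ i, |coords K x i - coords K y i| ≤ ∑ _i : Fin (rank K), A * (‖x - y‖ / ρ) :=
        Finset.sum_le_sum (fun i _ => h x y ρ hρ hx hy i)
    _ = rank K * A * (‖x - y‖ / ρ) := by
        rw [Finset.sum_const, Finset.card_univ, Fintype.card_fin, nsmul_eq_mul, mul_assoc]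

theorem pow_le_norm {x : mixedSpace K} {ρ : ℝ} (hρ : 0 < ρ) (hx : ∀ w, ρ ≤ normAtPlace w x) :
    ρ ^ finrank ℚ K ≤ mixedEmbedding.norm x := by
  rw [mixedEmbedding.norm_apply, ← sum_mult_eq, ← Finset.prod_pow_eq_pow_sum]
  exact Finset.prod_le_prod (fun w _ => by positivity)
    (fun w _ => pow_le_pow_left₀ hρ.le (hx w) _)

/-- `|e^u - e^v| ≤ |u - v| e^M` for `u, v ≤ M`. -/
theorem Lip.abs_exp_sub_le {u v M : ℝ} (hu : u ≤ M) (hv : v ≤ M) :
    |Real.exp u - Real.exp v| ≤ |u - v| * Real.exp M := by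
  have key : ∀ {u v : ℝ}, u ≤ M → Real.exp u - Real.exp v ≤ |u - v| * Real.exp M := by
    intro u v hu
    have h1 : v - u + 1 ≤ Real.exp (v - u) := Real.add_one_le_exp _
    have h2 : Real.exp v = Real.exp u * Real.exp (v - u) := by
      rw [← Real.exp_add]; congr 1; ring
    have h3 : Real.exp u - Real.exp v ≤ (u - v) * Real.exp u := by
      rw [h2]
      nlinarith [Real.exp_pos u]
    have h4 : (u - v) * Real.exp u ≤ |u - v| * Real.exp u := by
      gcongr; exact le_abs_self _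
    have h5 : |u - v| * Real.exp u ≤ |u - v| * Real.exp M := by
      gcongr
    linarith
  rw [abs_le]
  constructor
  · have := key (v := u) hv
    rw [abs_sub_comm] at this
    linarith
  · exact key hu

/-- `|e^{-sA} - e^{-sB}| ≤ s |A - B| max (e^{-sA}) (e^{-sB})` with `A = log (N x)`, `B = log (N y)`. -/
theorem abs_norm_rpow_sub_le {x y : mixedSpace K} {ρ s : ℝ} (hρ : 0 < ρ) (hs : 0 ≤ s)
    (hx : ∀ w, ρ ≤ normAtPlace w x) (hy : ∀ w, ρ ≤ normAtPlace w y) :
    |mixedEmbedding.norm x ^ (-s) - mixedEmbedding.norm y ^ (-s)| ≤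
      s * (finrank ℚ K * (‖x - y‖ / ρ)) * (ρ ^ finrank ℚ K) ^ (-s) := by
  have hρd : 0 < ρ ^ finrank ℚ K := by positivity
  have hxN := pow_le_norm K hρ hx
  have hyN := pow_le_norm K hρ hy
  have hx0 : 0 < mixedEmbedding.norm x := lt_of_lt_of_le hρd hxN
  have hy0 : 0 < mixedEmbedding.norm y := lt_of_lt_of_le hρd hyN
  rw [Real.rpow_def_of_pos hx0, Real.rpow_def_of_pos hy0, Real.rpow_def_of_pos hρd]
  have hlx : Real.log (ρ ^ finrank ℚ K) ≤ Real.log (mixedEmbedding.norm x) :=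
    Real.log_le_log hρd hxN
  have hly : Real.log (ρ ^ finrank ℚ K) ≤ Real.log (mixedEmbedding.norm y) :=
    Real.log_le_log hρd hyN
  have h1 : Real.log (mixedEmbedding.norm x) * -s ≤ Real.log (ρ ^ finrank ℚ K) * -s := by
    nlinarith
  have h2 : Real.log (mixedEmbedding.norm y) * -s ≤ Real.log (ρ ^ finrank ℚ K) * -s := by
    nlinarith
  refine (Lip.abs_exp_sub_le h1 h2).trans ?_
  gcongr
  rw [← sub_mul, abs_mul, abs_neg, abs_of_nonneg hs, mul_comm]
  gcongr
  exact abs_log_norm_sub_le K hρ hx hy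

end Fermat.Agent.Lib.Cheb
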