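import Fermat.Agent.Lib.Cheb.Support
import Fermat.Agent.Lib.Cheb.Lip

/-!
# CHEB leaf I4b: the main estimate `|Φ_s(x) - Φ_s(y)| ≤ C ‖x‖^(-d-1)`
-/

set_option autoImplicit false

namespace Fermat.Agent.Lib.Cheb

open NumberField NumberField.mixedEmbedding NumberField.Units NumberField.InfinitePlace Module

open scoped Classical

variable (K : Type*) [Field K] [NumberField K]

/-- For the summability of `Φ_s`.  Proof: if `wt x = 0` trivial; otherwise `N x ≥ (c ‖x‖)^d` by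
`exists_le_normAtPlace` and `pow_le_norm`; `C = c ^ (-(d s))`. -/
theorem exists_bound (s : ℝ) (hs : 0 ≤ s) : ∃ C : ℝ, 0 ≤ C ∧ ∀ x : mixedSpace K,
    mixedEmbedding.norm x ≠ 0 →
    mixedEmbedding.norm x ^ (-s) * wt K x ≤ C * ‖x‖ ^ (-(finrank ℚ K * s)) := by
  obtain ⟨c, hc, hcx⟩ := exists_le_normAtPlace K
  refine ⟨(c ^ finrank ℚ K) ^ (-s), by positivity, fun x hx => ?_⟩
  by_cases hw : wt K x = 0
  · rw [hw, mul_zero]
    positivity
  have hx0 : x ≠ 0 := by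
    rintro rfl
    exact hx (map_zero _)
  have hnx : 0 < ‖x‖ := norm_pos_iff.mpr hx0
  have hρ : 0 < c * ‖x‖ := by positivity
  have h1 : (c * ‖x‖) ^ finrank ℚ K ≤ mixedEmbedding.norm x := pow_le_norm K hρ (hcx x hx hw)
  have h2 : mixedEmbedding.norm x ^ (-s) ≤ ((c * ‖x‖) ^ finrank ℚ K) ^ (-s) :=
    Real.rpow_le_rpow_of_nonpos (by positivity) h1 (by linarith)
  have h3 : ((c * ‖x‖) ^ finrank ℚ K) ^ (-s)
      = (c ^ finrank ℚ K) ^ (-s) * ‖x‖ ^ (-(finrank ℚ K * s)) := by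
    rw [mul_pow, Real.mul_rpow (by positivity) (by positivity)]
    congr 1
    rw [← Real.rpow_natCast, ← Real.rpow_mul hnx.le]
    congr 1
    ring
  calc mixedEmbedding.norm x ^ (-s) * wt K x
      ≤ mixedEmbedding.norm x ^ (-s) * 1 :=
        mul_le_mul_of_nonneg_left (wt_le_one K x)
          (Real.rpow_nonneg (mixedEmbedding.norm_nonneg x) _)
    _ = mixedEmbedding.norm x ^ (-s) := mul_one _
    _ ≤ _ := h2.trans h3.le

/-- a product estimate for real numbers. -/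
theorem Est_abs_mul_sub_le {a b u v E1 E2 E3 : ℝ} (hu0 : 0 ≤ u) (hu1 : u ≤ 1) (hb0 : 0 ≤ b)
    (h1 : |a - b| ≤ E1) (h2 : b ≤ E2) (h3 : |u - v| ≤ E3) :
    |a * u - b * v| ≤ E1 + E2 * E3 := by
  have e : a * u - b * v = (a - b) * u + b * (u - v) := by ring
  rw [e]
  calc |(a - b) * u + b * (u - v)| ≤ |(a - b) * u| + |b * (u - v)| := abs_add_le _ _
    _ = |a - b| * u + b * |u - v| := by
        rw [abs_mul, abs_mul, abs_of_nonneg hu0, abs_of_nonneg hb0]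
    _ ≤ E1 * 1 + E2 * E3 :=
        add_le_add (mul_le_mul h1 hu1 hu0 ((abs_nonneg _).trans h1))
          (mul_le_mul h2 h3 (abs_nonneg _) (hb0.trans h2))
    _ = E1 + E2 * E3 := by ring

/-- **Main estimate.**  Let `c` be as in `exists_le_normAtPlace`.  If `wt x = wt y = 0` there is
nothing to prove.  If `wt x ≠ 0` then `|x|_w ≥ c ‖x‖` and `|y|_w ≥ c ‖x‖ - R`; if `wt y ≠ 0` then
`|y|_w ≥ c (‖x‖ - R)` and `|x|_w ≥ c (‖x‖ - R) - R`.  For `‖x‖ ≥ R₁` (`R₁` large, depending on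
`c, R`) both are `≥ ρ := c ‖x‖ / 2`, `ρ ≥ 1` and `R < ρ`.  Then
`|N x^{-s} wt x - N y^{-s} wt y| ≤ |N x^{-s} - N y^{-s}| wt x + N y^{-s} |wt x - wt y|
  ≤ (2 d + A) (R / ρ) (ρ^d)^{-s} ≤ (2 d + A) R ρ^{-d-1}` (`abs_norm_rpow_sub_le`,
`exists_wt_lipschitz`, `pow_le_norm`, `s ∈ [1,2]`, `ρ ≥ 1`). -/
theorem exists_est (R : ℝ) (hR : 0 ≤ R) : ∃ C R₁ : ℝ, 0 ≤ C ∧ 0 < R₁ ∧
    ∀ s ∈ Set.Icc (1 : ℝ) 2, ∀ x y : mixedSpace K,
      mixedEmbedding.norm x ≠ 0 → mixedEmbedding.norm y ≠ 0 → ‖x - y‖ ≤ R → R₁ ≤ ‖x‖ →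
      |mixedEmbedding.norm x ^ (-s) * wt K x - mixedEmbedding.norm y ^ (-s) * wt K y| ≤
          C * ‖x‖ ^ (-(finrank ℚ K + 1 : ℝ)) ∧
      ((wt K x ≠ 0 ∨ wt K y ≠ 0) → ∀ w : InfinitePlace K,
        normAtPlace w (x - y) < normAtPlace w x) := by
  obtain ⟨c, hc, hcx⟩ := exists_le_normAtPlace K
  obtain ⟨A, hA, hAx⟩ := exists_wt_lipschitz K
  refine ⟨(2 * finrank ℚ K + A) * R * (c / 2) ^ (-(finrank ℚ K + 1 : ℝ)),
    2 * ((c + 1) * R + 1) / c, by positivity, by positivity, ?_⟩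
  intro s hs x y hx hy hxy hR1
  have hcR : 0 ≤ c * R := by positivity
  have hρ1 : (c + 1) * R + 1 ≤ c / 2 * ‖x‖ := by
    have := (div_le_iff₀ hc).1 hR1
    linarith
  obtain ⟨ρ, hρdef⟩ : ∃ ρ : ℝ, ρ = c / 2 * ‖x‖ := ⟨_, rfl⟩
  rw [← hρdef] at hρ1
  have hρge1 : 1 ≤ ρ := by nlinarith
  have hRρ : R < ρ := by nlinarith
  have hρ0 : 0 < ρ := by linarith
  have key : (wt K x ≠ 0 ∨ wt K y ≠ 0) →
      (∀ w, ρ ≤ normAtPlace w x) ∧ (∀ w, ρ ≤ normAtPlace w y) := by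
    intro h
    have hsub : ∀ w, |normAtPlace w x - normAtPlace w y| ≤ R :=
      fun w => (abs_normAtPlace_sub_le K w x y).trans hxy
    rcases h with h | h
    · have h1 := hcx x hx h
      refine ⟨fun w => ?_, fun w => ?_⟩
      · have h2 := h1 w
        linarith
      · have h2 := h1 w
        have h3 := abs_le.1 (hsub w)
        linarith [h3.1, h3.2]
    · have h1 := hcx y hy h
      have hny : ‖x‖ - R ≤ ‖y‖ := by
        have := norm_sub_norm_le x y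
        linarith
      have hny' : c * (‖x‖ - R) ≤ c * ‖y‖ := mul_le_mul_of_nonneg_left hny hc.le
      refine ⟨fun w => ?_, fun w => ?_⟩
      · have h2 := h1 w
        have h3 := abs_le.1 (hsub w)
        linarith [h3.1, h3.2]
      · have h2 := h1 w
        linarith
  refine ⟨?_, fun h w => ?_⟩
  · by_cases h : wt K x ≠ 0 ∨ wt K y ≠ 0
    · obtain ⟨hxρ, hyρ⟩ := key h
      have hs0 : 0 ≤ s := by linarith [hs.1]
      have hT : ‖x - y‖ / ρ ≤ R / ρ := div_le_div_of_nonneg_right hxy hρ0.le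
      have hT0 : 0 ≤ ‖x - y‖ / ρ := by positivity
      have hP : (ρ ^ finrank ℚ K) ^ (-s) ≤ (ρ ^ finrank ℚ K)⁻¹ := by
        rw [← Real.rpow_neg_one]
        exact Real.rpow_le_rpow_of_exponent_le (one_le_pow₀ hρge1) (by linarith [hs.1])
      have hP0 : 0 ≤ (ρ ^ finrank ℚ K) ^ (-s) := by positivity
      have h1 := abs_norm_rpow_sub_le K hρ0 hs0 hxρ hyρ
      have h2 : mixedEmbedding.norm y ^ (-s) ≤ (ρ ^ finrank ℚ K) ^ (-s) :=
        Real.rpow_le_rpow_of_nonpos (by positivity) (pow_le_norm K hρ0 hyρ) (by linarith)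
      have h3 := hAx x y ρ hρ0 hxρ hyρ
      have h4 := Est_abs_mul_sub_le (wt_nonneg K x) (wt_le_one K x)
        (Real.rpow_nonneg (mixedEmbedding.norm_nonneg y) _) h1 h2 h3
      refine h4.trans ?_
      have e1 : (c / 2) ^ (-(finrank ℚ K + 1 : ℝ)) * ‖x‖ ^ (-(finrank ℚ K + 1 : ℝ))
          = (ρ ^ finrank ℚ K)⁻¹ / ρ := by
        rw [← Real.mul_rpow (by positivity) (norm_nonneg x), ← hρdef, Real.rpow_neg hρ0.le]
        have : ((finrank ℚ K : ℝ) + 1) = ((finrank ℚ K + 1 : ℕ) : ℝ) := by push_cast; ring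
        rw [this, Real.rpow_natCast, pow_succ, mul_inv, div_eq_mul_inv]
      calc s * (finrank ℚ K * (‖x - y‖ / ρ)) * (ρ ^ finrank ℚ K) ^ (-s)
            + (ρ ^ finrank ℚ K) ^ (-s) * (A * (‖x - y‖ / ρ))
          = (s * finrank ℚ K + A) * ((‖x - y‖ / ρ) * (ρ ^ finrank ℚ K) ^ (-s)) := by ring
        _ ≤ (2 * finrank ℚ K + A) * ((R / ρ) * (ρ ^ finrank ℚ K)⁻¹) := by
            have hs2 := hs.2
            gcongr
        _ = (2 * finrank ℚ K + A) * R * ((ρ ^ finrank ℚ K)⁻¹ / ρ) := by ring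
        _ = _ := by rw [← e1]; ring
    · push Not at h
      rw [h.1, h.2, mul_zero, mul_zero, sub_zero, abs_zero]
      positivity
  · calc normAtPlace w (x - y) ≤ ‖x - y‖ := normAtPlace_le_norm K w _
      _ ≤ R := hxy
      _ < ρ := hRρ
      _ ≤ normAtPlace w x := (key h).1 w

end Fermat.Agent.Lib.Cheb
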