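import Fermat.Agent.Lib.Cheb.NormMod

/-!
# CHEB leaf IIIa: finite Euler products for `Lfun`
-/

set_option autoImplicit false

namespace Fermat.Agent.Lib.Cheb

open NumberField IsDedekindDomain Filter Topology Fermat.Agent.Lib.FrobDensity

variable (K : Type*) [Field K] [NumberField K] {m : ℕ}

open scoped Classical in
/-- the summand of the sum over the ideals prime to `B`. -/
noncomputable def EulerProd_f (ψ : DirichletCharacter ℂ m) (s : ℝ)
    (B : Finset (HeightOneSpectrum (𝓞 K))) (I : Ideal (𝓞 K)) : ℂ :=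
  if (∀ v ∈ B, ¬ v.asIdeal ∣ I) then term K ψ s I else 0

theorem EulerProd_norm_f_le (ψ : DirichletCharacter ℂ m) (s : ℝ)
    (B : Finset (HeightOneSpectrum (𝓞 K))) (I : Ideal (𝓞 K)) :
    ‖EulerProd_f K ψ s B I‖ ≤ ‖term K ψ s I‖ := by
  unfold EulerProd_f
  split_ifs
  · exact le_rfl
  · rw [norm_zero]
    exact norm_nonneg _

theorem EulerProd_summable_f (ψ : DirichletCharacter ℂ m) {s : ℝ} (hs : 1 < s)
    (B : Finset (HeightOneSpectrum (𝓞 K))) : Summable (EulerProd_f K ψ s B) :=
  Summable.of_norm_bounded (summable_term K ψ hs) (EulerProd_norm_f_le K ψ s B)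

variable {K} in
theorem EulerProd_dvd_mul_iff {v w : HeightOneSpectrum (𝓞 K)} (hwv : w ≠ v) (I : Ideal (𝓞 K)) :
    w.asIdeal ∣ v.asIdeal * I ↔ w.asIdeal ∣ I := by
  rw [w.prime.dvd_mul]
  constructor
  · rintro (h | h)
    · exfalso
      apply hwv
      have h1 : v.asIdeal ≤ w.asIdeal := Ideal.dvd_iff_le.mp h
      exact (HeightOneSpectrum.ext (v.isMaximal.eq_of_le w.isPrime.ne_top h1)).symm
    · exact h
  · exact Or.inr

open scoped Classical in
theorem EulerProd_step (ψ : DirichletCharacter ℂ m) {s : ℝ} (hs : 1 < s)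
    (B : Finset (HeightOneSpectrum (𝓞 K))) (v : HeightOneSpectrum (𝓞 K)) (hv : v ∉ B) :
    (1 - term K ψ s v.asIdeal) * ∑' I, EulerProd_f K ψ s B I
      = ∑' I, EulerProd_f K ψ s (insert v B) I := by
  set g : Ideal (𝓞 K) → ℂ := fun I => if v.asIdeal ∣ I then EulerProd_f K ψ s B I else 0 with hg
  have hsplit : ∀ I, EulerProd_f K ψ s B I = EulerProd_f K ψ s (insert v B) I + g I := by
    intro I
    by_cases hvI : v.asIdeal ∣ I
    · have h0 : EulerProd_f K ψ s (insert v B) I = 0 := by
        unfold EulerProd_f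
        rw [if_neg]
        intro h
        exact h v (Finset.mem_insert_self v B) hvI
      rw [h0, zero_add, hg]
      simp only [if_pos hvI]
    · have h0 : EulerProd_f K ψ s (insert v B) I = EulerProd_f K ψ s B I := by
        unfold EulerProd_f
        exact if_congr (by rw [Finset.forall_mem_insert]; exact and_iff_right hvI) rfl rfl
      rw [h0, hg]
      simp only [if_neg hvI, add_zero]
  have hgv : ∀ I, g (v.asIdeal * I) = term K ψ s v.asIdeal * EulerProd_f K ψ s B I := by
    intro I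
    rw [hg]
    simp only [if_pos (dvd_mul_right v.asIdeal I)]
    unfold EulerProd_f
    rw [term_mul, mul_ite, mul_zero]
    refine if_congr ?_ rfl rfl
    refine forall₂_congr fun w hw => ?_
    rw [EulerProd_dvd_mul_iff (fun h : w = v => hv (by rw [← h]; exact hw))]
  have hinj : Function.Injective (fun I : Ideal (𝓞 K) => v.asIdeal * I) :=
    mul_right_injective₀ v.ne_bot
  have hsupp : Function.support g ⊆ Set.range (fun I : Ideal (𝓞 K) => v.asIdeal * I) := by
    intro J hJ
    by_cases hvJ : v.asIdeal ∣ J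
    · obtain ⟨I, rfl⟩ := hvJ
      exact ⟨I, rfl⟩
    · exfalso
      apply hJ
      rw [hg]
      simp only [if_neg hvJ]
  have hgsum : ∑' J, g J = term K ψ s v.asIdeal * ∑' I, EulerProd_f K ψ s B I := by
    rw [← tsum_mul_left, ← hinj.tsum_eq hsupp]
    exact tsum_congr hgv
  have hgs : Summable g := by
    refine Summable.of_norm_bounded (summable_term K ψ hs) fun I => ?_
    rw [hg]
    by_cases hvI : v.asIdeal ∣ I
    · simp only [if_pos hvI]
      exact EulerProd_norm_f_le K ψ s B I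
    · simp only [if_neg hvI, norm_zero]
      exact norm_nonneg _
  have h1 : ∑' I, EulerProd_f K ψ s B I = ∑' I, EulerProd_f K ψ s (insert v B) I + ∑' J, g J := by
    rw [← (EulerProd_summable_f K ψ hs (insert v B)).tsum_add hgs]
    exact tsum_congr hsplit
  rw [hgsum] at h1
  linear_combination h1

open scoped Classical in
/-- Removing the Euler factors at a finite set `B` of primes.  Induction on `B`:
`(1 - term v) * ∑_{I prime to B} term I = ∑_{I prime to insert v B} term I`, because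
`I ↦ v * I` is a bijection from the ideals prime to `B` onto the ideals prime to `B` divisible by
`v` (`v ∉ B`), and `term_mul`. -/
theorem prod_mul_Lfun (ψ : DirichletCharacter ℂ m) {s : ℝ} (hs : 1 < s)
    (B : Finset (HeightOneSpectrum (𝓞 K))) :
    (∏ v ∈ B, (1 - term K ψ s v.asIdeal)) * Lfun K ψ s =
      ∑' I : Ideal (𝓞 K), if (∀ v ∈ B, ¬ v.asIdeal ∣ I) then term K ψ s I else 0 := by
  change _ = ∑' I : Ideal (𝓞 K), EulerProd_f K ψ s B I
  induction B using Finset.induction_on with
  | empty =>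
    rw [Finset.prod_empty, one_mul]
    unfold Lfun EulerProd_f
    simp
  | insert v B hv ih =>
    rw [Finset.prod_insert hv, mul_assoc, ih, EulerProd_step K ψ hs B v hv]

variable {K} in
theorem EulerProd_exists_prime {I : Ideal (𝓞 K)} (h0 : I ≠ ⊥) (h1 : I ≠ ⊤) :
    ∃ v : HeightOneSpectrum (𝓞 K), v.asIdeal ∣ I := by
  obtain ⟨M, hM, hIM⟩ := Ideal.exists_le_maximal I h1
  have hM0 : M ≠ ⊥ := fun h => h0 (le_bot_iff.mp (h ▸ hIM))
  exact ⟨⟨M, hM.isPrime, hM0⟩, Ideal.dvd_iff_le.mpr hIM⟩

variable {K} in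
theorem EulerProd_exists_cover (B₀ : Finset (HeightOneSpectrum (𝓞 K)))
    (F : Finset (Ideal (𝓞 K))) :
    ∃ B : Finset (HeightOneSpectrum (𝓞 K)), B₀ ⊆ B ∧
      ∀ I ∈ F, I ≠ ⊥ → I ≠ ⊤ → ∃ v ∈ B, v.asIdeal ∣ I := by
  classical
  induction F using Finset.induction_on with
  | empty => exact ⟨B₀, subset_rfl, fun I hI => absurd hI (Finset.notMem_empty I)⟩
  | insert J F _ ih =>
    obtain ⟨B, hB, hF⟩ := ih
    by_cases hJ : J ≠ ⊥ ∧ J ≠ ⊤
    · obtain ⟨v, hv⟩ := EulerProd_exists_prime hJ.1 hJ.2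
      refine ⟨insert v B, hB.trans (Finset.subset_insert v B), fun I hI h0 h1 => ?_⟩
      rcases Finset.mem_insert.mp hI with rfl | hI
      · exact ⟨v, Finset.mem_insert_self v B, hv⟩
      · obtain ⟨w, hw, hwI⟩ := hF I hI h0 h1
        exact ⟨w, Finset.mem_insert_of_mem hw, hwI⟩
    · refine ⟨B, hB, fun I hI h0 h1 => ?_⟩
      rcases Finset.mem_insert.mp hI with rfl | hI
      · exact absurd ⟨h0, h1⟩ hJ
      · exact hF I hI h0 h1

/-- For `B` large the remaining sum is close to its term `I = ⊤`.  Proof: the tail of the summable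
family `‖term I‖`: choose a finite set `F` of ideals carrying all the mass up to `1/2`, and let `B`
contain all prime factors of the members of `F` different from `⊥, ⊤`. -/
theorem exists_finset_half_le (ψ : DirichletCharacter ℂ m) {s : ℝ} (hs : 1 < s)
    (B₀ : Finset (HeightOneSpectrum (𝓞 K))) :
    ∃ B : Finset (HeightOneSpectrum (𝓞 K)), B₀ ⊆ B ∧
      (1 / 2 : ℝ) ≤ ‖(∏ v ∈ B, (1 - term K ψ s v.asIdeal)) * Lfun K ψ s‖ := by
  classical
  have hsum := summable_term K ψ hs
  set a : Ideal (𝓞 K) → ℝ := fun I => ‖term K ψ s I‖ with ha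
  obtain ⟨F, hF⟩ : ∃ F : Finset (Ideal (𝓞 K)), ∑' I, a I - 1 / 2 < ∑ I ∈ F, a I :=
    (hsum.hasSum.eventually (lt_mem_nhds (by linarith))).exists
  obtain ⟨B, hB₀, hB⟩ := EulerProd_exists_cover B₀ F
  refine ⟨B, hB₀, ?_⟩
  have hprod : (∏ v ∈ B, (1 - term K ψ s v.asIdeal)) * Lfun K ψ s
      = ∑' I : Ideal (𝓞 K), EulerProd_f K ψ s B I := prod_mul_Lfun K ψ hs B
  rw [hprod]
  have hfs := EulerProd_summable_f K ψ hs B
  have htop : EulerProd_f K ψ s B ⊤ = 1 := by
    unfold EulerProd_f
    rw [if_pos, term_top]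
    intro v _ hv
    exact v.isPrime.ne_top (top_le_iff.mp (Ideal.dvd_iff_le.mp hv))
  set h : Ideal (𝓞 K) → ℂ := fun I => if I = ⊤ then 0 else EulerProd_f K ψ s B I with hh
  have h1 : ∑' I, EulerProd_f K ψ s B I = 1 + ∑' I, h I := by
    rw [hfs.tsum_eq_add_tsum_ite ⊤, htop]
  set b : Ideal (𝓞 K) → ℝ := fun I => if I ∈ F then 0 else a I with hb
  have hbound : ∀ I, ‖h I‖ ≤ b I := by
    intro I
    rw [hh, hb]
    by_cases hI : I = ⊤
    · simp only [if_pos hI, norm_zero]
      split_ifs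
      · exact le_rfl
      · exact norm_nonneg _
    · simp only [if_neg hI]
      by_cases hIF : I ∈ F
      · simp only [if_pos hIF]
        apply le_of_eq
        rw [norm_eq_zero]
        by_cases hI0 : I = ⊥
        · unfold EulerProd_f
          rw [hI0, term_bot K ψ (by linarith), ite_self]
        · obtain ⟨v, hv, hvI⟩ := hB I hIF hI0 hI
          unfold EulerProd_f
          rw [if_neg]
          intro hcon
          exact hcon v hv hvI
      · simp only [if_neg hIF]
        exact EulerProd_norm_f_le K ψ s B I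
  have hbsum : HasSum b (∑' I, a I - ∑ I ∈ F, a I) := by
    have h2 : HasSum (fun I => if I ∈ F then a I else 0) (∑ I ∈ F, a I) := by
      have h3 : HasSum (fun I => if I ∈ F then a I else 0)
          (∑ I ∈ F, (fun I => if I ∈ F then a I else 0) I) :=
        hasSum_sum_of_ne_finset_zero (fun I hI => if_neg hI)
      rwa [Finset.sum_congr rfl fun I hI => if_pos hI] at h3
    have h4 := hsum.hasSum.sub h2
    have h8 : b = fun I => a I - if I ∈ F then a I else 0 := by
      funext I
      rw [hb]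
      by_cases hIF : I ∈ F
      · simp only [if_pos hIF, sub_self]
      · simp only [if_neg hIF, sub_zero]
    rw [h8]
    exact h4
  have h5 : ‖∑' I, h I‖ ≤ ∑' I, a I - ∑ I ∈ F, a I :=
    tsum_of_norm_bounded hbsum hbound
  have h6 : ‖∑' I, h I‖ ≤ 1 / 2 := by linarith
  rw [h1]
  have h7 : ‖(1 : ℂ)‖ - ‖∑' I, h I‖ ≤ ‖1 + ∑' I, h I‖ := by
    have := norm_sub_norm_le (1 : ℂ) (-∑' I, h I)
    rwa [norm_neg, sub_neg_eq_add] at this
  rw [norm_one] at h7
  linarith

end Fermat.Agent.Lib.Cheb
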