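import Fermat.Agent.Lib.Cheb.Defs

/-!
# CHEB leaf V9: the crossing field `E(ζ_m)` and the maps on its Galois group
-/

set_option autoImplicit false

namespace Fermat.Agent.Lib.Cheb

open NumberField IsDedekindDomain

/-- The field `E(ζ)`. -/
noncomputable def crossField (E : IntermediateField ℚ (AlgebraicClosure ℚ)) (ζ : AlgebraicClosure ℚ) :
    IntermediateField ℚ (AlgebraicClosure ℚ) :=
  E ⊔ IntermediateField.adjoin ℚ {ζ}

theorem le_crossField (E : IntermediateField ℚ (AlgebraicClosure ℚ)) (ζ : AlgebraicClosure ℚ) :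
    E ≤ crossField E ζ := le_sup_left

theorem mem_crossField (E : IntermediateField ℚ (AlgebraicClosure ℚ)) (ζ : AlgebraicClosure ℚ) :
    ζ ∈ crossField E ζ :=
  (le_sup_right : IntermediateField.adjoin ℚ {ζ} ≤ crossField E ζ)
    (IntermediateField.mem_adjoin_simple_self ℚ ζ)

theorem finiteDimensional_crossField (E : IntermediateField ℚ (AlgebraicClosure ℚ))
    [FiniteDimensional ℚ E] (ζ : AlgebraicClosure ℚ) :
    FiniteDimensional ℚ (crossField E ζ) := by
  have hgal := Fermat.Agent.Lib.Frobenius.isGalois_algebraicClosure inferInstance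
  have hAlg : Algebra.IsAlgebraic ℚ (AlgebraicClosure ℚ) := hgal.to_normal.toIsAlgebraic
  have : FiniteDimensional ℚ (IntermediateField.adjoin ℚ {ζ}) :=
    IntermediateField.adjoin.finiteDimensional (Algebra.IsIntegral.isIntegral ζ)
  exact IntermediateField.finiteDimensional_sup E (IntermediateField.adjoin ℚ {ζ})

/-- `ℚ(ζ)` is normal (splitting field of `X^m - 1`: `IsCyclotomicExtension`, or: every conjugate of
`ζ` is a power of `ζ`), a compositum of normal extensions is normal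
(`IntermediateField.normal_sup`). -/
theorem normal_crossField (E : IntermediateField ℚ (AlgebraicClosure ℚ)) [Normal ℚ E] {m : ℕ}
    (hm : m ≠ 0) {ζ : AlgebraicClosure ℚ} (hζ : IsPrimitiveRoot ζ m) :
    Normal ℚ (crossField E ζ) := by
  have hgal := Fermat.Agent.Lib.Frobenius.isGalois_algebraicClosure inferInstance
  have hnor : Normal ℚ (AlgebraicClosure ℚ) := hgal.to_normal
  have : NeZero m := ⟨hm⟩
  have : Normal ℚ (IntermediateField.adjoin ℚ {ζ}) := by
    refine IntermediateField.normal_iff_forall_map_le.2 ?_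
    intro σ
    rw [IntermediateField.adjoin_map, Set.image_singleton, IntermediateField.adjoin_le_iff,
      Set.singleton_subset_iff]
    have h1 : (σ ζ) ^ m = 1 := by rw [← map_pow, hζ.pow_eq_one, map_one]
    obtain ⟨i, -, hi⟩ := hζ.eq_pow_of_pow_eq_one h1
    rw [← hi]
    exact pow_mem (IntermediateField.mem_adjoin_simple_self ℚ ζ) i
  exact @IntermediateField.normal_sup ℚ (AlgebraicClosure ℚ) _ _ _ E
    (IntermediateField.adjoin ℚ {ζ}) ‹Normal ℚ E› this

theorem exists_primitiveRoot {m : ℕ} (hm : m ≠ 0) :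
    ∃ ζ : AlgebraicClosure ℚ, IsPrimitiveRoot ζ m := by
  have : NeZero m := ⟨hm⟩
  exact HasEnoughRootsOfUnity.exists_primitiveRoot (AlgebraicClosure ℚ) m

theorem restrictNormalHom_surjective (E : IntermediateField ℚ (AlgebraicClosure ℚ)) [Normal ℚ E] :
    Function.Surjective (AlgEquiv.restrictNormalHom E :
      (AlgebraicClosure ℚ ≃ₐ[ℚ] AlgebraicClosure ℚ) →* (E ≃ₐ[ℚ] E)) := by
  have hgal := Fermat.Agent.Lib.Frobenius.isGalois_algebraicClosure inferInstance
  have hnor : Normal ℚ (AlgebraicClosure ℚ) := hgal.to_normal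
  exact AlgEquiv.restrictNormalHom_surjective (AlgebraicClosure ℚ)

/-- the field of fixed points of one automorphism. -/
noncomputable def Field.fixF (τ : AlgebraicClosure ℚ ≃ₐ[ℚ] AlgebraicClosure ℚ) :
    IntermediateField ℚ (AlgebraicClosure ℚ) :=
  { AlgHom.equalizer (τ : AlgebraicClosure ℚ →ₐ[ℚ] AlgebraicClosure ℚ) (AlgHom.id ℚ _) with
    inv_mem' := by
      intro x hx
      have hx' : τ x = x := hx
      show τ x⁻¹ = x⁻¹
      rw [map_inv₀, hx'] }

theorem Field.mem_fixF {τ : AlgebraicClosure ℚ ≃ₐ[ℚ] AlgebraicClosure ℚ} {x : AlgebraicClosure ℚ} :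
    x ∈ Field.fixF τ ↔ τ x = x := Iff.rfl

theorem Field.coe_restrict (E : IntermediateField ℚ (AlgebraicClosure ℚ)) [Normal ℚ E]
    (τ : AlgebraicClosure ℚ ≃ₐ[ℚ] AlgebraicClosure ℚ) (x : E) :
    ((AlgEquiv.restrictNormalHom E τ x : E) : AlgebraicClosure ℚ) = τ x :=
  AlgEquiv.restrictNormal_commutes τ E x

/-- The maps `r : Gal(E(ζ)/ℚ) → Gal(E/ℚ)` and `χ : Gal(E(ζ)/ℚ) → (ℤ/m)ˣ`.
`r` : `MonoidHom.liftOfSurjective` of `restrictNormalHom E'` applied to `restrictNormalHom E`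
(an automorphism of `ℚ̄` which is trivial on `E' ⊇ E` is trivial on `E`).
`χ` : `IsPrimitiveRoot.autToPow ℚ` for the primitive root `⟨ζ, _⟩` of `E'`
(`IsPrimitiveRoot.autToPow_spec`).
`r` is onto because `restrictNormalHom E` is.  `χ` is onto: `Gal(ℚ(ζ)/ℚ) ≃ (ℤ/m)ˣ`
(`IsCyclotomicExtension.autEquivPow` with `Polynomial.cyclotomic.irreducible_rat`), equivalently
`ζ` and `ζ^a` have the same minimal polynomial, so some automorphism of `ℚ̄` maps `ζ` to `ζ^a`.
Joint injectivity: an automorphism of `E' = E ⊔ ℚ(ζ)` fixing `E` and `ζ` is the identity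
(`IntermediateField.adjoin_induction` / `sup` as an adjoin). -/
theorem exists_maps (E : IntermediateField ℚ (AlgebraicClosure ℚ)) [Normal ℚ E] {m : ℕ} [NeZero m]
    {ζ : AlgebraicClosure ℚ} (hζ : IsPrimitiveRoot ζ m) [Normal ℚ (crossField E ζ)] :
    ∃ (r : (crossField E ζ ≃ₐ[ℚ] crossField E ζ) →* (E ≃ₐ[ℚ] E))
      (χ : (crossField E ζ ≃ₐ[ℚ] crossField E ζ) →* (ZMod m)ˣ),
      (∀ τ : AlgebraicClosure ℚ ≃ₐ[ℚ] AlgebraicClosure ℚ,
        r (AlgEquiv.restrictNormalHom (crossField E ζ) τ) = AlgEquiv.restrictNormalHom E τ) ∧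
      (∀ g : crossField E ζ ≃ₐ[ℚ] crossField E ζ,
        χ g = 1 ↔ g ⟨ζ, mem_crossField E ζ⟩ = ⟨ζ, mem_crossField E ζ⟩) ∧
      Function.Surjective r ∧ Function.Surjective χ ∧
      ∀ g : crossField E ζ ≃ₐ[ℚ] crossField E ζ, r g = 1 → χ g = 1 → g = 1 := by
  have hgal := Fermat.Agent.Lib.Frobenius.isGalois_algebraicClosure inferInstance
  have hnor : Normal ℚ (AlgebraicClosure ℚ) := hgal.to_normal
  set E' := crossField E ζ with hE'
  have hsurj' := restrictNormalHom_surjective E'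
  have hsurj := restrictNormalHom_surjective E
  have hker : (AlgEquiv.restrictNormalHom E' :
      (AlgebraicClosure ℚ ≃ₐ[ℚ] AlgebraicClosure ℚ) →* (E' ≃ₐ[ℚ] E')).ker ≤
      (AlgEquiv.restrictNormalHom E :
      (AlgebraicClosure ℚ ≃ₐ[ℚ] AlgebraicClosure ℚ) →* (E ≃ₐ[ℚ] E)).ker := by
    intro τ hτ
    rw [MonoidHom.mem_ker] at hτ ⊢
    ext x
    rw [Field.coe_restrict, AlgEquiv.one_apply]
    have h1 := Field.coe_restrict E' τ ⟨x, le_crossField E ζ x.2⟩
    rw [hτ, AlgEquiv.one_apply] at h1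
    exact h1.symm
  set μ : E' := ⟨ζ, mem_crossField E ζ⟩ with hμdef
  have hμ : IsPrimitiveRoot μ m :=
    IsPrimitiveRoot.of_map_of_injective (f := algebraMap E' (AlgebraicClosure ℚ))
      (hf := (algebraMap E' (AlgebraicClosure ℚ)).injective) hζ
  set r := (AlgEquiv.restrictNormalHom E' :
      (AlgebraicClosure ℚ ≃ₐ[ℚ] AlgebraicClosure ℚ) →* (E' ≃ₐ[ℚ] E')).liftOfSurjective hsurj'
        ⟨AlgEquiv.restrictNormalHom E, hker⟩ with hr
  have hrτ : ∀ τ : AlgebraicClosure ℚ ≃ₐ[ℚ] AlgebraicClosure ℚ,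
      r (AlgEquiv.restrictNormalHom E' τ) = AlgEquiv.restrictNormalHom E τ := by
    intro τ
    exact MonoidHom.liftOfRightInverse_comp_apply _ _ _ _ τ
  have hm0 : 0 < m := NeZero.pos m
  -- characterisation of `χ g = u`
  have hχ : ∀ (g : E' ≃ₐ[ℚ] E') (u : (ZMod m)ˣ),
      hμ.autToPow ℚ g = u ↔ g μ = μ ^ (u : ZMod m).val := by
    intro g u
    have hspec := hμ.autToPow_spec ℚ g
    constructor
    · intro h
      rw [← hspec, h]
    · intro h
      rw [← hspec] at h
      have := hμ.pow_inj (ZMod.val_lt _) (ZMod.val_lt _) h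
      exact Units.ext (ZMod.val_injective m this)
  have hμ1 : μ ^ ((1 : (ZMod m)ˣ) : ZMod m).val = μ := by
    rw [Units.val_one, ZMod.val_one_eq_one_mod, ← pow_eq_pow_mod 1 hμ.pow_eq_one, pow_one]
  refine ⟨r, hμ.autToPow ℚ, hrτ, ?_, ?_, ?_, ?_⟩
  · intro g
    rw [hχ g 1, hμ1]
  · intro σ
    obtain ⟨τ, rfl⟩ := hsurj σ
    exact ⟨_, hrτ τ⟩
  · intro u
    have hcop : ((u : ZMod m).val).Coprime m := ZMod.val_coe_unit_coprime u
    have hζu : IsPrimitiveRoot (ζ ^ (u : ZMod m).val) m := hζ.pow_of_coprime _ hcop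
    have hconj : IsConjRoot ℚ (ζ ^ (u : ZMod m).val) ζ := by
      unfold IsConjRoot
      rw [← Polynomial.cyclotomic_eq_minpoly_rat hζu hm0,
        ← Polynomial.cyclotomic_eq_minpoly_rat hζ hm0]
    obtain ⟨τ, hτ⟩ := isConjRoot_iff_exists_algEquiv.1 hconj
    refine ⟨AlgEquiv.restrictNormalHom E' τ, ?_⟩
    rw [hχ]
    apply Subtype.ext
    rw [Field.coe_restrict]
    exact hτ
  · intro g hg1 hg2
    obtain ⟨τ, rfl⟩ := hsurj' g
    rw [hrτ] at hg1
    rw [hχ _ 1, hμ1] at hg2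
    have h1 : E ≤ Field.fixF τ := by
      intro x hx
      rw [Field.mem_fixF]
      have h2 := Field.coe_restrict E τ ⟨x, hx⟩
      rw [hg1, AlgEquiv.one_apply] at h2
      exact h2.symm
    have h2 : IntermediateField.adjoin ℚ {ζ} ≤ Field.fixF τ := by
      rw [IntermediateField.adjoin_le_iff, Set.singleton_subset_iff]
      show τ ζ = ζ
      have h3 := Field.coe_restrict E' τ μ
      rw [hg2] at h3
      exact h3.symm
    have h3 : E' ≤ Field.fixF τ := sup_le h1 h2
    ext x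
    rw [Field.coe_restrict, AlgEquiv.one_apply]
    exact h3 x.2

end Fermat.Agent.Lib.Cheb
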