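import Fermat.Agent.Lib.Cheb.Cyc

/-!
# CHEB leaf V7: lower bound for `massS S` in terms of the number of good elements of `S`
-/

set_option autoImplicit false

namespace Fermat.Agent.Lib.Cheb

open NumberField IsDedekindDomain Filter Topology Fermat.Agent.Lib.FrobDensity
open scoped ENNReal NNReal

variable (L : Type*) [Field L] [NumberField L] (G : Type*) [Group G] [Finite G]
  [MulSemiringAction G L] [IsGaloisGroup G ℚ L]

/-- Let `Good = {γ ∈ S | ⟨γ⟩ acts faithfully on ζ}`; it is stable under inversion, so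
`2 massS S ≥ 2 massS Good = ∑_{γ ∈ Good} (massS {γ} + massS {γ⁻¹}) ≥ |Good| (2 lam - C)`
(`massS_mono`, `massS_eq_sum`, `Finset.sum_bij` with `γ ↦ γ⁻¹`, `close_massS_symm`, finitely many
`γ`). -/
theorem massS_ge {m : ℕ} [NeZero m] {ζ : L} (hζ : IsPrimitiveRoot ζ m) (N : ℕ) (hN0 : N ≠ 0)
    (hmN : m ∣ N)
    (hN : ∀ w : HeightOneSpectrum (𝓞 L), ¬ ell L w ∣ N → w.asIdeal.inertia G = ⊥)
    (S : Set G) (hS : ∀ g ∈ S, g⁻¹ ∈ S) :
    ∃ C : ℝ≥0, ∀ᶠ s in 𝓝[>] (1 : ℝ),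
      (Nat.card {γ : G // γ ∈ S ∧ ∀ k : ℕ, (γ ^ k) • ζ = ζ → γ ^ k = 1} : ℝ≥0∞) * lam s ≤
        massS L G N S s + C := by
  classical
  haveI : Fintype G := Fintype.ofFinite G
  set P : G → Prop := fun γ => γ ∈ S ∧ ∀ k : ℕ, (γ ^ k) • ζ = ζ → γ ^ k = 1 with hP
  set Good : Finset G := Finset.univ.filter P with hGood
  have hcard : Nat.card {γ : G // P γ} = Good.card := by
    rw [Nat.card_eq_fintype_card, Fintype.card_subtype]
  have hinv : ∀ γ, P γ → P γ⁻¹ := by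
    rintro γ ⟨h1, h2⟩
    refine ⟨hS γ h1, fun k hk => ?_⟩
    rw [inv_pow] at hk ⊢
    rw [inv_smul_eq_iff] at hk
    rw [h2 k hk.symm, inv_one]
  have hclose : ∀ γ : G, ∃ C : ℝ≥0, P γ → ∀ᶠ s in 𝓝[>] (1 : ℝ),
      2 * lam s ≤ massS L G N {γ} s + massS L G N {γ⁻¹} s + C := by
    intro γ
    by_cases h : P γ
    · obtain ⟨C, hC⟩ := close_massS_symm L G hζ γ h.2 N hN0 hmN hN
      exact ⟨C, fun _ => hC.mono fun s hs => hs.2⟩
    · exact ⟨0, fun h' => absurd h' h⟩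
  choose Cγ hCγ using hclose
  refine ⟨∑ γ ∈ Good, Cγ γ, ?_⟩
  have hall : ∀ᶠ s in 𝓝[>] (1 : ℝ), ∀ γ ∈ Good,
      2 * lam s ≤ massS L G N {γ} s + massS L G N {γ⁻¹} s + Cγ γ := by
    rw [Filter.eventually_all_finset]
    intro γ hγ
    exact hCγ γ (Finset.mem_filter.1 hγ).2
  filter_upwards [hall] with s hs
  have h1 := Finset.sum_le_sum hs
  rw [Finset.sum_const, Finset.sum_add_distrib, Finset.sum_add_distrib, nsmul_eq_mul] at h1
  have h2 : ∑ γ ∈ Good, massS L G N {γ⁻¹} s = ∑ γ ∈ Good, massS L G N {γ} s := by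
    refine Finset.sum_equiv (Equiv.inv G) (fun γ => ?_) (fun γ _ => rfl)
    simp only [hGood, Finset.mem_filter, Finset.mem_univ, true_and, Equiv.inv_apply]
    exact ⟨hinv γ, fun h => by simpa using hinv _ h⟩
  have h3 : ∑ γ ∈ Good, massS L G N {γ} s ≤ massS L G N S s := by
    rw [← massS_eq_sum]
    exact massS_mono L G N (fun γ hγ => (Finset.mem_filter.1 (Finset.mem_coe.1 hγ)).2.1) s
  rw [h2] at h1
  show (Nat.card {γ : G // P γ} : ℝ≥0∞) * lam s ≤ _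
  rw [hcard, ← ENNReal.mul_le_mul_iff_right (a := 2) two_ne_zero ENNReal.ofNat_ne_top]
  calc 2 * ((Good.card : ℝ≥0∞) * lam s) = (Good.card : ℝ≥0∞) * (2 * lam s) := by ring
    _ ≤ ∑ γ ∈ Good, massS L G N {γ} s + ∑ γ ∈ Good, massS L G N {γ} s +
          ∑ γ ∈ Good, (Cγ γ : ℝ≥0∞) := h1
    _ ≤ massS L G N S s + massS L G N S s + ∑ γ ∈ Good, (Cγ γ : ℝ≥0∞) := by gcongr
    _ ≤ massS L G N S s + massS L G N S s +
          (∑ γ ∈ Good, (Cγ γ : ℝ≥0∞) + ∑ γ ∈ Good, (Cγ γ : ℝ≥0∞)) := by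
        gcongr
        exact le_self_add
    _ = 2 * (massS L G N S s + ((∑ γ ∈ Good, Cγ γ : ℝ≥0) : ℝ≥0∞)) := by
        rw [ENNReal.ofNNReal_finsetSum]
        ring

end Fermat.Agent.Lib.Cheb
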