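import Fermat.Agent.Lib.Cheb.Defs

/-!
# CHEB leaf V8: lifting a prime of a finite normal subfield of `ℚ̄` to a valuation subring with a
Frobenius element
-/

set_option autoImplicit false

namespace Fermat.Agent.Lib.Cheb

open NumberField IsDedekindDomain Fermat.Agent.Lib.FrobDensity

/-- This is steps 3-5 of the proof of `Fermat.Agent.Lib.FrobDensity.exists_frobenius_zpowers_of`
(file `Lib/FrobDensity/Qbar.lean`). -/
theorem exists_frobenius_lift (E : IntermediateField ℚ (AlgebraicClosure ℚ))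
    [FiniteDimensional ℚ E] [Normal ℚ E] [NumberField E] [IsGalois ℚ E]
    (w : HeightOneSpectrum (𝓞 E)) (hw : w.asIdeal.inertia (E ≃ₐ[ℚ] E) = ⊥) :
    ∃ (A : ValuationSubring (AlgebraicClosure ℚ))
      (σ : AlgebraicClosure ℚ ≃ₐ[ℚ] AlgebraicClosure ℚ),
      A.LiesOverPrime (ell E w) ∧ A.IsFrobeniusAt σ (ell E w) ∧
        AlgEquiv.restrictNormalHom E σ = frob E (E ≃ₐ[ℚ] E) w := by
  classical
  have hgal := Fermat.Agent.Lib.Frobenius.isGalois_algebraicClosure inferInstance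
  let ρ : (AlgebraicClosure ℚ ≃ₐ[ℚ] AlgebraicClosure ℚ) →* (↥E ≃ₐ[ℚ] ↥E) :=
    AlgEquiv.restrictNormalHom ↥E
  have hρ : ∀ (τ : AlgebraicClosure ℚ ≃ₐ[ℚ] AlgebraicClosure ℚ) (e : ↥E),
      ((ρ τ e : ↥E) : AlgebraicClosure ℚ) = τ (e : AlgebraicClosure ℚ) :=
    fun τ e => AlgEquiv.restrictNormal_commutes τ ↥E e
  set ℓ : ℕ := ell ↥E w with hℓdef
  have hℓ : ℓ.Prime := ell_prime ↥E w
  -- step 3: a valuation subring centred at `w`
  let f : 𝓞 ↥E →+* AlgebraicClosure ℚ :=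
    (algebraMap ↥E (AlgebraicClosure ℚ)).comp (algebraMap (𝓞 ↥E) ↥E)
  have hf : Function.Injective f :=
    (algebraMap ↥E (AlgebraicClosure ℚ)).injective.comp RingOfIntegers.coe_injective
  obtain ⟨A, hA1, hA2⟩ := Qbar_exists_valuationSubring f hf w.asIdeal w.isPrime.ne_top
  have hAℓ : A.LiesOverPrime ℓ := by
    have h1 : ((ℓ : ℕ) : 𝓞 ↥E) ∈ w.asIdeal := (natCast_mem_iff ↥E w ℓ).mpr dvd_rfl
    have h2 := hA2 _ h1
    rwa [map_natCast] at h2
  -- step 4: a Frobenius element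
  obtain ⟨σ, hσ⟩ := Fermat.Agent.Lib.Frobenius.exists_isFrobeniusAt A hℓ hAℓ
  -- step 5: its restriction is the Frobenius element at `w`
  have hmem : ∀ y : 𝓞 ↥E, f y ∈ A.nonunits → y ∈ w.asIdeal := by
    intro y hy
    by_contra hyw
    have hmax : w.asIdeal.IsMaximal := w.isMaximal
    obtain ⟨z, hz⟩ := hmax.exists_inv hyw
    obtain ⟨u, hu, hzu⟩ := hz
    apply Fermat.Agent.Lib.Frobenius.one_not_mem_nonunits A
    have h1 : (1 : AlgebraicClosure ℚ) = f z * f y + f u := by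
      rw [← map_mul, ← map_add, hzu, map_one]
    rw [h1]
    exact A.nonunits.add_mem (Fermat.Agent.Lib.Frobenius.mul_mem_nonunits A (hA1 z) hy) (hA2 u hu)
  have hfrob : ρ σ = frob ↥E (↥E ≃ₐ[ℚ] ↥E) w := by
    apply eq_frob_of_forall ↥E (↥E ≃ₐ[ℚ] ↥E) hw
    intro x
    apply hmem
    have h1 : f (ρ σ • x - x ^ ell ↥E w) = σ (f x) - (f x) ^ ℓ := by
      rw [map_sub, map_pow]
      congr 1
      exact hρ σ (x : ↥E)
    rw [h1]
    exact Qbar_sub_pow_mem_nonunits hσ (hA1 x)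
  exact ⟨A, σ, hAℓ, hσ, hfrob⟩

/-- Step 1 of the same proof. -/
theorem exists_normal_le_ker {X : Type*} [Group X] [TopologicalSpace X] [DiscreteTopology X]
    (φ : (AlgebraicClosure ℚ ≃ₐ[ℚ] AlgebraicClosure ℚ) →* X) (hφ : Continuous φ) :
    ∃ E : IntermediateField ℚ (AlgebraicClosure ℚ), FiniteDimensional ℚ E ∧ Normal ℚ E ∧
      E.fixingSubgroup ≤ φ.ker := by
  have hgal := Fermat.Agent.Lib.Frobenius.isGalois_algebraicClosure inferInstance
  have hker : ((φ.ker : Subgroup _) : Set (AlgebraicClosure ℚ ≃ₐ[ℚ] AlgebraicClosure ℚ))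
      ∈ nhds (1 : AlgebraicClosure ℚ ≃ₐ[ℚ] AlgebraicClosure ℚ) := by
    have hopen : IsOpen (φ ⁻¹' {1}) := (isOpen_discrete {(1 : X)}).preimage hφ
    refine hopen.mem_nhds ?_
    simp
  rw [krullTopology_mem_nhds_one_iff_of_normal] at hker
  obtain ⟨E, hEfin, hEnorm, hE⟩ := hker
  exact ⟨E, hEfin, hEnorm, hE⟩

end Fermat.Agent.Lib.Cheb
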