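import Fermat.Agent.Lib.Cheb.MassB

/-!
# CHEB leaf V6: from primes of `L` to rational primes
-/

set_option autoImplicit false

namespace Fermat.Agent.Lib.Cheb

open NumberField IsDedekindDomain Filter Topology Fermat.Agent.Lib.FrobDensity
open scoped ENNReal NNReal

variable (L : Type*) [Field L] [NumberField L] (G : Type*) [Group G] [Finite G]
  [MulSemiringAction G L] [IsGaloisGroup G ℚ L]

/-- The primes of `L` above the rational prime below `w0` versus `primesOver`. -/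
noncomputable def PrimesQ_fiberEquiv (v : HeightOneSpectrum ℤ) (p : ℕ)
    (hv : v.asIdeal = Ideal.span {(p : ℤ)}) :
    {w : HeightOneSpectrum (𝓞 L) // ell L w = p} ≃ v.asIdeal.primesOver (𝓞 L) where
  toFun w := ⟨w.1.asIdeal, w.1.isPrime, ⟨hv.trans (by
    have h := under_eq_span L w.1
    rw [w.2] at h
    exact h.symm)⟩⟩
  invFun Q := ⟨⟨Q.1, Q.2.1, Ideal.ne_bot_of_mem_primesOver v.ne_bot Q.2⟩, by
    have h1 : Q.1.under ℤ = Ideal.span {(p : ℤ)} := by rw [← hv]; exact Q.2.2.over.symm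
    have h2 := under_eq_span L ⟨Q.1, Q.2.1, Ideal.ne_bot_of_mem_primesOver v.ne_bot Q.2⟩
    rw [h1] at h2
    have h3 := congrArg Ideal.absNorm h2
    simpa using h3.symm⟩
  left_inv w := rfl
  right_inv Q := rfl

/-- `∑_{w ∣ p} f(w) ≤ |G|` (in fact `∑ e f = [L : ℚ] = |G|`: `Ideal.sum_ramification_inertia`, or
`Ideal.sum_ramification_inertia_eq_card` as in `Lib/FrobDensity/Fiber.lean`, `tsum_inertiaDeg`). -/
theorem tsum_fibre_inertiaDeg_le (p : ℕ) :
    ∑' w : {w : HeightOneSpectrum (𝓞 L) // ell L w = p}, (w.1.asIdeal.inertiaDeg ℤ : ℝ≥0∞) ≤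
      Nat.card G := by
  classical
  by_cases hne : Nonempty {w : HeightOneSpectrum (𝓞 L) // ell L w = p}
  · obtain ⟨w0, hw0⟩ := hne
    have : IsGaloisGroup G ℤ (𝓞 L) := IsGaloisGroup.of_isFractionRing G ℤ (𝓞 L) ℚ L
    set v : HeightOneSpectrum ℤ := HeightOneSpectrum.under ℤ w0 with hvdef
    have hv : v.asIdeal = Ideal.span {(p : ℤ)} := by
      rw [← hw0]
      exact under_eq_span L w0
    have h1 : ∑' w : {w : HeightOneSpectrum (𝓞 L) // ell L w = p},
        (w.1.asIdeal.inertiaDeg ℤ : ℝ≥0∞) =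
        ∑' Q : v.asIdeal.primesOver (𝓞 L), (Q.1.inertiaDeg ℤ : ℝ≥0∞) :=
      (PrimesQ_fiberEquiv L v p hv).tsum_eq
        (fun Q : v.asIdeal.primesOver (𝓞 L) => (Q.1.inertiaDeg ℤ : ℝ≥0∞))
    rw [h1, tsum_fintype,
      ← Ideal.sum_ramification_inertia_eq_card (p := v.asIdeal) (S := 𝓞 L) (G := G)]
    push_cast
    refine Finset.sum_le_sum fun Q _ => ?_
    have hQ : Q.1.IsPrime := Q.2.1
    have e1 : 0 < Q.1.ramificationIdx ℤ := Ideal.ramificationIdx_pos _ _
    have e2 : (1 : ℝ≥0∞) ≤ (Q.1.ramificationIdx ℤ : ℝ≥0∞) := by exact_mod_cast e1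
    calc (Q.1.inertiaDeg ℤ : ℝ≥0∞) = 1 * (Q.1.inertiaDeg ℤ : ℝ≥0∞) := (one_mul _).symm
      _ ≤ _ := by gcongr
  · have : IsEmpty {w : HeightOneSpectrum (𝓞 L) // ell L w = p} := not_nonempty_iff.1 hne
    rw [tsum_empty]
    exact bot_le

/-- The set of rational primes having a prime `w ∤ N` of `L` above them with Frobenius in `S`. -/
def primesOf (N : ℕ) (S : Set G) : Set ℕ :=
  {p | ∃ w : HeightOneSpectrum (𝓞 L), ell L w = p ∧ ¬ p ∣ N ∧ frob L G w ∈ S}

/-- Sum over the fibres of `ell` (`Equiv.sigmaFiberEquiv`, `ENNReal.tsum_sigma'`). -/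
theorem massS_le (N : ℕ) (S : Set G) (s : ℝ) :
    massS L G N S s ≤
      (Nat.card G : ℝ≥0∞) * ∑' p : ℕ, Set.indicator (primesOf L G N S) (fun p => nw s p) p := by
  classical
  rw [massS, ← ENNReal.tsum_mul_left, ← (Equiv.sigmaFiberEquiv (ell L)).tsum_eq,
    ENNReal.tsum_sigma']
  refine ENNReal.tsum_le_tsum fun p => ?_
  by_cases hp : p ∈ primesOf L G N S
  · rw [Set.indicator_of_mem hp]
    calc ∑' w : {w : HeightOneSpectrum (𝓞 L) // ell L w = p},
          Set.indicator {w | ¬ ell L w ∣ N ∧ frob L G w ∈ S}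
            (fun w => (w.asIdeal.inertiaDeg ℤ : ℝ≥0∞) * nw s (ell L w))
            ((Equiv.sigmaFiberEquiv (ell L)) ⟨p, w⟩)
        ≤ ∑' w : {w : HeightOneSpectrum (𝓞 L) // ell L w = p},
          (w.1.asIdeal.inertiaDeg ℤ : ℝ≥0∞) * nw s p := by
          refine ENNReal.tsum_le_tsum fun w => ?_
          show Set.indicator _ _ w.1 ≤ _
          refine (Set.indicator_le_self' (fun _ _ => bot_le) w.1).trans ?_
          rw [w.2]
      _ = (∑' w : {w : HeightOneSpectrum (𝓞 L) // ell L w = p},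
          (w.1.asIdeal.inertiaDeg ℤ : ℝ≥0∞)) * nw s p := ENNReal.tsum_mul_right
      _ ≤ (Nat.card G : ℝ≥0∞) * nw s p := by
          gcongr
          exact tsum_fibre_inertiaDeg_le L G p
  · rw [Set.indicator_of_notMem hp, mul_zero, nonpos_iff_eq_zero, ENNReal.tsum_eq_zero]
    intro w
    show Set.indicator _ _ w.1 = 0
    apply Set.indicator_of_notMem
    rintro ⟨h1, h2⟩
    exact hp ⟨w.1, w.2, by rw [← w.2]; exact h1, h2⟩

/-- Extraction of a finite subset: if `c * lam s ≤ ∑' + C` eventually and `c' < c` then eventually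
there is a finite subset `A ⊆ P` with `c' log (1/(s-1)) ≤ ∑_{p ∈ A} p^{-s}`.
(`lam s → ∞`: `tendsto_lam`; `ENNReal.tsum_eq_iSup_sum`, `lt_iSup_iff`; the finite set can be taken
inside `P` by filtering.) -/
theorem exists_finset_of_le (P : Set ℕ) (c : ℝ) (C : ℝ≥0)
    (h : ∀ᶠ s in 𝓝[>] (1 : ℝ), ENNReal.ofReal c * lam s ≤
      ∑' p : ℕ, Set.indicator P (fun p => nw s p) p + C) (c' : ℝ) (hc : c' < c) :
    ∀ᶠ s in 𝓝[>] (1 : ℝ), ∃ A : Finset ℕ, (∀ p ∈ A, p ∈ P) ∧
      c' * Real.log (1 / (s - 1)) ≤ ∑ p ∈ A, (p : ℝ) ^ (-s) := by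
  classical
  have hcc : 0 < c - c' := sub_pos.2 hc
  set K : ℝ := (C : ℝ) / (c - c') with hK
  have hK0 : 0 ≤ K := div_nonneg C.2 hcc.le
  have hev : ∀ᶠ s in 𝓝[>] (1 : ℝ), ENNReal.ofReal K < lam s :=
    tendsto_lam.eventually (lt_mem_nhds ENNReal.ofReal_lt_top)
  filter_upwards [h, hev] with s hs hKs
  set l : ℝ := Real.log (1 / (s - 1)) with hl
  have hKl : K < l := (ENNReal.ofReal_lt_ofReal_iff'.1 hKs).1
  have hl0 : 0 < l := lt_of_le_of_lt hK0 hKl
  have hCl : (C : ℝ) < (c - c') * l := by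
    rw [hK, div_lt_iff₀ hcc] at hKl
    linarith
  by_cases hc' : c' * l ≤ 0
  · exact ⟨∅, by simp, by simpa using hc'⟩
  · push Not at hc'
    have hc'0 : 0 < c' := by
      by_contra hneg
      push Not at hneg
      exact absurd (mul_nonpos_of_nonpos_of_nonneg hneg hl0.le) (not_le.2 hc')
    have hc0 : 0 < c := hc'0.trans hc
    have h1 : ENNReal.ofReal c * lam s = ENNReal.ofReal (c * l) := by
      rw [lam, ← ENNReal.ofReal_mul hc0.le]
    have h2 : ENNReal.ofReal (c' * l) + C < ENNReal.ofReal (c * l) := by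
      have : ENNReal.ofReal (c' * l) + C = ENNReal.ofReal (c' * l + C) := by
        have h0 := ENNReal.ofReal_add (p := c' * l) (q := (C : ℝ)) hc'.le C.2
        rw [h0, ENNReal.ofReal_coe_nnreal]
      rw [this]
      apply (ENNReal.ofReal_lt_ofReal_iff (mul_pos hc0 hl0)).2
      linarith
    have h3 : ENNReal.ofReal (c' * l) < ∑' p : ℕ, Set.indicator P (fun p => nw s p) p := by
      have h4 := h2.trans_le (h1 ▸ hs)
      exact (ENNReal.add_lt_add_iff_right ENNReal.coe_ne_top).1 h4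
    rw [ENNReal.tsum_eq_iSup_sum, lt_iSup_iff] at h3
    obtain ⟨B, hB⟩ := h3
    refine ⟨B.filter (· ∈ P), fun p hp => (Finset.mem_filter.1 hp).2, ?_⟩
    have h5 : ∑ p ∈ B, Set.indicator P (fun p => nw s p) p =
        ((∑ p ∈ B.filter (· ∈ P), (p : ℝ≥0) ^ (-s) : ℝ≥0) : ℝ≥0∞) := by
      rw [ENNReal.ofNNReal_finsetSum, Finset.sum_filter]
      refine Finset.sum_congr rfl fun p _ => ?_
      by_cases hp : p ∈ P
      · rw [Set.indicator_of_mem hp, if_pos hp]
        rfl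
      · rw [Set.indicator_of_notMem hp, if_neg hp]
    rw [h5, ENNReal.ofReal_lt_iff_lt_toReal hc'.le ENNReal.coe_ne_top, ENNReal.coe_toReal] at hB
    refine hB.le.trans (le_of_eq ?_)
    push_cast
    rfl

end Fermat.Agent.Lib.Cheb
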