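import Fermat.Agent.Lib.Cheb.Statement
import Fermat.Agent.Lib.Cheb.FinSymm
import Fermat.Agent.Lib.Cheb.Count
import Fermat.Agent.Lib.Cheb.PrimesQ
import Fermat.Agent.Lib.Cheb.Lift
import Fermat.Agent.Lib.Cheb.Field

/-!
# Symmetric Chebotarev density theorem: final assembly
-/

set_option autoImplicit false

namespace Fermat.Agent.Lib.Cheb

open NumberField IsDedekindDomain Filter Topology Fermat.Agent.Lib.FrobDensity
open scoped ENNReal NNReal

theorem Main_exists_pow (e : ℝ) {ε : ℝ} (hε : 0 < ε) : ∃ k : ℕ, e ^ 2 / 2 ^ k < ε := by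
  have h : Tendsto (fun k : ℕ => e ^ 2 * (1 / 2 : ℝ) ^ k) atTop (𝓝 (e ^ 2 * 0)) :=
    (tendsto_pow_atTop_nhds_zero_of_lt_one (by norm_num) (by norm_num)).const_mul _
  rw [mul_zero] at h
  obtain ⟨k, hk⟩ := (h.eventually (gt_mem_nhds hε)).exists
  refine ⟨k, ?_⟩
  have : e ^ 2 / 2 ^ k = e ^ 2 * (1 / 2 : ℝ) ^ k := by
    rw [one_div, inv_pow, div_eq_mul_inv]
  rw [this]
  exact hk

theorem chebSymm : ChebSymmStatement := by
  intro X _ _ _ _ φ hφ hsurj C hC T ε hε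
  classical
  obtain ⟨E, hEfin, hEnorm, hE⟩ := exists_normal_le_ker φ hφ
  have := hEfin
  have := hEnorm
  have : NumberField E := NumberField.mk
  have : IsGalois ℚ E := ⟨⟩
  set e : ℕ := Nat.card (E ≃ₐ[ℚ] E) with he
  have he0 : 0 < e := Nat.card_pos
  obtain ⟨k, hk⟩ := Main_exists_pow (e : ℝ) hε
  obtain ⟨m, hmp, hm1, hmod⟩ := Nat.exists_prime_gt_modEq_one (k := e ^ k) 1 (pow_ne_zero _ he0.ne')
  have : Fact m.Prime := ⟨hmp⟩
  have : NeZero m := ⟨hmp.ne_zero⟩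
  obtain ⟨ζ, hζ⟩ := exists_primitiveRoot hmp.ne_zero
  have : FiniteDimensional ℚ (crossField E ζ) := finiteDimensional_crossField E ζ
  have : Normal ℚ (crossField E ζ) := normal_crossField E hmp.ne_zero hζ
  have : NumberField (crossField E ζ) := NumberField.mk
  have : IsGalois ℚ (crossField E ζ) := ⟨⟩
  obtain ⟨r, χ, hr, hχ1, hrs, hχs, hinj⟩ := exists_maps E hζ
  -- the map induced by `φ` on `Gal(E/ℚ)`
  let ρE : (AlgebraicClosure ℚ ≃ₐ[ℚ] AlgebraicClosure ℚ) →* (E ≃ₐ[ℚ] E) :=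
    AlgEquiv.restrictNormalHom E
  have hρEs : Function.Surjective ρE := restrictNormalHom_surjective E
  have hker : ρE.ker ≤ φ.ker := by
    intro τ hτ
    apply hE
    rw [IntermediateField.mem_fixingSubgroup_iff]
    intro x hx
    have h2 : ((ρE τ (⟨x, hx⟩ : E) : E) : AlgebraicClosure ℚ) = τ x :=
      AlgEquiv.restrictNormal_commutes τ E ⟨x, hx⟩
    rw [MonoidHom.mem_ker.1 hτ] at h2
    exact h2.symm
  let φE : (E ≃ₐ[ℚ] E) →* X := ρE.liftOfSurjective hρEs ⟨φ, hker⟩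
  have hφE : ∀ τ, φE (ρE τ) = φ τ := fun τ =>
    MonoidHom.liftOfRightInverse_comp_apply ρE _ (Function.rightInverse_surjInv hρEs) ⟨φ, hker⟩ τ
  have hφEs : Function.Surjective φE := by
    intro x
    obtain ⟨τ, rfl⟩ := hsurj x
    exact ⟨ρE τ, hφE τ⟩
  set S₁ : Set (E ≃ₐ[ℚ] E) := φE ⁻¹' C with hS₁
  set S' : Set (crossField E ζ ≃ₐ[ℚ] crossField E ζ) := r ⁻¹' S₁ with hS'
  have hS'inv : ∀ g ∈ S', g⁻¹ ∈ S' := by
    intro g hg
    simp only [hS', hS₁, Set.mem_preimage, map_inv] at hg ⊢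
    exact hC _ hg
  -- the bad primes
  obtain ⟨N₁, hN₁, hin⟩ := exists_inertia_eq_bot (crossField E ζ)
    (crossField E ζ ≃ₐ[ℚ] crossField E ζ)
  set N₀ : ℕ := ∏ t ∈ T, (if t = 0 then 1 else t) with hN₀
  have hN₀0 : N₀ ≠ 0 := by
    rw [hN₀, Finset.prod_ne_zero_iff]
    intro t _
    split_ifs with h
    · exact one_ne_zero
    · exact h
  set N : ℕ := N₀ * m * N₁ with hN
  have hN0 : N ≠ 0 := mul_ne_zero (mul_ne_zero hN₀0 hmp.ne_zero) hN₁
  have hmN : m ∣ N := Dvd.dvd.mul_right (Dvd.intro_left _ rfl) _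
  have hinN : ∀ w : HeightOneSpectrum (𝓞 (crossField E ζ)), ¬ ell (crossField E ζ) w ∣ N →
      w.asIdeal.inertia (crossField E ζ ≃ₐ[ℚ] crossField E ζ) = ⊥ :=
    fun w hw => hin w fun h => hw (h.mul_left _)
  -- the primitive root in `E(ζ)`
  set ζ' : crossField E ζ := ⟨ζ, mem_crossField E ζ⟩ with hζ'def
  have hζ' : IsPrimitiveRoot ζ' m :=
    IsPrimitiveRoot.of_map_of_injective (f := algebraMap (crossField E ζ) (AlgebraicClosure ℚ))
      hζ (algebraMap (crossField E ζ) (AlgebraicClosure ℚ)).injective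
  obtain ⟨C₀, hC₀⟩ := massS_ge (crossField E ζ) (crossField E ζ ≃ₐ[ℚ] crossField E ζ) hζ' N hN0 hmN
    hinN S' hS'inv
  -- counting
  have hcardH : Nat.card (ZMod m)ˣ = m - 1 := by
    rw [Nat.card_eq_fintype_card, ZMod.card_units]
  have hdvd : Nat.card (E ≃ₐ[ℚ] E) ^ k ∣ Nat.card (ZMod m)ˣ := by
    rw [hcardH]
    exact (Nat.modEq_iff_dvd' (le_of_lt hmp.one_lt)).1 hmod.symm
  have hcount := card_good_ge r χ hrs hχs hinj k hdvd S₁
  set g' : ℕ := Nat.card (crossField E ζ ≃ₐ[ℚ] crossField E ζ) with hg'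
  have hg'0 : 0 < g' := Nat.card_pos
  set good : ℕ := Nat.card {γ : crossField E ζ ≃ₐ[ℚ] crossField E ζ //
    γ ∈ S' ∧ ∀ k : ℕ, (γ ^ k) • ζ' = ζ' → γ ^ k = 1} with hgood
  have hgoodeq : Nat.card {g : crossField E ζ ≃ₐ[ℚ] crossField E ζ //
      r g ∈ S₁ ∧ ∀ j : ℕ, χ (g ^ j) = 1 → g ^ j = 1} = good := by
    rw [hgood]
    refine Nat.card_congr (Equiv.subtypeEquivRight fun g => ?_)
    refine and_congr Iff.rfl (forall_congr' fun j => ?_)
    rw [hχ1]
    rfl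
  rw [hgoodeq, card_preimage_div φE hφEs C] at hcount
  set δ : ℝ := (Nat.card C : ℝ) / Nat.card X with hδ
  have hδ1 : δ ≤ 1 := by
    rw [hδ]
    apply div_le_one_of_le₀ _ (Nat.cast_nonneg _)
    exact_mod_cast Nat.card_le_card_of_injective (fun x : C => (x : X)) Subtype.val_injective
  have hδ0 : 0 ≤ δ := by rw [hδ]; positivity
  -- the constant `c = good / g'`
  set c : ℝ := (good : ℝ) / g' with hc
  have hg'R : (0 : ℝ) < g' := by exact_mod_cast hg'0
  have hclow : δ - ε < c := by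
    have h1 : δ * (1 - (e : ℝ) ^ 2 / 2 ^ k) ≤ c := by
      rw [hc, le_div_iff₀ hg'R]
      exact hcount
    have h2 : 0 ≤ (e : ℝ) ^ 2 / 2 ^ k := by positivity
    nlinarith
  have hmain : ∀ᶠ s in 𝓝[>] (1 : ℝ), ENNReal.ofReal c * lam s ≤
      ∑' p : ℕ, Set.indicator
        (primesOf (crossField E ζ) (crossField E ζ ≃ₐ[ℚ] crossField E ζ) N S')
        (fun p => nw s p) p + C₀ := by
    filter_upwards [hC₀] with s hs
    have h1 := hs.trans (add_le_add_left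
      (massS_le (crossField E ζ) (crossField E ζ ≃ₐ[ℚ] crossField E ζ) N S' s) _)
    set Sp : ℝ≥0∞ := ∑' p : ℕ, Set.indicator
      (primesOf (crossField E ζ) (crossField E ζ ≃ₐ[ℚ] crossField E ζ) N S')
      (fun p => nw s p) p with hSp
    have hg'E : (g' : ℝ≥0∞) ≠ 0 := by exact_mod_cast hg'0.ne'
    have hg'T : (g' : ℝ≥0∞) ≠ ∞ := ENNReal.natCast_ne_top _
    have h2 : ENNReal.ofReal c = (good : ℝ≥0∞) / g' := by
      rw [hc, ENNReal.ofReal_div_of_pos hg'R, ENNReal.ofReal_natCast, ENNReal.ofReal_natCast]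
    rw [h2]
    calc (good : ℝ≥0∞) / g' * lam s = ((good : ℝ≥0∞) * lam s) / g' := by
          rw [ENNReal.div_eq_inv_mul, ENNReal.div_eq_inv_mul, mul_assoc]
      _ ≤ ((g' : ℝ≥0∞) * Sp + C₀) / g' := ENNReal.div_le_div_right h1 _
      _ = Sp + (C₀ : ℝ≥0∞) / g' := by
          rw [ENNReal.add_div, mul_comm, ENNReal.mul_div_cancel_right hg'E hg'T]
      _ ≤ Sp + C₀ := by
          gcongr
          apply ENNReal.div_le_of_le_mul
          calc (C₀ : ℝ≥0∞) = C₀ * 1 := (mul_one _).symm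
            _ ≤ C₀ * g' := by
                gcongr
                exact_mod_cast hg'0
  have hfin := exists_finset_of_le _ c C₀ hmain (δ - ε) hclow
  filter_upwards [hfin] with s hs
  obtain ⟨A, hA, hAs⟩ := hs
  refine ⟨A, fun p hp => ?_, hAs⟩
  obtain ⟨w, hwp, hpN, hwS⟩ := hA p hp
  have hpprime : p.Prime := hwp ▸ ell_prime (crossField E ζ) w
  refine ⟨hpprime, ?_, ?_⟩
  · intro hpT
    apply hpN
    have h1 : (if p = 0 then 1 else p) ∣ N₀ := Finset.dvd_prod_of_mem _ hpT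
    rw [if_neg hpprime.ne_zero] at h1
    exact (h1.mul_right m).mul_right N₁
  · obtain ⟨A', σ, hA1, hA2, hA3⟩ := exists_frobenius_lift (crossField E ζ) w
      (hinN w (hwp ▸ hpN))
    refine ⟨A', σ, hwp ▸ hA1, hwp ▸ hA2, ?_⟩
    have h1 : φ σ = φE (r (AlgEquiv.restrictNormalHom (crossField E ζ) σ)) := by
      rw [hr, hφE]
    rw [h1, hA3]
    exact hwS

end Fermat.Agent.Lib.Cheb
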