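import Fermat.Agent.Lib.Cheb.Defs
import Fermat.Agent.CFT.EX0

/-!
# CHEB leaf II3: the norm modulo `m`, and `ψ (N (x))` in terms of `ψ (N x)` and the sign
-/

set_option autoImplicit false

namespace Fermat.Agent.Lib.Cheb

open NumberField

variable (K : Type*) [Field K] [NumberField K] {m : ℕ}

/-- Proof: `Algebra.norm_eq_matrix_det` for an integral basis (`RingOfIntegers.basis`), the matrices
`Algebra.leftMulMatrix b (x + m y)` and `Algebra.leftMulMatrix b x` have the same image under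
`(Int.castRingHom (ZMod m)).mapMatrix`; `RingHom.map_det`. -/
theorem norm_add_mul_cast (m : ℕ) (x y : 𝓞 K) :
    ((Algebra.norm ℤ (x + (m : 𝓞 K) * y) : ℤ) : ZMod m) = ((Algebra.norm ℤ x : ℤ) : ZMod m) := by
  classical
  have key : ∀ z : 𝓞 K, ((Algebra.norm ℤ z : ℤ) : ZMod m) =
      ((Int.castRingHom (ZMod m)).mapMatrix
        (Algebra.leftMulMatrix (RingOfIntegers.basis K) z)).det := by
    intro z
    rw [Algebra.norm_eq_matrix_det (RingOfIntegers.basis K) z, ← RingHom.map_det]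
    rfl
  rw [key, key, map_add, map_mul, map_natCast, map_add, map_mul, map_natCast]
  have h0 : ((m : ℕ) : Matrix (Module.Free.ChooseBasisIndex ℤ (𝓞 K))
      (Module.Free.ChooseBasisIndex ℤ (𝓞 K)) (ZMod m)) = 0 := by
    rw [← map_natCast (algebraMap (ZMod m) (Matrix (Module.Free.ChooseBasisIndex ℤ (𝓞 K))
      (Module.Free.ChooseBasisIndex ℤ (𝓞 K)) (ZMod m))), ZMod.natCast_self, map_zero]
  rw [h0, zero_mul, add_zero]

/-- `Ideal.absNorm_span_singleton`; `natAbs n = n` or `-n`. -/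
theorem psi_absNorm_span (ψ : DirichletCharacter ℂ m) (x : 𝓞 K) :
    ψ ((Ideal.absNorm (Ideal.span {x}) : ℕ) : ZMod m) =
      ψ ((Algebra.norm ℤ x : ℤ) : ZMod m) * (if Algebra.norm ℤ x < 0 then ψ (-1) else 1) := by
  rw [Ideal.absNorm_span_singleton]
  generalize Algebra.norm ℤ x = n
  have h1 : ((n.natAbs : ℕ) : ZMod m) = (((n.natAbs : ℕ) : ℤ) : ZMod m) := (Int.cast_natCast _).symm
  rw [h1]
  split_ifs with h
  · rw [Int.ofNat_natAbs_of_nonpos h.le, ← map_mul]
    congr 1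
    push_cast
    ring
  · rw [Int.natAbs_of_nonneg (not_lt.mp h), mul_one]

theorem norm_psi_le_one (ψ : DirichletCharacter ℂ m) (a : ZMod m) : ‖ψ a‖ ≤ 1 :=
  DirichletCharacter.norm_le_one ψ a

/-- The summand of `Sfun` is `term (span {x}) * wtO x`. -/
theorem psi_mul_Phi (ψ : DirichletCharacter ℂ m) (s : ℝ) (x : 𝓞 K) :
    ψ ((Algebra.norm ℤ x : ℤ) : ZMod m) * Phi K (ψ (-1)) s x =
      term K ψ s (Ideal.span {x}) * (wtO K x : ℂ) := by
  unfold Phi term
  rw [psi_absNorm_span, Ideal.absNorm_span_singleton]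
  push_cast
  ring

theorem term_mul (ψ : DirichletCharacter ℂ m) (s : ℝ) (I J : Ideal (𝓞 K)) :
    term K ψ s (I * J) = term K ψ s I * term K ψ s J := by
  unfold term
  rw [map_mul, Nat.cast_mul, Nat.cast_mul, map_mul,
    Real.mul_rpow (Nat.cast_nonneg _) (Nat.cast_nonneg _)]
  push_cast
  ring

theorem term_bot (ψ : DirichletCharacter ℂ m) {s : ℝ} (hs : s ≠ 0) : term K ψ s ⊥ = 0 := by
  unfold term
  rw [Ideal.absNorm_bot, Nat.cast_zero, Nat.cast_zero, Real.zero_rpow (neg_ne_zero.mpr hs),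
    Complex.ofReal_zero, mul_zero]

theorem term_top (ψ : DirichletCharacter ℂ m) (s : ℝ) : term K ψ s ⊤ = 1 := by
  unfold term
  rw [Ideal.absNorm_top, Nat.cast_one, Nat.cast_one, map_one, Real.one_rpow, Complex.ofReal_one,
    mul_one]

theorem norm_term_le (ψ : DirichletCharacter ℂ m) (s : ℝ) (I : Ideal (𝓞 K)) :
    ‖term K ψ s I‖ ≤ (Ideal.absNorm I : ℝ) ^ (-s) := by
  unfold term
  have h0 : 0 ≤ (Ideal.absNorm I : ℝ) ^ (-s) := Real.rpow_nonneg (Nat.cast_nonneg _) _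
  rw [norm_mul, Complex.norm_real, Real.norm_of_nonneg h0]
  calc ‖ψ ((Ideal.absNorm I : ℕ) : ZMod m)‖ * (Ideal.absNorm I : ℝ) ^ (-s)
      ≤ 1 * (Ideal.absNorm I : ℝ) ^ (-s) :=
        mul_le_mul_of_nonneg_right (norm_psi_le_one ψ _) h0
    _ = _ := one_mul _

/-- Convergence of the Dedekind zeta function for `s > 1`.  One way: Mathlib's
`NumberField.dedekindZeta` / `LSeriesSummable` results, see how `Fermat.Agent.CFT.tsum_wt`,
`tsum_wt_eq_ofReal`, `eventually_tsum_wt_eq` (file `Fermat/Agent/CFT/EX0.lean`) do it; another way: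
at most `d` primes above each `p` and an Euler product bound. -/
theorem summable_absNorm_rpow {s : ℝ} (hs : 1 < s) :
    Summable fun I : Ideal (𝓞 K) => (Ideal.absNorm I : ℝ) ^ (-s) := by
  have h1 := Fermat.Agent.CFT.EX0.eventually_tsum_wt_eq K
  have h2 : ∀ᶠ t in nhdsWithin (1 : ℝ) (Set.Ioi 1), t ∈ Set.Ioo (1 : ℝ) s := Ioo_mem_nhdsGT hs
  obtain ⟨t, ht, ht1, hts⟩ := (h1.and h2).exists
  have hfin : ∑' I, Fermat.Agent.CFT.EX0.wt K t I ≠ ⊤ := by
    rw [ht]
    exact ENNReal.ofReal_ne_top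
  have hsum : Summable fun I : Ideal (𝓞 K) => ((Ideal.absNorm I : NNReal) ^ (-t) : NNReal) :=
    ENNReal.tsum_coe_ne_top_iff_summable.1 hfin
  have hsum' : Summable fun I : Ideal (𝓞 K) => (Ideal.absNorm I : ℝ) ^ (-t) := by
    have h3 := NNReal.summable_coe.2 hsum
    simpa using h3
  refine Summable.of_nonneg_of_le (fun I => Real.rpow_nonneg (Nat.cast_nonneg _) _) (fun I => ?_)
    hsum'
  rcases Nat.eq_zero_or_pos (Ideal.absNorm I) with h0 | h0
  · rw [h0, Nat.cast_zero, Real.zero_rpow (by linarith), Real.zero_rpow (by linarith)]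
  · exact Real.rpow_le_rpow_of_exponent_le (by exact_mod_cast h0) (by linarith)

theorem summable_term (ψ : DirichletCharacter ℂ m) {s : ℝ} (hs : 1 < s) :
    Summable fun I : Ideal (𝓞 K) => ‖term K ψ s I‖ :=
  Summable.of_nonneg_of_le (fun _ => norm_nonneg _) (fun I => norm_term_le K ψ s I)
    (summable_absNorm_rpow K hs)

end Fermat.Agent.Lib.Cheb
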