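import Fermat.Agent.Lib.Cheb.Tent

/-!
# CHEB leaf I2: the weight `wt` is a partition of unity for the action of the units
-/

set_option autoImplicit false

namespace Fermat.Agent.Lib.Cheb

open NumberField NumberField.mixedEmbedding NumberField.Units NumberField.InfinitePlace

variable (K : Type*) [Field K] [NumberField K]

theorem wt_nonneg (x : mixedSpace K) : 0 ≤ wt K x := by
  exact Finset.prod_nonneg fun i _ => tent_nonneg _

theorem wt_le_one (x : mixedSpace K) : wt K x ≤ 1 := by
  exact Finset.prod_le_one (fun i _ => tent_nonneg _) (fun i _ => tent_le_one _)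

theorem abs_coords_lt_one {x : mixedSpace K} (h : wt K x ≠ 0) (i : Fin (rank K)) :
    |coords K x i| < 1 := by
  exact abs_lt_one_of_tent_ne_zero (Finset.prod_ne_zero_iff.1 h i (Finset.mem_univ i))

/-- Proof: `logMap_unit_smul`, `logEmbedding` is additive, kills torsion
(`logEmbedding_eq_zero_iff`), `logEmbedding_fundSystem`, `Module.Basis.ofZLatticeBasis_apply`,
`Basis.repr_self`. -/
theorem coords_unit_smul (ζ : torsion K) (e : Fin (rank K) → ℤ) {x : mixedSpace K}
    (hx : mixedEmbedding.norm x ≠ 0) (i : Fin (rank K)) :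
    coords K ((((ζ : (𝓞 K)ˣ)) * ∏ j, fundSystem K j ^ e j) • x) i = coords K x i + e i := by
  classical
  unfold coords
  rw [logMap_unit_smul _ hx, map_add, Finsupp.add_apply, add_comm]
  congr 1
  have h1 : logEmbedding K (Additive.ofMul ((ζ : (𝓞 K)ˣ) * ∏ j, fundSystem K j ^ e j)) =
      ∑ j, (e j : ℝ) • ((basisUnitLattice K).ofZLatticeBasis ℝ (unitLattice K)) j := by
    rw [ofMul_mul, map_add, (dirichletUnitTheorem.logEmbedding_eq_zero_iff).2 ζ.2, zero_add, ofMul_prod, map_sum]
    refine Finset.sum_congr rfl fun j _ => ?_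
    rw [ofMul_zpow, map_zsmul, logEmbedding_fundSystem, Module.Basis.ofZLatticeBasis_apply,
      Int.cast_smul_eq_zsmul]
  rw [h1, Module.Basis.repr_sum_self]

theorem Weight_bijective : Function.Bijective
    (fun ζe : torsion K × (Fin (rank K) → ℤ) => (ζe.1 : (𝓞 K)ˣ) * ∏ i, fundSystem K i ^ ζe.2 i) := by
  constructor
  · intro a b hab
    obtain ⟨c, -, hc⟩ := exist_unique_eq_mul_prod K ((a.1 : (𝓞 K)ˣ) * ∏ i, fundSystem K i ^ a.2 i)
    exact (hc a rfl).trans (hc b hab).symm
  · intro u
    obtain ⟨c, hc, -⟩ := exist_unique_eq_mul_prod K u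
    exact ⟨c, hc.symm⟩

theorem Weight_hasSum_one : HasSum (fun _ : torsion K => (1 : ℝ)) (torsionOrder K : ℝ) := by
  let _ := Fintype.ofFinite (torsion K)
  have := hasSum_fintype (fun _ : torsion K => (1 : ℝ))
  rwa [Finset.sum_const, Finset.card_univ, nsmul_eq_mul, mul_one, ← Nat.card_eq_fintype_card]
    at this

theorem Weight_hasSum_snd {T U : Type*} {N : ℝ} (h2 : HasSum (fun _ : T => (1 : ℝ)) N) (g : U → ℝ)
    (hg : HasSum g 1) (hn : ∀ e, 0 ≤ g e) : HasSum (fun ζe : T × U => g ζe.2) N := by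
  have hs : Summable (fun x : T × U => (fun _ : T => (1 : ℝ)) x.1 * g x.2) :=
    Summable.mul_of_nonneg h2.summable hg.summable (fun _ => zero_le_one) hn
  have h4 := h2.mul hg hs
  simpa using h4

/-- **Partition of unity.**  Proof: the map `(ζ, e) ↦ ζ * ∏ fundSystem ^ e` is a bijection
`torsion K × (Fin (rank K) → ℤ) ≃ (𝓞 K)ˣ` (`exist_unique_eq_mul_prod`); transport the sum, use
`coords_unit_smul` and `hasSum_prod_tent`; `torsion K` is finite of cardinality `torsionOrder K`. -/
theorem hasSum_wt_unit_smul {x : mixedSpace K} (hx : mixedEmbedding.norm x ≠ 0) :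
    HasSum (fun u : (𝓞 K)ˣ => wt K (u • x)) (torsionOrder K : ℝ) := by
  rw [← (Equiv.ofBijective _ (Weight_bijective K)).hasSum_iff]
  have h1 := Weight_hasSum_snd (Weight_hasSum_one K)
    (fun e : Fin (rank K) → ℤ => ∏ i, tent (coords K x i + e i))
    (hasSum_prod_tent (fun i => coords K x i))
    (fun e => Finset.prod_nonneg fun i _ => tent_nonneg _)
  refine h1.congr_fun ?_
  intro ζe
  show wt K (((ζe.1 : (𝓞 K)ˣ) * ∏ i, fundSystem K i ^ ζe.2 i) • x) = _
  rw [wt]
  exact Finset.prod_congr rfl fun i _ => by rw [coords_unit_smul K ζe.1 ζe.2 hx i]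

end Fermat.Agent.Lib.Cheb
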