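import Fermat.Agent.Lib.Cheb.NormMod
import Fermat.Agent.Lib.Cheb.Weight

/-!
# CHEB leaf II1: lattice sums versus sums over principal ideals
-/

set_option autoImplicit false

namespace Fermat.Agent.Lib.Cheb

open NumberField NumberField.mixedEmbedding NumberField.Units

open scoped Classical in
/-- abstract summation over the fibres of a map. -/
theorem Orbit_hasSum_fibres {α β : Type*} (f : α → β) (G : β → ℂ) (w : α → ℝ) (hw : ∀ x, 0 ≤ w x)
    {N : ℝ} (hN : 0 ≤ N) (P : β → Prop)
    (h1 : ∀ b, P b → HasSum (fun x : {x // f x = b} => w x.1) N)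
    (h2 : ∀ b, ¬ P b → ∀ x, f x = b → G b = 0) (hG : Summable fun b => ‖G b‖) :
    HasSum (fun x => G (f x) * (w x : ℂ)) ((N : ℂ) * ∑' b, if P b then G b else 0) := by
  rw [← (Equiv.sigmaFiberEquiv f).hasSum_iff]
  have hH : ((fun x => G (f x) * (w x : ℂ)) ∘ (Equiv.sigmaFiberEquiv f)) =
      fun p : (Σ b, {x // f x = b}) => G p.1 * (w p.2.1 : ℂ) := by
    funext p
    show G (f p.2.1) * (w p.2.1 : ℂ) = _
    rw [p.2.2]
  rw [hH]
  have hGP : Summable fun b => if P b then G b else 0 := by
    refine Summable.of_norm (Summable.of_nonneg_of_le (fun _ => norm_nonneg _) (fun b => ?_) hG)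
    split_ifs
    · exact le_rfl
    · rw [norm_zero]; exact norm_nonneg _
  refine HasSum.sigma_of_hasSum (g := fun b => (N : ℂ) * if P b then G b else 0)
    (hGP.hasSum.mul_left _) (fun b => ?_) ?_
  · by_cases hb : P b
    · rw [if_pos hb, mul_comm]
      exact (Complex.hasSum_ofReal.2 (h1 b hb)).mul_left (G b)
    · rw [if_neg hb, mul_zero]
      have : (fun c : {x // f x = b} => G b * (w c.1 : ℂ)) = fun _ => 0 := by
        funext c
        rw [h2 b hb c.1 c.2, zero_mul]
      show HasSum (fun c : {x // f x = b} => G b * (w c.1 : ℂ)) 0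
      rw [this]
      exact hasSum_zero
  · apply Summable.of_norm
    have hn : (fun p : (Σ b, {x // f x = b}) => ‖G p.1 * (w p.2.1 : ℂ)‖) =
        fun p : (Σ b, {x // f x = b}) => ‖G p.1‖ * w p.2.1 := by
      funext p
      rw [norm_mul, Complex.norm_real, Real.norm_of_nonneg (hw _)]
    rw [hn, summable_sigma_of_nonneg (fun p => mul_nonneg (norm_nonneg _) (hw _))]
    have key : ∀ b, HasSum (fun c : {x // f x = b} => ‖G b‖ * w c.1)
        (if P b then ‖G b‖ * N else 0) := by
      intro b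
      by_cases hb : P b
      · rw [if_pos hb]
        exact (h1 b hb).mul_left _
      · rw [if_neg hb]
        have : (fun c : {x // f x = b} => ‖G b‖ * w c.1) = fun _ => 0 := by
          funext c
          rw [h2 b hb c.1 c.2, norm_zero, zero_mul]
        rw [this]
        exact hasSum_zero
    refine ⟨fun b => (key b).summable, ?_⟩
    have : (fun b => ∑' c : {x // f x = b}, ‖G b‖ * w c.1) =
        fun b => if P b then ‖G b‖ * N else 0 := by
      funext b
      exact (key b).tsum_eq
    show Summable (fun b => ∑' c : {x // f x = b}, ‖G b‖ * w c.1)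
    rw [this]
    refine Summable.of_nonneg_of_le (fun b => ?_) (fun b => ?_) (hG.mul_right N)
    · split_ifs
      · exact mul_nonneg (norm_nonneg _) hN
      · exact le_rfl
    · split_ifs
      · exact le_rfl
      · exact mul_nonneg (norm_nonneg _) hN

variable (K : Type*) [Field K] [NumberField K] {m : ℕ}

theorem Orbit_bijective {x₀ : 𝓞 K} (hx₀ : x₀ ≠ 0) : Function.Bijective
    (fun u : (𝓞 K)ˣ => (⟨(u : 𝓞 K) * x₀, by
      rw [Ideal.span_singleton_eq_span_singleton]
      exact ⟨u⁻¹, by rw [mul_comm, ← mul_assoc, Units.inv_mul, one_mul]⟩⟩ :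
        {x : 𝓞 K // Ideal.span {x} = Ideal.span {x₀}})) := by
  constructor
  · intro u v huv
    have h1 : (u : 𝓞 K) * x₀ = (v : 𝓞 K) * x₀ := congrArg Subtype.val huv
    exact Units.ext (mul_right_cancel₀ hx₀ h1)
  · rintro ⟨x, hx⟩
    obtain ⟨u, hu⟩ := Ideal.span_singleton_eq_span_singleton.1 hx
    refine ⟨u⁻¹, Subtype.ext ?_⟩
    show ((u⁻¹ : (𝓞 K)ˣ) : 𝓞 K) * x₀ = x
    rw [← hu, mul_comm, mul_assoc, Units.mul_inv, mul_one]

/-- The generators of a nonzero principal ideal have total weight `|μ_K|`.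
Proof: `u ↦ u * x₀` is a bijection from the units to the generators of `span {x₀}`
(`Ideal.span_singleton_eq_span_singleton`, `Associated`), `mixedEmbedding K (u * x₀) = u • _`
(`unitSMul_smul`), `hasSum_wt_unit_smul`. -/
theorem hasSum_wtO_generators {x₀ : 𝓞 K} (hx₀ : x₀ ≠ 0) :
    HasSum (fun x : {x : 𝓞 K // Ideal.span {x} = Ideal.span {x₀}} => wtO K x.1)
      (torsionOrder K : ℝ) := by
  rw [← (Equiv.ofBijective _ (Orbit_bijective K hx₀)).hasSum_iff]
  have hn : mixedEmbedding.norm (mixedEmbedding K (x₀ : K)) ≠ 0 := by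
    rw [norm_eq_norm]
    simpa using hx₀
  refine (hasSum_wt_unit_smul K hn).congr_fun ?_
  intro u
  show wtO K ((u : 𝓞 K) * x₀) = wt K (u • mixedEmbedding K (x₀ : K))
  rw [wtO, unitSMul_smul, ← map_mul]
  rfl

/-- **Lattice sum = `|μ|` times the sum over principal ideals.**
Proof: by `psi_mul_Phi` the summand is `term (span {x}) * wtO x`; it is absolutely summable
(sum first over the fibres of `x ↦ span {x}`; `0 ≤ wtO`, `hasSum_wtO_generators`, `summable_term`);
`tsum` over the sigma type of the fibres (`Equiv.sigmaFiberEquiv`, `Summable.tsum_sigma'`).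
Fibre over `I`: empty if `I` is not principal; `{0}` with `term ⊥ = 0` if `I = ⊥`; if
`I = span {x₀}`, `x₀ ≠ 0`, then `x ∈ J ↔ J ∣ I` for every generator `x`
(`Ideal.dvd_span_singleton`). -/
theorem Sfun_eq (ψ : DirichletCharacter ℂ m) (J : Ideal (𝓞 K)) {s : ℝ} (hs : 1 < s) :
    Sfun K ψ J s = (torsionOrder K : ℂ) * Pfun K ψ J s := by
  classical
  have hs0 : s ≠ 0 := by linarith
  have hG : Summable fun I : Ideal (𝓞 K) => ‖(if J ∣ I then term K ψ s I else 0 : ℂ)‖ := by
    refine Summable.of_nonneg_of_le (fun _ => norm_nonneg _) (fun I => ?_) (summable_term K ψ hs)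
    split_ifs
    · exact le_rfl
    · rw [norm_zero]; exact norm_nonneg _
  have key := Orbit_hasSum_fibres (fun x : 𝓞 K => Ideal.span {x})
    (fun I => if J ∣ I then term K ψ s I else 0) (fun x => wtO K x) (fun x => wt_nonneg K _)
    (N := (torsionOrder K : ℝ)) (Nat.cast_nonneg _) (fun I => I.IsPrincipal ∧ I ≠ ⊥)
    (by
      rintro I ⟨⟨x₀, rfl⟩, h0⟩
      have hx₀ : x₀ ≠ 0 := by
        rintro rfl
        exact h0 (by simp)
      exact hasSum_wtO_generators K hx₀)
    (by
      rintro I hI x rfl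
      have hx : x = 0 := by
        by_contra hx
        exact hI ⟨⟨x, rfl⟩, by simpa using hx⟩
      subst hx
      have : Ideal.span {(0 : 𝓞 K)} = ⊥ := by simp
      rw [this, term_bot K ψ hs0, ite_self])
    hG
  have h1 : Sfun K ψ J s = ∑' x : 𝓞 K, (if J ∣ Ideal.span {x} then term K ψ s (Ideal.span {x})
      else 0) * ((wtO K x : ℝ) : ℂ) := by
    unfold Sfun
    refine tsum_congr fun x => ?_
    rw [psi_mul_Phi, Ideal.dvd_span_singleton]
    split_ifs
    · rfl
    · rw [zero_mul]
  rw [h1, key.tsum_eq]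
  push_cast
  congr 1
  unfold Pfun
  refine tsum_congr fun I => ?_
  by_cases hI0 : I = ⊥
  · subst hI0
    simp [term_bot K ψ hs0]
  · by_cases hp : I.IsPrincipal <;> by_cases hJ : J ∣ I <;> simp [hI0, hp, hJ]

end Fermat.Agent.Lib.Cheb
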