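import Mathlib
import Fermat.Prelude.Def_FLTPrelim_Ramification
import Fermat.Prelude.Def_EllipticCurve_FrobeniusTrace

/-!
# Symmetric Chebotarev density theorem: the statement (contract for the consumers)

`ChebSymmStatement` is proved in `Fermat/Agent/Lib/Cheb/Main.lean` (`chebSymm`).
-/

set_option autoImplicit false

namespace Fermat.Agent.Lib.Cheb

open Filter Topology

/-- **Symmetric Chebotarev density theorem, lower bound form.**
`φ` a continuous surjection of `Gal(ℚ̄/ℚ)` onto a finite (discrete) group `X`, `C ⊆ X` stable under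
inversion (no stability under conjugation is needed), `T` a finite set of primes, `ε > 0`.  Then for
`s > 1` close to `1` there is a finite set `S` of primes `p ∉ T`, each having a Frobenius element
`σ` with `φ σ ∈ C`, such that `∑_{p ∈ S} p^{-s} ≥ (|C|/|X| - ε) log (1/(s-1))`. -/
def ChebSymmStatement : Prop :=
  ∀ (X : Type) [Group X] [Finite X] [TopologicalSpace X] [DiscreteTopology X]
    (φ : (AlgebraicClosure ℚ ≃ₐ[ℚ] AlgebraicClosure ℚ) →* X), Continuous φ →
    Function.Surjective φ → ∀ (C : Set X), (∀ x ∈ C, x⁻¹ ∈ C) → ∀ (T : Finset ℕ) (ε : ℝ), 0 < ε →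
    ∀ᶠ s in 𝓝[>] (1 : ℝ), ∃ S : Finset ℕ,
      (∀ p ∈ S, p.Prime ∧ p ∉ T ∧ ∃ (A : ValuationSubring (AlgebraicClosure ℚ))
        (σ : AlgebraicClosure ℚ ≃ₐ[ℚ] AlgebraicClosure ℚ),
        A.LiesOverPrime p ∧ A.IsFrobeniusAt σ p ∧ φ σ ∈ C) ∧
      ((Nat.card C : ℝ) / Nat.card X - ε) * Real.log (1 / (s - 1)) ≤ ∑ p ∈ S, (p : ℝ) ^ (-s)

end Fermat.Agent.Lib.Cheb
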