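import Fermat.Agent.Lib.Cheb.Weight

/-!
# CHEB leaf I3: on the support of `wt` all the coordinates have the same size
-/

set_option autoImplicit false

namespace Fermat.Agent.Lib.Cheb

open NumberField NumberField.mixedEmbedding NumberField.Units NumberField.InfinitePlace
  NumberField.Units.dirichletUnitTheorem

open scoped Classical

variable (K : Type*) [Field K] [NumberField K]

/-- the normalised logarithm at all places. -/
noncomputable def Support_a (x : mixedSpace K) (w : InfinitePlace K) : ℝ :=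
  mult w * (Real.log (normAtPlace w x) -
    Real.log (mixedEmbedding.norm x) * (Module.finrank ℚ K : ℝ)⁻¹)

theorem Support_sum_a {x : mixedSpace K} (hx : mixedEmbedding.norm x ≠ 0) :
    ∑ w, Support_a K x w = 0 := by
  have hd : (Module.finrank ℚ K : ℝ) ≠ 0 := by
    have := Module.finrank_pos (R := ℚ) (M := K)
    positivity
  have h1 : Real.log (mixedEmbedding.norm x) =
      ∑ w : InfinitePlace K, (mult w : ℝ) * Real.log (normAtPlace w x) := by
    rw [mixedEmbedding.norm_apply, Real.log_prod]
    · refine Finset.sum_congr rfl fun w _ => ?_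
      rw [Real.log_pow]
    · intro w _
      exact pow_ne_zero _ (mixedEmbedding.norm_ne_zero_iff.mp hx w)
  have h2 : ∑ w : InfinitePlace K, (mult w : ℝ) = Module.finrank ℚ K := by
    rw [← Nat.cast_sum, sum_mult_eq]
  unfold Support_a
  simp only [mul_sub]
  rw [Finset.sum_sub_distrib, ← h1, ← Finset.sum_mul, h2]
  field_simp
  ring

theorem Support_norm_logMap_le {x : mixedSpace K} (h : wt K x ≠ 0) :
    ‖logMap x‖ ≤ ∑ i, ‖((basisUnitLattice K).ofZLatticeBasis ℝ (unitLattice K)) i‖ := by
  have h1 := ((basisUnitLattice K).ofZLatticeBasis ℝ (unitLattice K)).sum_repr (logMap x)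
  rw [← h1]
  refine (norm_sum_le _ _).trans (Finset.sum_le_sum fun i _ => ?_)
  rw [_root_.norm_smul]
  have h2 : |coords K x i| < 1 := abs_coords_lt_one K h i
  calc ‖((basisUnitLattice K).ofZLatticeBasis ℝ (unitLattice K)).repr (logMap x) i‖ *
        ‖((basisUnitLattice K).ofZLatticeBasis ℝ (unitLattice K)) i‖
      ≤ 1 * ‖((basisUnitLattice K).ofZLatticeBasis ℝ (unitLattice K)) i‖ := by
        gcongr
        exact h2.le
    _ = _ := one_mul _

/-- Proof.  `wt x ≠ 0` gives `|coords x i| < 1`, hence `logMap x = ∑ coords x i • b_i` has norm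
`≤ B := ∑ ‖b_i‖`.  So `|mult w * (log |x|_w - log (N x) / d)| ≤ B` for `w ≠ w₀`; these quantities
sum to `0` over ALL `w` (`mixedEmbedding.norm_apply`, `sum_mult_eq`), which bounds the one at `w₀`
by `card * B`.  Hence `|log |x|_w - log (N x)/d| ≤ B'` for all `w`, so
`|x|_w ≥ exp (-B') (N x)^(1/d)` and `‖x‖ = sup_w |x|_w ≤ exp B' (N x)^(1/d)`
(`norm_eq_sup'_normAtPlace`).  Take `c = exp (-2 B')`. -/
theorem exists_le_normAtPlace : ∃ c : ℝ, 0 < c ∧ ∀ x : mixedSpace K,
    mixedEmbedding.norm x ≠ 0 → wt K x ≠ 0 → ∀ w : InfinitePlace K, c * ‖x‖ ≤ normAtPlace w x := by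
  set B : ℝ := ∑ i, ‖((basisUnitLattice K).ofZLatticeBasis ℝ (unitLattice K)) i‖ with hB
  have hB0 : 0 ≤ B := Finset.sum_nonneg fun i _ => norm_nonneg _
  set C : ℝ := (Fintype.card (InfinitePlace K) : ℝ) * B + B with hC
  refine ⟨Real.exp (-(2 * C)), Real.exp_pos _, fun x hx hwt w => ?_⟩
  have hne : ∀ w : InfinitePlace K, w ≠ w₀ → |Support_a K x w| ≤ B := by
    intro w hw
    have h1 : |logMap x ⟨w, hw⟩| ≤ ‖logMap x‖ := by
      rw [← Real.norm_eq_abs]
      exact norm_le_pi_norm (logMap x) ⟨w, hw⟩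
    exact h1.trans (Support_norm_logMap_le K hwt)
  have h0 : |Support_a K x w₀| ≤ (Fintype.card (InfinitePlace K) : ℝ) * B := by
    have h1 := Support_sum_a K hx
    rw [← Finset.add_sum_erase _ _ (Finset.mem_univ (w₀ : InfinitePlace K))] at h1
    have h2 : Support_a K x w₀ = - ∑ w ∈ Finset.univ.erase (w₀ : InfinitePlace K),
        Support_a K x w := by linarith
    rw [h2, abs_neg]
    refine (Finset.abs_sum_le_sum_abs _ _).trans ?_
    calc ∑ w ∈ Finset.univ.erase (w₀ : InfinitePlace K), |Support_a K x w|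
        ≤ ∑ w ∈ Finset.univ.erase (w₀ : InfinitePlace K), B :=
          Finset.sum_le_sum fun w hw => hne w (Finset.ne_of_mem_erase hw)
      _ = ((Finset.univ.erase (w₀ : InfinitePlace K)).card : ℝ) * B := by
          rw [Finset.sum_const, nsmul_eq_mul]
      _ ≤ (Fintype.card (InfinitePlace K) : ℝ) * B := by
          gcongr
          exact Finset.card_le_univ _
  have hall : ∀ w : InfinitePlace K, |Real.log (normAtPlace w x) -
      Real.log (mixedEmbedding.norm x) * (Module.finrank ℚ K : ℝ)⁻¹| ≤ C := by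
    intro w
    have h1 : |Support_a K x w| ≤ C := by
      by_cases hw : w = w₀
      · rw [hw]
        linarith
      · have := hne w hw
        have h3 : 0 ≤ (Fintype.card (InfinitePlace K) : ℝ) * B := by positivity
        linarith
    refine le_trans ?_ h1
    unfold Support_a
    rw [abs_mul]
    have h2 : (1 : ℝ) ≤ |(mult w : ℝ)| := by
      rw [abs_of_nonneg (by positivity)]
      exact one_le_mult
    exact le_mul_of_one_le_left (abs_nonneg _) h2
  have hpos : ∀ w : InfinitePlace K, 0 < normAtPlace w x := fun w =>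
    lt_of_le_of_ne (normAtPlace_nonneg w x) (mixedEmbedding.norm_ne_zero_iff.mp hx w).symm
  have hcmp : ∀ w' : InfinitePlace K, normAtPlace w' x ≤ Real.exp (2 * C) * normAtPlace w x := by
    intro w'
    have h1 := abs_le.mp (hall w)
    have h2 := abs_le.mp (hall w')
    have h3 : Real.log (normAtPlace w' x) ≤ 2 * C + Real.log (normAtPlace w x) := by linarith
    rw [← Real.exp_log (hpos w'), ← Real.exp_log (hpos w), ← Real.exp_add]
    exact Real.exp_le_exp.mpr h3
  have hnorm : ‖x‖ ≤ Real.exp (2 * C) * normAtPlace w x := by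
    rw [norm_eq_sup'_normAtPlace]
    exact Finset.sup'_le _ _ fun w' _ => hcmp w'
  rw [Real.exp_neg, inv_mul_le_iff₀ (Real.exp_pos _)]
  exact hnorm

end Fermat.Agent.Lib.Cheb
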