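import Fermat.Agent.Lib.Cheb.Defs

/-!
# CHEB leaf I1: the tent function (pure real analysis, Mathlib only)
-/

set_option autoImplicit false

namespace Fermat.Agent.Lib.Cheb

theorem tent_nonneg (t : ℝ) : 0 ≤ tent t := le_max_left _ _

theorem tent_le_one (t : ℝ) : tent t ≤ 1 :=
  max_le zero_le_one (by linarith [abs_nonneg t])

theorem tent_eq_zero {t : ℝ} (h : 1 ≤ |t|) : tent t = 0 :=
  max_eq_left (by linarith)

theorem abs_lt_one_of_tent_ne_zero {t : ℝ} (h : tent t ≠ 0) : |t| < 1 := by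
  by_contra hc
  exact h (tent_eq_zero (not_lt.mp hc))

/-- `tent` is 1-Lipschitz. -/
theorem abs_tent_sub_le (a b : ℝ) : |tent a - tent b| ≤ |a - b| := by
  unfold tent
  rw [max_comm 0, max_comm 0]
  refine (abs_max_sub_max_le_abs _ _ _).trans ?_
  have h : (1 - |a|) - (1 - |b|) = -(|a| - |b|) := by ring
  rw [h, abs_neg]
  exact abs_abs_sub_abs_le_abs_sub a b

/-- The two integers `k` for which `tent (t + k)` may be nonzero. -/
noncomputable def Tent_supp (t : ℝ) : Finset ℤ := {-⌊t⌋, -⌊t⌋ - 1}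

theorem Tent_eq_zero_of_notMem (t : ℝ) (k : ℤ) (hk : k ∉ Tent_supp t) : tent (t + k) = 0 := by
  apply tent_eq_zero
  simp only [Tent_supp, Finset.mem_insert, Finset.mem_singleton, not_or] at hk
  obtain ⟨h1, h2⟩ := hk
  have hf0 := Int.floor_le t
  have hf1 := Int.lt_floor_add_one t
  rcases lt_or_ge (⌊t⌋ + k) 0 with h | h
  · have h3 : ⌊t⌋ + k ≤ -2 := by omega
    have h4 : ((⌊t⌋ : ℝ)) + (k : ℝ) ≤ -2 := by exact_mod_cast h3
    rw [le_abs]
    right
    linarith
  · have h3 : 1 ≤ ⌊t⌋ + k := by omega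
    have h4 : (1 : ℝ) ≤ ((⌊t⌋ : ℝ)) + (k : ℝ) := by exact_mod_cast h3
    rw [le_abs]
    left
    linarith

theorem Tent_sum_supp (t : ℝ) : ∑ k ∈ Tent_supp t, tent (t + k) = 1 := by
  have hne : (-⌊t⌋ : ℤ) ≠ -⌊t⌋ - 1 := by omega
  rw [Tent_supp, Finset.sum_pair hne]
  have hf0 := Int.floor_le t
  have hf1 := Int.lt_floor_add_one t
  have e1 : tent (t + ((-⌊t⌋ : ℤ) : ℝ)) = 1 - (t - ⌊t⌋) := by
    unfold tent
    push_cast
    rw [abs_of_nonneg (by linarith), max_eq_right (by linarith)]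
    ring
  have e2 : tent (t + ((-⌊t⌋ - 1 : ℤ) : ℝ)) = t - ⌊t⌋ := by
    unfold tent
    push_cast
    rw [abs_of_nonpos (by linarith), max_eq_right (by linarith)]
    ring
  rw [e1, e2]
  ring

/-- Partition of unity.  Proof: only `k = -⌊t⌋` and `k = -⌊t⌋ - 1` contribute
(`hasSum_sum_of_ne_finset_zero`), with values `1 - fract t` and `fract t`. -/
theorem hasSum_tent_int (t : ℝ) : HasSum (fun k : ℤ => tent (t + k)) 1 := by
  have h : HasSum (fun k : ℤ => tent (t + k)) (∑ k ∈ Tent_supp t, tent (t + k)) :=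
    hasSum_sum_of_ne_finset_zero (fun k hk => Tent_eq_zero_of_notMem t k hk)
  rwa [Tent_sum_supp] at h

/-- Partition of unity in `r` variables.  Proof: the support is contained in the finite box
`Fintype.piFinset (fun i => {-⌊c i⌋, -⌊c i⌋ - 1})`; use `Finset.prod_univ_sum`. -/
theorem hasSum_prod_tent {r : ℕ} (c : Fin r → ℝ) :
    HasSum (fun e : Fin r → ℤ => ∏ i, tent (c i + e i)) 1 := by
  have h : HasSum (fun e : Fin r → ℤ => ∏ i, tent (c i + e i))
      (∑ e ∈ Fintype.piFinset (fun i => Tent_supp (c i)), ∏ i, tent (c i + e i)) :=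
    hasSum_sum_of_ne_finset_zero (by
      intro e he
      rw [Fintype.mem_piFinset, not_forall] at he
      obtain ⟨i, hi⟩ := he
      exact Finset.prod_eq_zero (Finset.mem_univ i) (Tent_eq_zero_of_notMem _ _ hi))
  have h2 : ∑ e ∈ Fintype.piFinset (fun i => Tent_supp (c i)), ∏ i, tent (c i + e i) = 1 := by
    rw [← Finset.prod_univ_sum (fun i => Tent_supp (c i)) (fun i (k : ℤ) => tent (c i + k))]
    exact Finset.prod_eq_one (fun i _ => Tent_sum_supp (c i))
  rwa [h2] at h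

theorem Tent_abs_prod_sub_le {ι : Type*} (s : Finset ι) (a b : ι → ℝ) :
    |∏ i ∈ s, tent (a i) - ∏ i ∈ s, tent (b i)| ≤ ∑ i ∈ s, |a i - b i| := by
  classical
  induction s using Finset.induction_on with
  | empty => simp
  | insert j s hj ih =>
    rw [Finset.prod_insert hj, Finset.prod_insert hj, Finset.sum_insert hj]
    have hQ0 : 0 ≤ ∏ i ∈ s, tent (b i) := Finset.prod_nonneg (fun i _ => tent_nonneg _)
    have hQ1 : ∏ i ∈ s, tent (b i) ≤ 1 :=
      Finset.prod_le_one (fun i _ => tent_nonneg _) (fun i _ => tent_le_one _)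
    have e : tent (a j) * ∏ i ∈ s, tent (a i) - tent (b j) * ∏ i ∈ s, tent (b i) =
        tent (a j) * (∏ i ∈ s, tent (a i) - ∏ i ∈ s, tent (b i)) +
          (tent (a j) - tent (b j)) * ∏ i ∈ s, tent (b i) := by ring
    rw [e]
    refine (abs_add_le _ _).trans ?_
    rw [abs_mul, abs_mul, abs_of_nonneg (tent_nonneg (a j)), abs_of_nonneg hQ0]
    have h1 : tent (a j) * |∏ i ∈ s, tent (a i) - ∏ i ∈ s, tent (b i)| ≤
        ∑ i ∈ s, |a i - b i| :=
      (mul_le_of_le_one_left (abs_nonneg _) (tent_le_one _)).trans ih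
    have h2 : |tent (a j) - tent (b j)| * ∏ i ∈ s, tent (b i) ≤ |a j - b j| :=
      (mul_le_of_le_one_right (abs_nonneg _) hQ1).trans (abs_tent_sub_le _ _)
    linarith

/-- Proof: induction on `r` (or `Finset.induction`), using `0 ≤ tent ≤ 1` and `abs_tent_sub_le`. -/
theorem abs_prod_tent_sub_le {r : ℕ} (a b : Fin r → ℝ) :
    |∏ i, tent (a i) - ∏ i, tent (b i)| ≤ ∑ i, |a i - b i| :=
  Tent_abs_prod_sub_le Finset.univ a b

end Fermat.Agent.Lib.Cheb
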